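import Fermat.Agent.S24.HasExp

set_option autoImplicit false
open Filter Topology UpperHalfPlane ModularForm EisensteinSeries
open scoped PowerSeries.WithPiTopology MatrixGroups Manifold

namespace Fermat.Agent.S24Lib

theorem tendstoLocallyUniformlyOn_iteratedDeriv {ι : Type*} {φ : Filter ι} {F : ι → ℂ → ℂ}
    {f : ℂ → ℂ} {U : Set ℂ} (hU : IsOpen U) (hf : TendstoLocallyUniformlyOn F f φ U)
    (hF : ∀ᶠ n in φ, DifferentiableOn ℂ (F n) U) (k : ℕ) :
    TendstoLocallyUniformlyOn (fun n => iteratedDeriv k (F n)) (iteratedDeriv k f) φ U ∧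
      ∀ᶠ n in φ, DifferentiableOn ℂ (iteratedDeriv k (F n)) U := by
  induction k with
  | zero => simpa using ⟨hf, hF⟩
  | succ k ih =>
    refine ⟨?_, ?_⟩
    · have := ih.1.deriv ih.2 hU
      simpa [iteratedDeriv_succ, Function.comp_def] using this
    · filter_upwards [ih.2] with n hn
      rw [iteratedDeriv_succ]
      exact hn.deriv hU

theorem tendsto_tay {ι : Type*} {φ : Filter ι} {F : ι → ℂ → ℂ}
    {f : ℂ → ℂ} {U : Set ℂ} (hU : IsOpen U) (h0 : (0 : ℂ) ∈ U)
    (hf : TendstoLocallyUniformlyOn F f φ U)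
    (hF : ∀ᶠ n in φ, DifferentiableOn ℂ (F n) U) :
    Tendsto (fun n => tay (F n)) φ (𝓝 (tay f)) := by
  rw [PowerSeries.WithPiTopology.tendsto_iff_coeff_tendsto]
  intro d
  simp only [tay_coeff]
  exact ((tendstoLocallyUniformlyOn_iteratedDeriv hU hf hF d).1.tendsto_at h0).const_mul _

theorem tay_finset_prod {ι : Type*} (s : Finset ι) (F : ι → ℂ → ℂ)
    (hF : ∀ i ∈ s, AnalyticAt ℂ (F i) 0) :
    tay (fun z => ∏ i ∈ s, F i z) = ∏ i ∈ s, tay (F i) := by
  classical
  induction s using Finset.induction_on with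
  | empty => simpa using tay_const 1
  | insert a s ha ih =>
    simp only [Finset.prod_insert ha]
    have h1 : AnalyticAt ℂ (fun z => ∏ i ∈ s, F i z) 0 :=
      Finset.analyticAt_fun_prod _ (fun i hi => hF i (Finset.mem_insert_of_mem hi))
    rw [tay_mul (hF a (Finset.mem_insert_self _ _)) h1,
      ih (fun i hi => hF i (Finset.mem_insert_of_mem hi))]

theorem tay_tprod_one_sub_pow :
    tay (fun q => ∏' n : ℕ, (1 - q ^ (n + 1))) = ∏' n : ℕ, (1 - (PowerSeries.X : PowerSeries ℂ) ^ (n + 1)) := by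
  have h1 := multipliableLocallyUniformlyOn_one_sub_pow.hasProdLocallyUniformlyOn
  rw [hasProdLocallyUniformlyOn_iff_tendstoLocallyUniformlyOn] at h1
  have h2 := tendsto_tay Metric.isOpen_ball (Metric.mem_ball_self one_pos) h1
    (.of_forall fun s => DifferentiableOn.fun_finsetProd (fun _ _ ↦ by fun_prop))
  have h3 : ∀ s : Finset ℕ, tay (fun q => ∏ n ∈ s, (1 - q ^ (n + 1))) =
      ∏ n ∈ s, (1 - (PowerSeries.X : PowerSeries ℂ) ^ (n + 1)) := by
    intro s
    rw [tay_finset_prod s (fun n q => 1 - q ^ (n + 1)) (fun i _ => by fun_prop)]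
    refine Finset.prod_congr rfl fun n _ => ?_
    have hid : AnalyticAt ℂ (fun z : ℂ => z ^ (n + 1)) 0 := by fun_prop
    rw [tay_sub analyticAt_const hid, tay_const, tay_id_pow]; simp
  simp only [h3] at h2
  have h4 : HasProd (fun n : ℕ => (1 - (PowerSeries.X : PowerSeries ℂ) ^ (n + 1)))
      (tay (fun q => ∏' n : ℕ, (1 - q ^ (n + 1)))) := h2
  exact h4.tprod_eq.symm


theorem continuous_map_intCast :
    Continuous (PowerSeries.map (Int.castRingHom ℂ) : PowerSeries ℤ → PowerSeries ℂ) := by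
  rw [continuous_iff_continuousAt]
  intro x
  unfold ContinuousAt
  rw [PowerSeries.WithPiTopology.tendsto_iff_coeff_tendsto]
  intro d
  simp only [PowerSeries.coeff_map]
  have h1 : Continuous (fun y : PowerSeries ℤ => (Int.castRingHom ℂ) (PowerSeries.coeff d y)) :=
    continuous_of_discreteTopology.comp (PowerSeries.WithPiTopology.continuous_coeff ℤ d)
  exact h1.tendsto x

theorem etaProd_map : ModularCurve.etaProd.map (Int.castRingHom ℂ) =
    ∏' n : ℕ, (1 - (PowerSeries.X : PowerSeries ℂ) ^ (n + 1)) := by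
  rw [ModularCurve.etaProd,
    (PowerSeries.WithPiTopology.multipliable_one_sub_X_pow ℤ).map_tprod
      (PowerSeries.map (Int.castRingHom ℂ)) continuous_map_intCast]
  simp

theorem eisenstein4_map : ModularCurve.eisenstein4.map (Int.castRingHom ℂ) = qExpansion 1 E₄ := by
  ext m
  rw [E_qExpansion_coeff _ ⟨2, rfl⟩, PowerSeries.coeff_map, ModularCurve.eisenstein4,
    PowerSeries.coeff_mk]
  split_ifs with h
  · simp
  · have hb : bernoulli 4 = -1 / 30 := by decide +kernel
    rw [hb, ArithmeticFunction.sigma_apply]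
    push_cast
    norm_num

/-- the parameter `q = exp (2 π i τ)` -/
noncomputable def qq (τ : ℍ) : ℂ := Function.Periodic.qParam 1 τ

theorem qq_tendsto : Tendsto qq atImInfty (𝓝[≠] 0) := by
  rw [tendsto_nhdsWithin_iff]
  exact ⟨qParam_tendsto_atImInfty one_pos, Eventually.of_forall fun τ => Complex.exp_ne_zero _⟩

theorem hasExpG_modularForm {k : ℤ} (f : ModularForm 𝒮ℒ k) :
    HasExpG atImInfty qq f (HahnSeries.ofPowerSeries ℤ ℂ (qExpansion 1 f)) := by
  refine HasExpG.of_analytic (H := cuspFunction 1 f)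
    (ModularFormClass.analyticAt_cuspFunction_zero f one_pos one_mem_strictPeriods_SL) ?_
  exact Eventually.of_forall fun τ =>
    (SlashInvariantFormClass.eq_cuspFunction f τ one_mem_strictPeriods_SL one_ne_zero).symm


/-- the Euler product as a function on the disc -/
noncomputable def eulerP (q : ℂ) : ℂ := ∏' n : ℕ, (1 - q ^ (n + 1))

theorem analyticAt_eulerP : AnalyticAt ℂ eulerP 0 :=
  differentiableOn_tprod_one_sub_pow.analyticAt (Metric.ball_mem_nhds 0 one_pos)

theorem tay_eulerP : tay eulerP = ModularCurve.etaProd.map (Int.castRingHom ℂ) := by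
  rw [etaProd_map]; exact tay_tprod_one_sub_pow

theorem discriminant_eq_eulerP (τ : ℍ) : discriminant τ = qq τ * eulerP (qq τ) ^ 24 := by
  have h1 : ‖qq τ‖ < 1 := Function.Periodic.norm_qParam_lt_one one_pos τ.im_pos
  have h2 := SlashInvariantFormClass.eq_cuspFunction CuspForm.discriminant τ
    one_mem_strictPeriods_SL one_ne_zero
  have h3 := discriminant_cuspFunction_eqOn (show qq τ ∈ Metric.ball (0 : ℂ) 1 by simpa using h1)
  rw [CuspForm.coe_discriminant] at h2
  rw [← h2]
  have h4 := (multipliable_one_sub_pow h1).tprod_pow 24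
  unfold qq at h3 h4 ⊢
  rw [h3]
  simp only
  rw [h4]
  rfl

theorem hasExpG_discriminant : HasExpG atImInfty qq discriminant
    (HahnSeries.single 1 1 * HahnSeries.ofPowerSeries ℤ ℂ
      (ModularCurve.dedekindEtaUnit.map (Int.castRingHom ℂ))) := by
  have hid : AnalyticAt ℂ (fun z : ℂ => z) 0 := analyticAt_id
  have h24 : AnalyticAt ℂ (fun z : ℂ => eulerP z ^ 24) 0 := analyticAt_eulerP.pow 24
  have := HasExpG.of_analytic (l := atImInfty) (π := qq) (f := discriminant)
    (H := fun z => z * eulerP z ^ 24) (hid.mul h24)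
    (Eventually.of_forall discriminant_eq_eulerP)
  rwa [tay_mul hid h24, tay_id, tay_pow analyticAt_eulerP, tay_eulerP, map_mul,
    HahnSeries.ofPowerSeries_X, ← map_pow] at this

theorem coeffMap_ofPowerSeries_map (ψ : ℚ →+* ℂ) (p : PowerSeries ℤ) :
    ModularCurve.coeffMap ψ (HahnSeries.ofPowerSeries ℤ ℚ (p.map (Int.castRingHom ℚ))) =
      HahnSeries.ofPowerSeries ℤ ℂ (p.map (Int.castRingHom ℂ)) := by
  ext n
  rw [ModularCurve.coeffMap_coeff]
  rcases lt_or_ge n 0 with hn | hn
  · rw [ModularCurve.ofPowerSeries_coeff_of_neg _ hn, ModularCurve.ofPowerSeries_coeff_of_neg _ hn,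
      map_zero]
  · lift n to ℕ using hn
    rw [HahnSeries.ofPowerSeries_apply_coeff, HahnSeries.ofPowerSeries_apply_coeff]
    simp

theorem hasExpG_jF (ψ : ℚ →+* ℂ) : HasExpG atImInfty qq S20Lib.jF
    (ModularCurve.coeffMap ψ ModularCurve.jq) := by
  have h4 := (hasExpG_modularForm E₄).pow 3
  have hne : (HahnSeries.single 1 1 * HahnSeries.ofPowerSeries ℤ ℂ
      (ModularCurve.dedekindEtaUnit.map (Int.castRingHom ℂ)) : LaurentSeries ℂ) ≠ 0 := by
    have := (HasExpG.eq_zero_iff qq_tendsto hasExpG_discriminant).not.2 (fun h => by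
      obtain ⟨τ, hτ⟩ := h.exists
      exact discriminant_ne_zero τ hτ)
    exact this
  have h := h4.div qq_tendsto hasExpG_discriminant hne
  have heq : (HahnSeries.ofPowerSeries ℤ ℂ (qExpansion 1 E₄)) ^ 3 / (HahnSeries.single 1 1 *
      HahnSeries.ofPowerSeries ℤ ℂ (ModularCurve.dedekindEtaUnit.map (Int.castRingHom ℂ))) =
      ModularCurve.coeffMap ψ ModularCurve.jq := by
    rw [div_eq_iff hne, ModularCurve.jq, map_mul, ModularCurve.coeffMap_single, map_one,
      ModularCurve.jNumQ, coeffMap_ofPowerSeries_map, ModularCurve.jNum, map_mul, map_mul,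
      map_pow, map_pow, eisenstein4_map]
    have h1 : HahnSeries.ofPowerSeries ℤ ℂ
        (ModularCurve.dedekindEtaUnitInv.map (Int.castRingHom ℂ)) * HahnSeries.ofPowerSeries ℤ ℂ
        (ModularCurve.dedekindEtaUnit.map (Int.castRingHom ℂ)) = 1 := by
      rw [← map_mul, ← map_mul, mul_comm, ModularCurve.dedekindEtaUnit_mul_inv, map_one, map_one]
    have h2 : (HahnSeries.single (-1 : ℤ) (1 : ℂ) : LaurentSeries ℂ) * HahnSeries.single 1 1 = 1 := by
      rw [HahnSeries.single_mul_single]; simp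
    generalize HahnSeries.ofPowerSeries ℤ ℂ
        (ModularCurve.dedekindEtaUnitInv.map (Int.castRingHom ℂ)) = A at h1 ⊢
    generalize HahnSeries.ofPowerSeries ℤ ℂ
        (ModularCurve.dedekindEtaUnit.map (Int.castRingHom ℂ)) = B at h1 ⊢
    generalize (HahnSeries.single (-1 : ℤ) (1 : ℂ) : LaurentSeries ℂ) = C at h2 ⊢
    generalize (HahnSeries.single (1 : ℤ) (1 : ℂ) : LaurentSeries ℂ) = D at h2 ⊢
    generalize HahnSeries.ofPowerSeries ℤ ℂ (qExpansion 1 E₄) = E
    calc E ^ 3 = E ^ 3 * (A * B) * (C * D) := by rw [h1, h2]; ring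
      _ = _ := by ring
  rw [heq] at h
  exact h


theorem coeffMap_qExpand {R S : Type*} [CommRing R] [CommRing S] (ψ : R →+* S) (d : ℕ) [NeZero d]
    (x : LaurentSeries R) :
    ModularCurve.coeffMap ψ (ModularCurve.qExpand R d x) =
      ModularCurve.qExpand S d (ModularCurve.coeffMap ψ x) := by
  ext n
  rw [ModularCurve.coeffMap_coeff]
  by_cases hn : (d : ℤ) ∣ n
  · obtain ⟨k, rfl⟩ := hn
    rw [ModularCurve.qExpand_coeff_mul, ModularCurve.qExpand_coeff_mul,
      ModularCurve.coeffMap_coeff]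
  · rw [ModularCurve.qExpand_coeff_of_not_dvd _ _ hn, ModularCurve.qExpand_coeff_of_not_dvd _ _ hn,
      map_zero]

theorem tendsto_scale_atImInfty (d : ℕ) [NeZero d] (s : ℍ → ℍ) (hs : ∀ τ, (s τ : ℂ) = d * τ) :
    Tendsto s atImInfty atImInfty := by
  unfold atImInfty
  rw [tendsto_comap_iff]
  have h1 : (UpperHalfPlane.im ∘ s) = fun τ : ℍ => (d : ℝ) * τ.im := by
    funext τ
    have := congrArg Complex.im (hs τ)
    simpa using this
  rw [h1]
  have hd : (0 : ℝ) < d := by exact_mod_cast Nat.pos_of_ne_zero (NeZero.ne d)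
  exact Filter.Tendsto.const_mul_atTop hd Filter.tendsto_comap

theorem hasExpG_jF_scale (ψ : ℚ →+* ℂ) (d : ℕ) [NeZero d] (s : ℍ → ℍ)
    (hs : ∀ τ, (s τ : ℂ) = d * τ) :
    HasExpG atImInfty qq (fun τ => S20Lib.jF (s τ))
      (ModularCurve.coeffMap ψ (ModularCurve.qExpand ℚ d ModularCurve.jq)) := by
  have h := (hasExpG_jF ψ).comp (tendsto_scale_atImInfty d s hs) 1 d (π' := qq)
    (Eventually.of_forall fun τ => by
      simp only [qq, Function.Periodic.qParam, hs τ, Units.val_one, one_mul, ← Complex.exp_nat_mul]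
      congr 1
      simp only [Complex.ofReal_one, div_one]
      ring)
  rwa [rot_one, ← coeffMap_qExpand] at h

theorem qq_eq_qN : qq = S20Lib.qN 1 := by
  funext τ
  simp [qq, S20Lib.qN]

/-- **[B2]** the analytic function `j (d τ)` has the formal `q`-expansion `qExpand d jq`. -/
theorem hasExp_jD (d : ℕ) [NeZero d] :
    HasExp atImInfty (S20Lib.qN 1) (jD d)
      (ModularCurve.coeffMap (algebraMap ℚ ℂ) (ModularCurve.qExpand ℚ d ModularCurve.jq)) := by
  rw [hasExp_iff, ← qq_eq_qN]
  exact hasExpG_jF_scale _ d (fun τ => heckeDiagMatrix d • τ)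
    (fun τ => coe_heckeDiagMatrix_smul (NeZero.ne d) τ)

/-- variant of [B2] for the generators of the function field and an embedding `ℚ̄ → ℂ` -/
theorem hasExp_jB (φ : Kb →+* ℂ) (N d : ℕ) [NeZero d] (hd : d ∣ N) :
    HasExp atImInfty (S20Lib.qN 1) (jD d)
      (ModularCurve.coeffMap φ (jB N d hd : LaurentSeries Kb)) := by
  have h1 : ModularCurve.coeffMap φ (jB N d hd : LaurentSeries Kb) =
      ModularCurve.coeffMap (φ.comp (algebraMap ℚ Kb))
        (ModularCurve.qExpand ℚ d ModularCurve.jq) := by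
    show ModularCurve.coeffMap φ (ModularCurve.coeffEmb Kb _) = _
    rw [ModularCurve.coeffEmb, ModularCurve.coeffMap_coeffMap]
  rw [h1, hasExp_iff, ← qq_eq_qN]
  exact hasExpG_jF_scale _ d (fun τ => heckeDiagMatrix d • τ)
    (fun τ => coe_heckeDiagMatrix_smul (NeZero.ne d) τ)

end Fermat.Agent.S24Lib
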