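import Mathlib

/-!
# S24 : abstract field theory used for `[F_N : K(j)] = #X₀(N)`
-/

set_option autoImplicit false

namespace Fermat.Agent.S24Lib

open IntermediateField Polynomial

section Upper

variable {E F : Type*} [Field E] [Field F] [Algebra E F]

/-- If a generating additive submonoid of a finite extension in characteristic zero consists of
elements of degree `≤ μ`, then the extension has degree `≤ μ`. -/
theorem finrank_le_of_forall_natDegree_le [CharZero E] [FiniteDimensional E F]
    (S : AddSubmonoid F) (μ : ℕ) (hdeg : ∀ θ ∈ S, (minpoly E θ).natDegree ≤ μ)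
    (hgen : IntermediateField.adjoin E (S : Set F) = ⊤) : Module.finrank E F ≤ μ := by
  classical
  haveI : CharZero F := charZero_of_injective_algebraMap (algebraMap E F).injective
  -- an element of maximal degree
  set D : Set ℕ := {n | ∃ θ ∈ S, (minpoly E θ).natDegree = n} with hD
  have hDne : D.Nonempty := ⟨_, 0, S.zero_mem, rfl⟩
  have hDb : BddAbove D := ⟨μ, by rintro _ ⟨θ, hθ, rfl⟩; exact hdeg θ hθ⟩
  obtain ⟨θ0, hθ0, hmax⟩ := Nat.sSup_mem hDne hDb
  have hle : ∀ θ ∈ S, (minpoly E θ).natDegree ≤ (minpoly E θ0).natDegree := by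
    intro θ hθ
    rw [hmax]
    exact le_csSup hDb ⟨θ, hθ, rfl⟩
  haveI : Finite (IntermediateField E F) :=
    Field.finite_intermediateField_of_exists_primitive_element E F
      (Field.exists_primitive_element E F)
  have hint : ∀ x : F, IsIntegral E x := fun x => Algebra.IsIntegral.isIntegral x
  have hmem : ∀ β ∈ S, β ∈ E⟮θ0⟯ := by
    intro β hβ
    obtain ⟨c, c', hcc, heq⟩ := Finite.exists_ne_map_eq_of_infinite
      (fun c : ℕ => E⟮θ0 + c • β⟯)
    set L := E⟮θ0 + c • β⟯ with hL
    have h1 : θ0 + c • β ∈ L := mem_adjoin_simple_self E _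
    have h2 : θ0 + c' • β ∈ L := by rw [heq]; exact mem_adjoin_simple_self E _
    have h3 : ((c : F) - (c' : F)) * β ∈ L := by
      have := sub_mem h1 h2
      have e : θ0 + c • β - (θ0 + c' • β) = ((c : F) - (c' : F)) * β := by
        simp only [nsmul_eq_mul]; ring
      rwa [e] at this
    have hne : ((c : F) - (c' : F)) ≠ 0 := sub_ne_zero.2 (by exact_mod_cast hcc)
    have h4 : ((c : F) - (c' : F)) ∈ L := sub_mem (_root_.natCast_mem L c) (_root_.natCast_mem L c')
    have hβL : β ∈ L := by
      have := mul_mem (inv_mem h4) h3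
      rwa [← mul_assoc, inv_mul_cancel₀ hne, one_mul] at this
    have hθL : θ0 ∈ L := by
      have := sub_mem h1 (nsmul_mem hβL c)
      simpa using this
    have hsub : E⟮θ0⟯ ≤ L := by
      rw [adjoin_simple_le_iff]; exact hθL
    have hfr : Module.finrank E L ≤ Module.finrank E E⟮θ0⟯ := by
      rw [hL, adjoin.finrank (hint _), adjoin.finrank (hint _)]
      exact hle _ (S.add_mem hθ0 (S.nsmul_mem hβ c))
    have := IntermediateField.eq_of_le_of_finrank_le hsub hfr
    rw [this]
    exact hβL
  have htop : E⟮θ0⟯ = ⊤ := by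
    rw [eq_top_iff, ← hgen, adjoin_le_iff]
    exact hmem
  rw [← finrank_top', ← htop, adjoin.finrank (hint _)]
  exact hdeg θ0 hθ0

end Upper

section Lower

variable {E F L : Type*} [Field E] [Field F] [Algebra E F] [Field L]

/-- distinct embeddings which agree on `E` bound the degree from below -/
theorem card_le_finrank_of_injective [FiniteDimensional E F] {X : Type*} [Nonempty X]
    (ι : X → F →+* L) (hinj : Function.Injective ι)
    (hE : ∀ (x y : X) (a : E), ι x (algebraMap E F a) = ι y (algebraMap E F a)) :
    Nat.card X ≤ Module.finrank E F := by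
  classical
  obtain ⟨x0⟩ := ‹Nonempty X›
  letI : Algebra E L := ((ι x0).comp (algebraMap E F)).toAlgebra
  let j : X → (F →ₐ[E] L) := fun x =>
    { ι x with
      commutes' := fun a => hE x x0 a }
  have hj : Function.Injective j := by
    intro x y hxy
    apply hinj
    ext f
    exact congrArg (fun φ : F →ₐ[E] L => φ f) hxy
  exact (Nat.card_le_card_of_injective j hj).trans (card_algHom_le_finrank E F L)

end Lower

section Trans

variable {K : Type*} [Field K]

/-- a Laurent series with a pole is transcendental over the constants -/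
theorem transcendental_of_coeff_neg (x : LaurentSeries K) {n : ℤ} (hn : n < 0)
    (hx : x.coeff n ≠ 0) : Transcendental K x := by
  intro halg
  have h1 : IsIntegral K x := halg.isIntegral
  haveI :=
    IsScalarTower.of_algebraMap_eq (R := K) (S := PowerSeries K) (A := LaurentSeries K)
      (fun c => by rw [HahnSeries.algebraMap_apply']; rfl)
  have h2 : IsIntegral (PowerSeries K) x := h1.tower_top
  obtain ⟨y, hy⟩ := IsIntegrallyClosed.isIntegral_iff.1 h2
  apply hx
  rw [← hy]
  show (HahnSeries.ofPowerSeries ℤ K y).coeff n = 0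
  rw [HahnSeries.ofPowerSeries_apply]
  refine HahnSeries.embDomain_notin_range ?_
  rintro ⟨m, rfl⟩
  exact absurd hn (not_lt.mpr (Int.natCast_nonneg m))

end Trans

end Fermat.Agent.S24Lib
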