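import Fermat.Agent.S24.DefsB
import Fermat.Agent.S20.Infty
import Fermat.Agent.S20.Local

/-!
# S24 [B3-charts] : the charts at the points of `ℍ` and at `i∞` are good charts
-/

set_option autoImplicit false

open UpperHalfPlane hiding I
open Filter Topology ModularForm
open scoped MatrixGroups Manifold

namespace Fermat.Agent.S24Lib

open Fermat.Agent.S20Lib

/-! ### the parameters -/

theorem uAt_tendsto_punctured (τ0 : ℍ) : Tendsto (uAt τ0) (lAt τ0) (𝓝[≠] 0) :=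
  tendsto_nhdsWithin_iff.mpr ⟨uAt_tendsto τ0, uAt_ne_zero τ0⟩

theorem qN_tendsto_punctured (N : ℕ) [NeZero N] : Tendsto (qN N) atImInfty (𝓝[≠] 0) :=
  tendsto_nhdsWithin_iff.mpr ⟨qN_tendsto N, qN_ev_ne_zero N⟩

theorem isChart_at (τ0 : ℍ) : IsChart (lAt τ0) (uAt τ0) :=
  ⟨inferInstance, uAt_tendsto_punctured τ0⟩

theorem isChart_infty (N : ℕ) [NeZero N] : IsChart atImInfty (qN N) :=
  ⟨inferInstance, qN_tendsto_punctured N⟩

/-! ### identity theorem -/

theorem ident_at (τ0 : ℍ) (g : ℍ → ℂ) (hg : MDiff g) (h : g =ᶠ[lAt τ0] 0) : g = 0 := by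
  rcases scalar_ord_at τ0 hg with h0 | ⟨n, a, ha, hl⟩
  · exact h0
  · exfalso
    apply ha
    have h1 : Lead (lAt τ0) (uAt τ0) g n 0 := by
      refine Lead.zero.congr' ?_
      filter_upwards [h] with τ hτ
      simp [hτ]
    exact hl.unique h1

theorem ident_infty (g : ℍ → ℂ) (hg : MDiff g) (h : g =ᶠ[atImInfty] 0) : g = 0 := by
  funext τ
  exact eq_zero_of_eventually_atImInfty g hg h τ

/-! ### raw expansions -/

theorem raw_exp_at (τ0 : ℍ) {f : ℍ → ℂ} (hf : MDiff f) :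
    ∃ H : ℂ → ℂ, AnalyticAt ℂ H 0 ∧ ∀ τ : ℍ, f τ = H (uAt τ0 τ) := by
  have hd : DifferentiableOn ℂ (f ∘ ofComplex) {z : ℂ | 0 < z.im} :=
    UpperHalfPlane.mdifferentiable_iff.mp hf
  have hopen : IsOpen {z : ℂ | 0 < z.im} := isOpen_lt continuous_const Complex.continuous_im
  have han : AnalyticOnNhd ℂ (f ∘ ofComplex) {z : ℂ | 0 < z.im} := hd.analyticOnNhd hopen
  have hτ0 : (τ0 : ℂ) ∈ {z : ℂ | 0 < z.im} := τ0.im_pos
  have ha0 := han _ hτ0
  refine ⟨fun u => (f ∘ ofComplex) (u + τ0), ?_, fun τ => ?_⟩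
  · have h1 : AnalyticAt ℂ (fun u : ℂ => u + τ0) 0 := analyticAt_id.add analyticAt_const
    have h2 : AnalyticAt ℂ (f ∘ ofComplex) ((fun u : ℂ => u + τ0) 0) := by simpa using ha0
    exact AnalyticAt.comp (g := f ∘ ofComplex) (f := fun u : ℂ => u + τ0) h2 h1
  · simp [uAt]

theorem raw_exp_infty (N : ℕ) [NeZero N] {f : ℍ → ℂ} (hf : MDiff f)
    (hper : ∀ τ, f ((N : ℝ) +ᵥ τ) = f τ) (t : ℕ)
    (hb : IsBoundedAtImInfty (fun τ => discriminant τ ^ t * f τ)) :
    ∃ (k : ℕ) (H : ℂ → ℂ), AnalyticAt ℂ H 0 ∧ ∀ᶠ τ in atImInfty, qN N τ ^ k * f τ = H (qN N τ) := by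
  have hN : (0 : ℝ) < N := by exact_mod_cast Nat.pos_of_ne_zero (NeZero.ne N)
  -- the numerator
  have hp1 : Function.Periodic ((fun τ => discriminant τ ^ t * f τ) ∘ ofComplex) ((N : ℝ) : ℂ) :=
    periodic_of_vadd N _ (fun τ => by rw [disc_periodic, hper])
  have hG : AnalyticAt ℂ (cuspFunction N (fun τ => discriminant τ ^ t * f τ)) 0 :=
    analyticAt_cuspFunction_zero hN hp1 ((disc_mdiff.pow t).mul hf) hb
  have hG' : ∀ τ : ℍ, cuspFunction N (fun τ => discriminant τ ^ t * f τ) (qN N τ)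
      = discriminant τ ^ t * f τ := fun τ => eq_cuspFunction τ hN.ne' hp1
  -- the discriminant
  have hp2 : Function.Periodic ((fun τ => discriminant τ) ∘ ofComplex) ((N : ℝ) : ℂ) :=
    periodic_of_vadd N _ (fun τ => disc_periodic N τ)
  have hbD : IsBoundedAtImInfty (fun τ => discriminant τ) :=
    (CuspFormClass.zero_at_infty CuspForm.discriminant).isBoundedAtImInfty
  have hD : AnalyticAt ℂ (cuspFunction N (fun τ => discriminant τ)) 0 :=
    analyticAt_cuspFunction_zero hN hp2 disc_mdiff hbD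
  have hD' : ∀ τ : ℍ, cuspFunction N (fun τ => discriminant τ) (qN N τ) = discriminant τ :=
    fun τ => eq_cuspFunction τ hN.ne' hp2
  have hne : ¬ ∀ᶠ z in 𝓝 0, cuspFunction N (fun τ => discriminant τ) z = 0 := by
    intro h
    obtain ⟨τ, hτ⟩ := ((qN_tendsto N).eventually h).exists
    rw [hD'] at hτ
    exact discriminant_ne_zero τ hτ
  obtain ⟨n, g, hg, hg0, hgD⟩ := hD.exists_eventuallyEq_pow_smul_nonzero_iff.mpr hne
  refine ⟨n * t, fun z => cuspFunction N (fun τ => discriminant τ ^ t * f τ) z / g z ^ t,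
    hG.div (hg.pow t) (pow_ne_zero _ hg0), ?_⟩
  have hg1 : ∀ᶠ z in 𝓝 (0 : ℂ), g z ≠ 0 := hg.continuousAt.eventually_ne hg0
  filter_upwards [(qN_tendsto N).eventually hgD, (qN_tendsto N).eventually hg1] with τ h1 h2
  rw [hD', sub_zero, smul_eq_mul] at h1
  rw [hG', h1, eq_div_iff (pow_ne_zero _ h2)]
  ring

/-! ### good charts -/

theorem exists_hasExp_of_raw {l : Filter ℍ} {π f : ℍ → ℂ} {k : ℕ} {H : ℂ → ℂ}
    (hH : AnalyticAt ℂ H 0) (h : ∀ᶠ τ in l, π τ ^ k * f τ = H (π τ)) :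
    ∃ ℓ, HasExp l π f ℓ := by
  refine ⟨(HahnSeries.single (k : ℤ) (1 : ℂ))⁻¹ * HahnSeries.ofPowerSeries ℤ ℂ (taylor0 H),
    k, H, hH, h, ?_⟩
  have h0 : HahnSeries.single (k : ℤ) (1 : ℂ) ≠ 0 := HahnSeries.single_ne_zero one_ne_zero
  rw [mul_inv_cancel_left₀ h0]

theorem goodChart_at (N : ℕ) [NeZero N] (τ0 : ℍ) : GoodChart N (lAt τ0) (uAt τ0) where
  chart := isChart_at τ0
  ident := ident_at τ0
  exp := by
    intro F hF x
    obtain ⟨H, hH, h⟩ := raw_exp_at τ0 (hF.holo x)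
    exact exists_hasExp_of_raw (k := 0) hH (Eventually.of_forall fun τ => by simpa using h τ)

theorem goodChart_infty (N : ℕ) [NeZero N] : GoodChart N atImInfty (qN N) where
  chart := isChart_infty N
  ident := ident_infty
  exp := by
    intro F hF x
    obtain ⟨t, ht⟩ := hF.mero
    obtain ⟨k, H, hH, h⟩ := raw_exp_infty N (hF.holo x)
      (fun τ => by rw [hF.periodic]) t (ht x)
    exact exists_hasExp_of_raw hH h

/-! ### transport of leading terms under `T` -/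

theorem lead_comp_T (N : ℕ) [NeZero N] {g : ℍ → ℂ} {n : ℤ} {A : ℂ}
    (h : Lead atImInfty (qN N) g n A) :
    Lead atImInfty (qN N) (fun τ => g (ModularGroup.T • τ)) n
      (Complex.exp (2 * Real.pi * Complex.I / N) ^ n • A) := by
  unfold Lead at *
  set ζ := Complex.exp (2 * Real.pi * Complex.I / N) with hζ
  have hζ0 : ζ ≠ 0 := Complex.exp_ne_zero _
  have h1 := (h.comp tendsto_T_smul).const_smul (ζ ^ n)
  refine h1.congr fun τ => ?_
  simp only [Function.comp_apply]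
  rw [qN_T_smul, ← hζ, mul_zpow, smul_smul, ← mul_assoc, ← zpow_add₀ hζ0]
  simp

end Fermat.Agent.S24Lib
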