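import Fermat.Agent.S24.JExp
import Fermat.Agent.S24.Charts
import Fermat.Agent.S20.JBasic

/-!
# S24 : `evq N P = 0 ↔ evan N P = 0`
-/

set_option autoImplicit false

open UpperHalfPlane hiding I
open Filter Topology ModularForm
open scoped MatrixGroups Manifold

namespace Fermat.Agent.S24Lib

open Fermat.Agent.S20Lib

theorem ker_jD_holo (d : ℕ) : MDiff (jD d) := by
  unfold jD
  exact jF_holo.comp (mdifferentiable_smul (det_heckeDiagMatrix_pos d))

theorem ker_evan_apply (N : ℕ) (P : AN N) (τ : ℍ) :
    evan N P τ = MvPolynomial.eval (fun i : {d : ℕ // d ∈ N.divisors} => jD i.1 τ)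
      (MvPolynomial.map phiK P) := by
  induction P using MvPolynomial.induction_on with
  | C a => simp [evan]
  | add p q hp hq => simp [map_add, hp, hq]
  | mul_X p i hp =>
    have : evan N (MvPolynomial.X i) = jD i.1 := by simp [evan]
    rw [map_mul, Pi.mul_apply, hp, this, map_mul, map_mul, MvPolynomial.map_X,
      MvPolynomial.eval_X]

theorem ker_evan_holo (N : ℕ) (P : AN N) : MDiff (evan N P) := by
  induction P using MvPolynomial.induction_on with
  | C a =>
    have : evan N (MvPolynomial.C a) = fun _ => phiK a := by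
      funext τ; simp [evan]
    rw [this]; exact mdifferentiable_const
  | add p q hp hq => rw [map_add]; exact hp.add hq
  | mul_X p i hp =>
    rw [map_mul]
    have : evan N (MvPolynomial.X i) = jD i.1 := by simp [evan]
    rw [this]
    exact hp.mul (ker_jD_holo i.1)

theorem ker_coeffMap_evq (N : ℕ) (P : AN N) :
    ModularCurve.coeffMap phiK ((evq N P : FN N) : LaurentSeries Kb) =
      MvPolynomial.eval₂ HahnSeries.C
        (fun i => ModularCurve.coeffMap phiK ((gen N i : FN N) : LaurentSeries Kb))
        (MvPolynomial.map phiK P) := by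
  induction P using MvPolynomial.induction_on with
  | C a =>
    simp only [evq, MvPolynomial.aeval_C, MvPolynomial.map_C, MvPolynomial.eval₂_C]
    show ModularCurve.coeffMap phiK (algebraMap Kb (LaurentSeries Kb) a) = _
    rw [ModularCurve.algebraMap_laurentSeries_eq_single, ModularCurve.coeffMap_single]
    rfl
  | add p q hp hq =>
    rw [map_add, map_add, MvPolynomial.eval₂_add, ← hp, ← hq]
    exact map_add _ _ _
  | mul_X p i hp =>
    rw [map_mul, map_mul, MvPolynomial.eval₂_mul, ← hp, MvPolynomial.map_X, MvPolynomial.eval₂_X]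
    have : evq N (MvPolynomial.X i) = gen N i := by simp [evq]
    rw [this]
    exact map_mul _ _ _

theorem hasExp_evan (N : ℕ) [NeZero N] (P : AN N) :
    HasExp atImInfty (qN 1) (evan N P)
      (ModularCurve.coeffMap phiK ((evq N P : FN N) : LaurentSeries Kb)) := by
  rw [ker_coeffMap_evq]
  have h := HasExp.mvPolynomial (l := atImInfty) (π := qN 1)
    (F := fun i : {d : ℕ // d ∈ N.divisors} => jD i.1)
    (L := fun i => ModularCurve.coeffMap phiK ((gen N i : FN N) : LaurentSeries Kb))
    (fun i => by
      have : NeZero i.1 := ⟨(Nat.pos_of_mem_divisors i.2).ne'⟩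
      exact hasExp_jB phiK N i.1 (Nat.dvd_of_mem_divisors i.2)) (MvPolynomial.map phiK P)
  exact h.congr (Eventually.of_forall fun τ => (ker_evan_apply N P τ).symm)

theorem coeffMap_injective {R S : Type*} [CommRing R] [CommRing S] (ψ : R →+* S)
    (hψ : Function.Injective ψ) : Function.Injective (ModularCurve.coeffMap ψ) := by
  intro x y h
  ext n
  apply hψ
  rw [← ModularCurve.coeffMap_coeff, ← ModularCurve.coeffMap_coeff, h]

theorem evq_eq_zero_iff (N : ℕ) [NeZero N] (P : AN N) : evq N P = 0 ↔ evan N P = 0 := by
  have h1 := HasExp.eq_zero_iff (isChart_infty 1) (hasExp_evan N P)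
  have h2 : ModularCurve.coeffMap phiK ((evq N P : FN N) : LaurentSeries Kb) = 0 ↔
      evq N P = 0 := by
    constructor
    · intro h
      have := coeffMap_injective phiK phiK.injective (h.trans (map_zero _).symm)
      exact Subtype.ext this
    · intro h
      rw [h]; exact map_zero _
  rw [← h2, h1]
  constructor
  · exact ident_infty _ (ker_evan_holo N P)
  · intro h; rw [h]

end Fermat.Agent.S24Lib
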