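import Mathlib
import Fermat.Prelude.Def_ModularCurve_LaurentCoeff

/-!
# [B4-LD] of S24 : linear disjointness inside Laurent series
-/

set_option autoImplicit false

namespace Fermat.Agent.S24Lib

/-- `K`-linearly independent Laurent series stay linearly independent after extending the
coefficient field. -/
theorem linearIndependent_map_coeff {K L : Type*} [Field K] [Field L] (phi : K →+* L) {ι : Type*}
    (f : ι → LaurentSeries K) (h : LinearIndependent K f) :
    LinearIndependent L (fun k => ModularCurve.coeffMap phi (f k)) := by
  letI : Algebra K L := phi.toAlgebra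
  rw [linearIndependent_iff'] at h ⊢
  intro s c hc i hi
  rw [← Module.forall_dual_apply_eq_zero_iff K]
  intro lam
  refine h s (fun k => lam (c k)) ?_ i hi
  ext n
  have h1 := congrArg (fun x => x.coeff n) hc
  simp only [HahnSeries.coeff_sum, HahnSeries.coeff_smul, ModularCurve.coeffMap_coeff,
    HahnSeries.coeff_zero, smul_eq_mul] at h1 ⊢
  have h2 := congrArg lam h1
  rw [map_sum, map_zero] at h2
  rw [← h2]
  refine Finset.sum_congr rfl fun k _ => ?_
  have : c k * phi ((f k).coeff n) = ((f k).coeff n) • c k := by
    rw [Algebra.smul_def, mul_comm]; rfl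
  rw [this, map_smul, smul_eq_mul, mul_comm]

end Fermat.Agent.S24Lib
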