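import Fermat.Agent.S24.DegreeRel
import Fermat.Agent.S24.DegreeAlg
import Fermat.Agent.S24.LinDisj
import Fermat.Agent.S24.Kernel

/-!
# S24 : `[F_N : K(j)] = #X₀(N)`
-/

set_option autoImplicit false

open UpperHalfPlane hiding I
open Filter Topology ModularForm CongruenceSubgroup Polynomial IntermediateField
open scoped MatrixGroups Manifold

namespace Fermat.Agent.S24Lib

open Fermat.Agent.S20Lib

theorem hasExp_sum {l : Filter ℍ} {π : ℍ → ℂ} {ι : Type*} (s : Finset ι) (c : ι → ℂ)
    (f : ι → ℍ → ℂ) (ℓ : ι → LaurentSeries ℂ) (h : ∀ i ∈ s, HasExp l π (f i) (ℓ i)) :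
    HasExp l π (fun τ => ∑ i ∈ s, c i * f i τ) (∑ i ∈ s, c i • ℓ i) := by
  classical
  induction s using Finset.induction_on with
  | empty =>
    simp only [Finset.sum_empty]
    have := HasExp.const l π 0
    simpa using this
  | insert a s ha ih =>
    simp only [Finset.sum_insert ha]
    refine HasExp.add ?_ (ih fun i hi => h i (Finset.mem_insert_of_mem hi))
    rw [← HahnSeries.C_mul_eq_smul]
    exact (HasExp.const l π (c a)).mul (h a (Finset.mem_insert_self a s))

/-- the variable corresponding to `j` -/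
noncomputable def X1 (N : ℕ) [NeZero N] : AN N :=
  MvPolynomial.X ⟨1, Nat.one_mem_divisors.2 (NeZero.ne N)⟩

theorem evq_X1 (N : ℕ) [NeZero N] : evq N (X1 N) = jj N := by
  simp only [evq, X1, MvPolynomial.aeval_X]
  rfl

theorem evan_X1 (N : ℕ) [NeZero N] (τ : ℍ) : evan N (X1 N) τ = jF τ := by
  have : evan N (X1 N) = jD 1 := by simp [evan, X1]
  rw [this, jD]
  congr 1
  ext1
  rw [coe_heckeDiagMatrix_smul one_ne_zero]
  simp

theorem transcendental_jj (N : ℕ) [NeZero N] : Transcendental Kb (jj N) := by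
  have h : Transcendental Kb ((jj N : FN N) : LaurentSeries Kb) := by
    apply transcendental_of_coeff_neg _ (n := -1) (by norm_num)
    show (ModularCurve.coeffEmb Kb (ModularCurve.qExpand ℚ 1 ModularCurve.jq)).coeff (-1) ≠ 0
    rw [ModularCurve.qExpand_one_apply, ModularCurve.coeffEmb_coeff, ModularCurve.coeff_jq_neg_one]
    simp
  intro halg
  exact h (halg.algebraMap (A := LaurentSeries Kb))

theorem coe_smul_FN (N : ℕ) (c : Kb) (x : FN N) :
    ((c • x : FN N) : LaurentSeries Kb) = c • (x : LaurentSeries Kb) := by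
  rw [Algebra.smul_def]
  show (algebraMap Kb (LaurentSeries Kb) c) * (x : LaurentSeries Kb) = c • (x : LaurentSeries Kb)
  rw [ModularCurve.algebraMap_laurentSeries_eq_single, HahnSeries.single_zero_mul_eq_smul]

/-- the family `j^a θ^k`, `k ≤ μ`, is linearly dependent over `K` -/
theorem not_linearIndependent_monomials (N : ℕ) [NeZero N] (P : AN N) :
    ¬ LinearIndependent Kb
      (fun i : ℕ × Fin (Fintype.card (X0 N) + 1) => evq N (X1 N ^ i.1 * P ^ (i.2 : ℕ))) := by
  classical
  intro hli
  set μ := Fintype.card (X0 N) with hμ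
  obtain ⟨p, hp1, hp⟩ := exists_monic_rel N P
  have h1 : LinearIndependent Kb
      (fun i : ℕ × Fin (μ + 1) =>
        ((evq N (X1 N ^ i.1 * P ^ (i.2 : ℕ)) : FN N) : LaurentSeries Kb)) := by
    rw [linearIndependent_iff'] at hli ⊢
    intro s g hg i hi
    refine hli s g ?_ i hi
    apply Subtype.val_injective
    rw [ZeroMemClass.coe_zero, ← hg, AddSubmonoidClass.coe_finset_sum]
    exact Finset.sum_congr rfl fun i _ => coe_smul_FN N _ _
  have h2 := linearIndependent_map_coeff phiK _ h1
  rw [linearIndependent_iff'] at h2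
  -- a bound for the degrees
  set A := (Finset.range (μ + 1)).sup (fun k => (p k).natDegree) with hA
  set s : Finset (ℕ × Fin (μ + 1)) := Finset.range (A + 1) ×ˢ Finset.univ with hs
  have h3 := h2 s (fun i => (p i.2).coeff i.1) ?_ (0, Fin.last μ) (by simp [hs])
  · simp only [Fin.val_last] at h3
    rw [hμ, hp1] at h3
    simp at h3
  · have hE := hasExp_sum (l := atImInfty) (π := qN 1) s (fun i => (p i.2).coeff i.1)
      (fun i => evan N (X1 N ^ i.1 * P ^ (i.2 : ℕ))) _ (fun i _ => hasExp_evan N _)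
    rw [HasExp.eq_zero_iff (isChart_infty 1) hE]
    refine Eventually.of_forall fun τ => ?_
    simp only [Pi.zero_apply]
    rw [← hp τ, hs, Finset.sum_product_right, Finset.sum_range]
    refine Finset.sum_congr rfl fun k _ => ?_
    have hdeg : (p k).natDegree < A + 1 := by
      apply Nat.lt_succ_of_le
      exact Finset.le_sup (f := fun k => (p k).natDegree) (Finset.mem_range.2 k.2)
    rw [eval_eq_sum_range' hdeg, Finset.sum_mul]
    refine Finset.sum_congr rfl fun a _ => ?_
    simp only [map_mul, map_pow, Pi.mul_apply, Pi.pow_apply, evan_X1]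
    ring

/-- every element of `range evq` is a root of a nonzero polynomial of degree `≤ μ` over `K(j)` -/
theorem exists_poly_evq (N : ℕ) [NeZero N] (P : AN N) :
    ∃ R : (Kb⟮jj N⟯)[X], R ≠ 0 ∧ R.natDegree ≤ Fintype.card (X0 N) ∧ aeval (evq N P) R = 0 := by
  classical
  set μ := Fintype.card (X0 N) with hμ
  obtain ⟨s, g, hsum, i0, hi0, hg0⟩ := not_linearIndependent_iff.1
    (not_linearIndependent_monomials N P)
  set jE : Kb⟮jj N⟯ := AdjoinSimple.gen Kb (jj N) with hjE
  have hjE' : algebraMap Kb⟮jj N⟯ (FN N) jE = jj N := AdjoinSimple.algebraMap_gen Kb (jj N)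
  have htr : Transcendental Kb jE := by
    intro h
    apply transcendental_jj N
    rw [← hjE']
    exact h.algebraMap
  set φ : Kb[X] →+* Kb⟮jj N⟯ := (aeval jE : Kb[X] →ₐ[Kb] Kb⟮jj N⟯).toRingHom with hφ
  have hφinj : Function.Injective φ := transcendental_iff_injective.1 htr
  set R0 : Kb[X][X] := ∑ i ∈ s, monomial (i.2 : ℕ) (monomial i.1 (g i)) with hR0
  have hR0ne : R0 ≠ 0 := by
    intro h
    apply hg0
    have h1 : (R0.coeff (i0.2 : ℕ)).coeff i0.1 = g i0 := by
      rw [hR0, finset_sum_coeff, finset_sum_coeff]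
      rw [Finset.sum_eq_single i0]
      · simp
      · intro b _ hb
        rw [coeff_monomial]
        split_ifs with h2
        · rw [coeff_monomial, if_neg]
          intro h3
          exact hb (Prod.ext h3 (Fin.ext h2))
        · simp
      · intro h; exact absurd hi0 h
    rw [← h1, h]
    simp
  refine ⟨R0.map φ, (Polynomial.map_ne_zero_iff hφinj).2 hR0ne, ?_, ?_⟩
  · refine natDegree_map_le.trans ?_
    rw [hR0]
    refine natDegree_sum_le_of_forall_le _ _ fun i _ => ?_
    exact (natDegree_monomial_le _).trans (Nat.lt_succ_iff.1 i.2.2)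
  · rw [aeval_def, eval₂_map, hR0, eval₂_finset_sum, ← hsum]
    refine Finset.sum_congr rfl fun i _ => ?_
    rw [eval₂_monomial, RingHom.comp_apply, hφ]
    simp only [AlgHom.toRingHom_eq_coe, RingHom.coe_coe, aeval_monomial, map_mul, map_pow, hjE',
      evq_X1]
    rw [Algebra.smul_def, ← IsScalarTower.algebraMap_apply, mul_assoc]

theorem isIntegral_evq (N : ℕ) [NeZero N] (P : AN N) : IsIntegral Kb⟮jj N⟯ (evq N P) := by
  obtain ⟨R, hR, _, h0⟩ := exists_poly_evq N P
  have h : IsAlgebraic Kb⟮jj N⟯ (evq N P) := ⟨R, hR, h0⟩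
  exact h.isIntegral

theorem natDegree_minpoly_evq_le (N : ℕ) [NeZero N] (P : AN N) :
    (minpoly Kb⟮jj N⟯ (evq N P)).natDegree ≤ Fintype.card (X0 N) := by
  obtain ⟨R, hR, hdeg, h0⟩ := exists_poly_evq N P
  exact (natDegree_le_of_dvd (minpoly.dvd _ _ h0) hR).trans hdeg

theorem evq_mem_adjoin_gen (N : ℕ) [NeZero N] (P : AN N) :
    evq N P ∈ IntermediateField.adjoin Kb⟮jj N⟯ (Set.range (gen N)) := by
  induction P using MvPolynomial.induction_on with
  | C a =>
    have : evq N (MvPolynomial.C a) = algebraMap Kb⟮jj N⟯ (FN N) (algebraMap Kb Kb⟮jj N⟯ a) := by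
      rw [← IsScalarTower.algebraMap_apply]
      simp [evq]
    rw [this]
    exact IntermediateField.algebraMap_mem _ _
  | add p q hp hq => rw [map_add]; exact add_mem hp hq
  | mul_X p i hp =>
    rw [map_mul]
    refine mul_mem hp ?_
    have : evq N (MvPolynomial.X i) = gen N i := by simp [evq]
    rw [this]
    exact IntermediateField.subset_adjoin _ _ ⟨i, rfl⟩

theorem adjoin_gen_eq_top (N : ℕ) [NeZero N] :
    IntermediateField.adjoin Kb⟮jj N⟯ (Set.range (gen N)) = ⊤ := by
  rw [eq_top_iff]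
  intro f _
  obtain ⟨P, Q, _, rfl⟩ := exists_evq_div N f
  exact div_mem (evq_mem_adjoin_gen N P) (evq_mem_adjoin_gen N Q)

instance finiteDimensional_jj (N : ℕ) [NeZero N] : FiniteDimensional Kb⟮jj N⟯ (FN N) := by
  have h : FiniteDimensional Kb⟮jj N⟯
      (IntermediateField.adjoin Kb⟮jj N⟯ (Set.range (gen N))) := by
    apply IntermediateField.finiteDimensional_adjoin
    rintro _ ⟨i, rfl⟩
    have : evq N (MvPolynomial.X i) = gen N i := by simp [evq]
    rw [← this]
    exact isIntegral_evq N _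
  rw [adjoin_gen_eq_top] at h
  exact (IntermediateField.topEquiv (F := Kb⟮jj N⟯) (E := FN N)).toLinearEquiv.finiteDimensional

theorem isFF (N : ℕ) [NeZero N] : IsFF Kb (FN N) :=
  ⟨jj N, transcendental_jj N, inferInstance⟩

theorem finrank_jj_le (N : ℕ) [NeZero N] :
    Module.finrank Kb⟮jj N⟯ (FN N) ≤ Fintype.card (X0 N) := by
  haveI : CharZero Kb⟮jj N⟯ := charZero_of_injective_algebraMap (algebraMap Kb Kb⟮jj N⟯).injective
  refine finrank_le_of_forall_natDegree_le (AddMonoidHom.mrange (evq N : AN N →+ FN N)) _ ?_ ?_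
  · rintro _ ⟨P, rfl⟩
    exact natDegree_minpoly_evq_le N P
  · rw [eq_top_iff]
    intro f _
    obtain ⟨P, Q, _, rfl⟩ := exists_evq_div N f
    exact div_mem (IntermediateField.subset_adjoin _ _ ⟨P, rfl⟩)
      (IntermediateField.subset_adjoin _ _ ⟨Q, rfl⟩)

end Fermat.Agent.S24Lib
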