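import Fermat.Agent.S24.FundId

set_option autoImplicit false

namespace Fermat.Agent.S24Lib

open AlgebraicCurve IntermediateField IsDedekindDomain

section Inst

variable {K F : Type*} [Field K] [IsAlgClosed K] [CharZero K] [Field F] [Algebra K F]

open scoped IntermediateField.algebraAdjoinAdjoin

omit [IsAlgClosed K] [CharZero K] in
theorem isPrincipalIdealRing_adjoin {s : F} (hs : Transcendental K s) :
    IsPrincipalIdealRing (Algebra.adjoin K {s}) :=
  IsPrincipalIdealRing.of_surjective (Polynomial.algEquivOfTranscendental K s hs).toRingEquiv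
    (Polynomial.algEquivOfTranscendental K s hs).surjective

omit [IsAlgClosed K] [CharZero K] in
theorem isMaximal_span_gen {s : F} (hs : Transcendental K s) :
    (Ideal.span {(⟨s, Algebra.self_mem_adjoin_singleton K s⟩ : Algebra.adjoin K {s})}).IsMaximal := by
  have := isPrincipalIdealRing_adjoin hs
  apply PrincipalIdealRing.isMaximal_of_irreducible
  have h1 : Irreducible (Polynomial.X : Polynomial K) := Polynomial.irreducible_X
  have h2 := (MulEquiv.irreducible_iff (Polynomial.algEquivOfTranscendental K s hs)).2 h1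
  rwa [Polynomial.algEquivOfTranscendental_apply_X] at h2

theorem exists_zeros_finset (hFF : IsFF K F) {s : F} (hs : Transcendental K s) :
    ∃ T : Finset (Place K F), (∀ v, v ∈ T ↔ 0 < v.ord s) ∧
      ∑ v ∈ T, v.ord s = (Module.finrank K⟮s⟯ F : ℤ) := by
  have hfin := finiteDimensional_adjoin hFF hs
  have hPID := isPrincipalIdealRing_adjoin hs
  have hchar : CharZero K⟮s⟯ := charZero_of_injective_algebraMap (algebraMap K K⟮s⟯).injective
  have hD : IsDedekindDomain (integralClosure (Algebra.adjoin K {s}) F) :=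
    integralClosure.isDedekindDomain (Algebra.adjoin K {s}) K⟮s⟯ F
  have hFr : IsFractionRing (integralClosure (Algebra.adjoin K {s}) F) F :=
    integralClosure.isFractionRing_of_finite_extension K⟮s⟯ F
  have hMF : Module.Finite (Algebra.adjoin K {s}) (integralClosure (Algebra.adjoin K {s}) F) :=
    IsIntegralClosure.finite (Algebra.adjoin K {s}) K⟮s⟯ F _
  exact fundamental_identity_aux hFF (Algebra.adjoin K {s}) K⟮s⟯
    (integralClosure (Algebra.adjoin K {s}) F)
    ⟨s, Algebra.self_mem_adjoin_singleton K s⟩ (isMaximal_span_gen hs)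
    (by
      intro h
      apply hs
      have : s = 0 := congrArg Subtype.val h
      rw [this]
      exact isAlgebraic_zero)
    (fun v hv b => mem_of_isIntegral v (adjoin_le_of_ord_nonneg v hv) b.2)

/-- A1 (finiteness) -/
theorem finite_zeros (hFF : IsFF K F) {s : F} (hs : Transcendental K s) :
    {v : Place K F | 0 < v.ord s}.Finite := by
  obtain ⟨T, hT, -⟩ := exists_zeros_finset hFF hs
  apply T.finite_toSet.subset
  intro v hv
  exact (hT v).2 hv

/-- A1 (fundamental identity) -/
theorem sum_ord_zeros (hFF : IsFF K F) {s : F} (hs : Transcendental K s) :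
    ∑ v ∈ (finite_zeros hFF hs).toFinset, v.ord s = (Module.finrank K⟮s⟯ F : ℤ) := by
  obtain ⟨T, hT, hsum⟩ := exists_zeros_finset hFF hs
  rw [← hsum]
  apply Finset.sum_congr _ (fun _ _ => rfl)
  ext v
  simp [hT]

omit [IsAlgClosed K] [CharZero K] in
theorem adjoin_inv_eq_aux (g : F) : K⟮g⁻¹⟯ = K⟮g⟯ := by
  apply le_antisymm
  · rw [IntermediateField.adjoin_simple_le_iff]
    exact inv_mem (IntermediateField.mem_adjoin_simple_self K g)
  · rw [IntermediateField.adjoin_simple_le_iff]
    have := inv_mem (IntermediateField.mem_adjoin_simple_self K g⁻¹)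
    rwa [inv_inv] at this

omit [IsAlgClosed K] [CharZero K] in
theorem transcendental_inv_aux {g : F} (hg : Transcendental K g) : Transcendental K g⁻¹ := by
  intro h
  apply hg
  have := h.inv
  rwa [inv_inv] at this

/-- A3 -/
theorem exists_principal_divisor (hFF : IsFF K F) {g : F} (hg : g ≠ 0) :
    ∃ D : Divisor K F, (∀ v, D v = v.ord g) ∧ Divisor.degree D = 0 := by
  classical
  by_cases hgr : g ∈ Set.range (algebraMap K F)
  · obtain ⟨c, rfl⟩ := hgr
    exact ⟨0, fun v => by simp [ord_algebraMap], map_zero _⟩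
  have htr := transcendental_of_not_mem_range hgr
  have htr' := transcendental_inv_aux htr
  obtain ⟨T, hT, hsum⟩ := exists_zeros_finset hFF htr
  obtain ⟨T', hT', hsum'⟩ := exists_zeros_finset hFF htr'
  rw [adjoin_inv_eq_aux] at hsum'
  refine ⟨Finsupp.onFinset (T ∪ T') (fun v => v.ord g) ?_, fun v => rfl, ?_⟩
  · intro v hv
    rw [Finset.mem_union, hT, hT', v.ord_inv]
    omega
  · have hdeg : ∀ D : Divisor K F, Divisor.degree D = D.sum (fun v n => n * (v.deg : ℤ)) := by
      intro D
      simp [Divisor.degree, Finsupp.liftAddHom_apply]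
    rw [hdeg, Finsupp.onFinset_sum _ (by simp)]
    have hdisj : Disjoint T T' := by
      rw [Finset.disjoint_left]
      intro v h1 h2
      rw [hT] at h1
      rw [hT', v.ord_inv] at h2
      omega
    rw [Finset.sum_union hdisj]
    have h1 : ∑ v ∈ T, v.ord g * (v.deg : ℤ) = ∑ v ∈ T, v.ord g :=
      Finset.sum_congr rfl (fun v _ => by rw [deg_eq_one hFF v]; simp)
    have h2 : ∑ v ∈ T', v.ord g * (v.deg : ℤ) = - ∑ v ∈ T', v.ord g⁻¹ := by
      rw [← Finset.sum_neg_distrib]
      exact Finset.sum_congr rfl (fun v _ => by rw [deg_eq_one hFF v, v.ord_inv]; simp)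
    rw [h1, h2, hsum, hsum']
    ring

end Inst

end Fermat.Agent.S24Lib
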