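import Fermat.Agent.S24.Dict

set_option autoImplicit false

namespace Fermat.Agent.S24Lib

open AlgebraicCurve IntermediateField IsDedekindDomain

section A0

variable {K F : Type*} [Field K] [Field F] [Algebra K F]

/-- elements of `F` algebraic over `K` are constants -/
theorem transcendental_of_not_mem_range [IsAlgClosed K] {s : F}
    (hs : s ∉ Set.range (algebraMap K F)) : Transcendental K s := by
  intro halg
  apply hs
  have hint : IsIntegral K s := halg.isIntegral
  exact minpoly.mem_range_of_degree_eq_one K s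
    (IsAlgClosed.degree_eq_one_of_irreducible K (minpoly.irreducible hint))

theorem not_mem_range_of_transcendental {s : F} (hs : Transcendental K s) :
    s ∉ Set.range (algebraMap K F) := by
  rintro ⟨a, rfl⟩
  exact hs (isAlgebraic_algebraMap a)

open scoped IntermediateField.algebraAdjoinAdjoin in
/-- A0 -/
theorem finiteDimensional_adjoin (hFF : IsFF K F) {s : F} (hs : Transcendental K s) :
    FiniteDimensional K⟮s⟯ F := by
  obtain ⟨s₀, hs₀, hfin⟩ := hFF
  have halg0 : Algebra.IsAlgebraic K⟮s₀⟯ F := inferInstance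
  have halg1 : Algebra.IsAlgebraic (Algebra.adjoin K {s₀}) F :=
    (IsFractionRing.comap_isAlgebraic_iff (A := Algebra.adjoin K {s₀}) (K := K⟮s₀⟯) (C := F)).2 halg0
  have htr : Algebra.trdeg K F ≤ 1 := by
    have := Algebra.IsAlgebraic.trdeg_le_cardinalMk K ({s₀} : Set F)
    simpa using this
  have hind : AlgebraicIndependent K ((↑) : ({s} : Set F) → F) := by
    rw [algebraicIndependent_singleton_iff ⟨s, rfl⟩]
    exact hs
  have hbasis : IsTranscendenceBasis K ((↑) : ({s} : Set F) → F) :=
    hind.isTranscendenceBasis_of_trdeg_le_of_finite (by simpa using htr)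
  have halg2 : Algebra.IsAlgebraic K⟮s⟯ F := by
    have := hbasis.isAlgebraic_field
    rwa [Subtype.range_coe] at this
  have hE0 : Algebra.EssFiniteType K K⟮s₀⟯ := by
    rw [IntermediateField.essFiniteType_iff]
    exact ⟨{s₀}, by simp⟩
  have hE1 : Algebra.EssFiniteType K F := Algebra.EssFiniteType.comp K K⟮s₀⟯ F
  have hE2 : Algebra.EssFiniteType K⟮s⟯ F := Algebra.EssFiniteType.of_comp K K⟮s⟯ F
  exact Algebra.finite_of_essFiniteType_of_isAlgebraic

end A0

section A5

variable {K F : Type*} [Field K] [Field F] [Algebra K F]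

/-- valuation rings are integrally closed -/
theorem mem_of_isIntegral (v : Place K F) {A : Type*} [CommRing A] [Algebra A F]
    (hA : ∀ a : A, algebraMap A F a ∈ v.toValuationSubring) {x : F} (hx : IsIntegral A x) :
    x ∈ v.toValuationSubring := by
  let φ : A →+* v.toValuationSubring := (algebraMap A F).codRestrict v.toValuationSubring.toSubring hA
  have h : IsIntegral v.toValuationSubring x :=
    IsIntegral.map_of_comp_eq φ (RingHom.id F) (by ext; rfl) hx
  obtain ⟨y, rfl⟩ := IsIntegrallyClosed.isIntegral_iff.1 h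
  exact y.2

theorem adjoin_le_of_ord_nonneg (v : Place K F) {s : F} (hs : 0 ≤ v.ord s)
    (a : Algebra.adjoin K {s}) : (a : F) ∈ v.toValuationSubring := by
  let S : Subalgebra K F :=
    { v.toValuationSubring.toSubring with algebraMap_mem' := v.algebraMap_mem' }
  have : Algebra.adjoin K {s} ≤ S := by
    apply Algebra.adjoin_le
    rintro _ rfl
    exact mem_toValuationSubring_of_ord_nonneg v hs
  exact this a.2

/-- integral elements are regular at the places where `s` is regular -/
theorem ord_nonneg_of_isIntegral (v : Place K F) {s : F} (hs : 0 ≤ v.ord s) {b : F}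
    (hb : IsIntegral (Algebra.adjoin K {s}) b) : 0 ≤ v.ord b :=
  ord_nonneg_of_mem v (mem_of_isIntegral v (adjoin_le_of_ord_nonneg v hs) hb)

theorem ord_aeval_eq_zero [IsAlgClosed K] (v : Place K F) {f : F}
    (h : ∀ c : K, f - algebraMap K F c ≠ 0 ∧ v.ord (f - algebraMap K F c) = 0) :
    ∀ (n : ℕ) (P : Polynomial K), P.natDegree = n → P ≠ 0 →
      Polynomial.aeval f P ≠ 0 ∧ v.ord (Polynomial.aeval f P) = 0 := by
  intro n
  induction n with
  | zero =>
    intro P hP hP0
    rw [Polynomial.eq_C_of_natDegree_eq_zero hP] at hP0 ⊢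
    rw [Polynomial.aeval_C]
    refine ⟨?_, ord_algebraMap v _⟩
    simpa using hP0
  | succ n ih =>
    intro P hP hP0
    obtain ⟨r, hr⟩ := IsAlgClosed.exists_root P (by
      rw [Polynomial.degree_eq_natDegree hP0, hP]
      exact_mod_cast Nat.succ_ne_zero n)
    obtain ⟨Q, rfl⟩ := Polynomial.dvd_iff_isRoot.2 hr
    have hQ0 : Q ≠ 0 := right_ne_zero_of_mul hP0
    have hQn : Q.natDegree = n := by
      rw [Polynomial.natDegree_mul (Polynomial.X_sub_C_ne_zero r) hQ0,
        Polynomial.natDegree_X_sub_C] at hP
      omega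
    obtain ⟨h1, h2⟩ := ih Q hQn hQ0
    obtain ⟨h3, h4⟩ := h r
    have : Polynomial.aeval f ((Polynomial.X - Polynomial.C r) * Q) =
        (f - algebraMap K F r) * Polynomial.aeval f Q := by
      simp
    rw [this]
    refine ⟨mul_ne_zero h3 h1, ?_⟩
    rw [v.ord_mul h3 h1, h2, h4]
    rfl

/-- A5 : the residue field is `K` -/
theorem exists_sub_algebraMap_ord_pos [IsAlgClosed K] (hFF : IsFF K F) (v : Place K F) {f : F}
    (hf : 0 ≤ v.ord f) :
    ∃ c : K, f = algebraMap K F c ∨ 0 < v.ord (f - algebraMap K F c) := by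
  by_contra hcon
  push Not at hcon
  have hfr : f ∉ Set.range (algebraMap K F) := by
    rintro ⟨c, rfl⟩
    exact (hcon c).1 rfl
  have htr := transcendental_of_not_mem_range hfr
  have hfin := finiteDimensional_adjoin hFF htr
  have h : ∀ c : K, f - algebraMap K F c ≠ 0 ∧ v.ord (f - algebraMap K F c) = 0 := by
    intro c
    have h0 : f - algebraMap K F c ≠ 0 := sub_ne_zero.2 (hcon c).1
    refine ⟨h0, le_antisymm (hcon c).2 ?_⟩
    have := le_ord_sub v h0
    rw [ord_algebraMap] at this
    exact (le_min hf le_rfl).trans this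
  have hP := ord_aeval_eq_zero v h
  have hsub : ∀ a : K⟮f⟯, algebraMap K⟮f⟯ F a ∈ v.toValuationSubring := by
    rintro ⟨a, ha⟩
    obtain ⟨r, s, rfl⟩ := IntermediateField.mem_adjoin_simple_iff K a |>.1 ha
    show Polynomial.aeval f r / Polynomial.aeval f s ∈ v.toValuationSubring
    by_cases hr : r = 0
    · simp [hr, zero_mem]
    by_cases hs : s = 0
    · simp [hs, zero_mem]
    obtain ⟨a1, a2⟩ := hP _ r rfl hr
    obtain ⟨b1, b2⟩ := hP _ s rfl hs
    apply mem_toValuationSubring_of_ord_nonneg
    rw [div_eq_mul_inv, v.ord_mul a1 (inv_ne_zero b1), v.ord_inv, a2, b2]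
    simp
  apply v.ne_top'
  rw [eq_top_iff]
  intro x _
  exact mem_of_isIntegral v hsub (Algebra.IsIntegral.isIntegral (R := K⟮f⟯) x)

theorem mem_maximalIdeal_iff (v : Place K F) (a : v.toValuationSubring) :
    a ∈ IsLocalRing.maximalIdeal v.toValuationSubring ↔ a = 0 ∨ 0 < v.ord (a : F) := by
  rw [IsLocalRing.mem_maximalIdeal, mem_nonunits_iff, ← v.adicValuation_coe_eq_one_iff]
  by_cases ha : a = 0
  · simp [ha]
  have ha' : (a : F) ≠ 0 := by simpa using ha
  have h0 := ord_nonneg_of_mem v a.2
  simp only [ha, false_or]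
  have hne := v.adicValuation_ne_zero ha'
  constructor
  · intro h
    rcases h0.lt_or_eq with h1 | h1
    · exact h1
    · exfalso
      apply h
      have : WithZero.log (v.adicValuation (a : F)) = 0 := by
        simp only [Place.ord] at h1
        omega
      rw [← WithZero.exp_log hne, this, WithZero.exp_zero]
  · intro h h1
    simp [Place.ord, h1] at h

/-- A2 -/
theorem deg_eq_one [IsAlgClosed K] (hFF : IsFF K F) (v : Place K F) : v.deg = 1 := by
  have hsurj : Function.Surjective (algebraMap K v.ResidueField) := by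
    intro x
    obtain ⟨y, rfl⟩ := IsLocalRing.residue_surjective x
    obtain ⟨c, hc⟩ := exists_sub_algebraMap_ord_pos hFF v (ord_nonneg_of_mem v y.2)
    refine ⟨c, ?_⟩
    rw [IsScalarTower.algebraMap_apply K v.toValuationSubring v.ResidueField]
    show IsLocalRing.residue _ _ = IsLocalRing.residue _ _
    rw [eq_comm, ← sub_eq_zero, ← map_sub, IsLocalRing.residue_eq_zero_iff, mem_maximalIdeal_iff]
    rcases hc with hc | hc
    · left
      ext
      simp [hc]
    · right
      simpa using hc
  have hbij : Function.Bijective (algebraMap K v.ResidueField) :=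
    ⟨(algebraMap K v.ResidueField).injective, hsurj⟩
  show Module.finrank K v.ResidueField = 1
  rw [← Module.finrank_self K]
  exact ((AlgEquiv.ofBijective (Algebra.ofId K v.ResidueField) hbij).toLinearEquiv.finrank_eq).symm

end A5

end Fermat.Agent.S24Lib
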