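import Fermat.Agent.S20.Infty
import Fermat.Agent.S20.Basic
import Fermat.Agent.S20.JBasic

/-!
# Weakly holomorphic functions of level one are polynomials in `j`
-/

set_option autoImplicit false
open UpperHalfPlane hiding I
open ModularForm EisensteinSeries Complex Filter Topology CongruenceSubgroup
open scoped MatrixGroups Manifold

namespace Fermat.Agent.S24Lib

open Fermat.Agent.S20Lib

theorem lop_periodic (h : ℍ → ℂ) (hinv : ∀ (γ : SL(2, ℤ)) (τ : ℍ), h (γ • τ) = h τ) (τ : ℍ) :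
    h ((1 : ℝ) +ᵥ τ) = h τ := by
  rw [← modular_T_smul, hinv]

theorem lop_disc_ne_zero (τ : ℍ) : discriminant τ ≠ 0 := discriminant_ne_zero τ

theorem lop_disc_mul_jF (τ : ℍ) : discriminant τ * jF τ = E₄ τ ^ 3 := by
  unfold jF
  field_simp [lop_disc_ne_zero τ]

/-- a holomorphic `1`-periodic function bounded at infinity has a limit -/
theorem lop_exists_tendsto (g : ℍ → ℂ) (hg : MDiff g) (hper : ∀ τ : ℍ, g ((1 : ℝ) +ᵥ τ) = g τ)
    (hb : IsBoundedAtImInfty g) : ∃ a, Tendsto g atImInfty (𝓝 a) := by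
  rcases exists_lead_of_bdd 1 (X := Unit) (fun τ _ => g τ) (fun _ => hg)
    (fun _ τ => by
      have e : (((1 : ℕ) : ℝ) +ᵥ τ) = ((1 : ℝ) +ᵥ τ) := by simp
      rw [e, hper]) (fun _ => hb) with h | ⟨m, A, -, hl⟩
  · refine ⟨0, tendsto_const_nhds.congr' ?_⟩
    filter_upwards [h] with τ hτ
    exact (congrFun hτ ()).symm
  · have hl' := hl.apply ()
    rcases Nat.eq_zero_or_pos m with rfl | hm
    · exact ⟨A (), by simpa using hl'.tendsto_of_zero⟩
    · exact ⟨0, hl'.tendsto_zero (qN_ev_ne_zero 1) (qN_tendsto 1) (by exact_mod_cast hm)⟩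

theorem levelOne_poly_aux (t : ℕ) : ∀ (h : ℍ → ℂ), MDiff h →
    (∀ (γ : SL(2, ℤ)) (τ : ℍ), h (γ • τ) = h τ) →
    IsBoundedAtImInfty (fun τ => discriminant τ ^ t * h τ) →
    ∃ p : Polynomial ℂ, ∀ τ, h τ = p.eval (jF τ) := by
  induction t with
  | zero =>
    intro h hh hinv hb
    obtain ⟨c, hc⟩ := levelOne_const h hh hinv (by simpa using hb)
    exact ⟨Polynomial.C c, fun τ => by simp [hc]⟩
  | succ t ih =>
    intro h hh hinv hb
    have hDper : ∀ τ : ℍ, discriminant ((1 : ℝ) +ᵥ τ) = discriminant τ := by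
      intro τ
      have := disc_periodic 1 τ
      simpa using this
    have hDh : MDiff (fun τ : ℍ => discriminant τ ^ (t + 1)) := disc_mdiff.pow (t + 1)
    obtain ⟨a, ha⟩ := lop_exists_tendsto (fun τ => discriminant τ ^ (t + 1) * h τ)
      (hDh.mul hh) (fun τ => by rw [hDper, lop_periodic h hinv]) hb
    set h' : ℍ → ℂ := fun τ => h τ - a * jF τ ^ (t + 1) with hh'
    have hh'hol : MDiff h' := hh.sub (mdifferentiable_const.mul (jF_holo.pow (t + 1)))
    have hh'inv : ∀ (γ : SL(2, ℤ)) (τ : ℍ), h' (γ • τ) = h' τ := by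
      intro γ τ
      simp only [hh', hinv, jF_inv]
    have heq : ∀ τ, discriminant τ ^ (t + 1) * h' τ
        = discriminant τ ^ (t + 1) * h τ - a * (E₄ τ ^ 3) ^ (t + 1) := by
      intro τ
      rw [← lop_disc_mul_jF, mul_pow]
      simp only [hh']
      ring
    have hz : Tendsto (fun τ => discriminant τ ^ (t + 1) * h' τ) atImInfty (𝓝 0) := by
      have h1 : Tendsto (fun τ : ℍ => a * (E₄ τ ^ 3) ^ (t + 1)) atImInfty (𝓝 a) := by
        have := ((E4_tendsto.pow 3).pow (t + 1)).const_mul a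
        simpa using this
      have h2 := ha.sub h1
      rw [sub_self] at h2
      exact h2.congr fun τ => (heq τ).symm
    obtain ⟨B, hB⟩ := exists_lead_one_of_zero 1 (X := Unit)
      (fun τ _ => discriminant τ ^ (t + 1) * h' τ) (fun _ => hDh.mul hh'hol)
      (fun _ τ => by
        have e : (((1 : ℕ) : ℝ) +ᵥ τ) = ((1 : ℝ) +ᵥ τ) := by simp
        rw [e, hDper, lop_periodic h' hh'inv]) (fun _ => hz)
    have hB' := hB.apply ()
    have h3 := ((disc_lead_infty 1).inv one_ne_zero).mul (qN_ev_ne_zero 1) hB'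
    have h4 : Tendsto (fun τ => discriminant τ ^ t * h' τ) atImInfty (𝓝 (B ())) := by
      have h5 : Lead atImInfty (qN 1) (fun τ => discriminant τ ^ t * h' τ) 0 (B ()) := by
        have e : (-((1 : ℕ) : ℤ) + 1) = 0 := by simp
        rw [e] at h3
        simp only [inv_one, one_mul] at h3
        refine h3.congr' (Eventually.of_forall fun τ => ?_)
        show (discriminant τ)⁻¹ * (discriminant τ ^ (t + 1) * h' τ) = _
        rw [pow_succ]
        field_simp [lop_disc_ne_zero τ]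
      exact h5.tendsto_of_zero
    obtain ⟨p, hp⟩ := ih h' hh'hol hh'inv (h4.isBigO_one ℝ)
    refine ⟨p + Polynomial.C a * Polynomial.X ^ (t + 1), fun τ => ?_⟩
    have := hp τ
    simp only [hh'] at this
    simp only [Polynomial.eval_add, Polynomial.eval_mul, Polynomial.eval_C, Polynomial.eval_pow,
      Polynomial.eval_X]
    rw [← this]
    ring

theorem levelOne_poly (h : ℍ → ℂ) (hh : MDiff h)
    (hinv : ∀ (γ : SL(2, ℤ)) (τ : ℍ), h (γ • τ) = h τ) (t : ℕ)
    (hb : IsBoundedAtImInfty (fun τ => discriminant τ ^ t * h τ)) :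
    ∃ p : Polynomial ℂ, ∀ τ, h τ = p.eval (jF τ) :=
  levelOne_poly_aux t h hh hinv hb

end Fermat.Agent.S24Lib
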