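import Fermat.Agent.S24.Defs
import Fermat.Agent.S20.Defs
import Fermat.Prelude.Def_ModularForm_HeckeOperator

/-!
# S24 : shared definitions of the analytic part (PART B)
-/

set_option autoImplicit false

open UpperHalfPlane hiding I
open Filter Topology ModularForm
open scoped MatrixGroups Manifold

namespace Fermat.Agent.S24Lib

open Fermat.Agent.S20Lib

/-- the chosen embedding `ℚ̄ → ℂ` -/
noncomputable def phiK : Kb →+* ℂ :=
  haveI : Algebra.IsAlgebraic ℚ Kb := AlgebraicClosure.isAlgebraic ℚ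
  ((IsAlgClosed.lift : Kb →ₐ[ℚ] ℂ) : Kb →+* ℂ)

/-- the holomorphic function `τ ↦ j (d τ)` -/
noncomputable def jD (d : ℕ) (τ : ℍ) : ℂ := jF (heckeDiagMatrix d • τ)

/-- polynomials in the generators `j (d τ)`, `d ∣ N` -/
abbrev AN (N : ℕ) : Type := MvPolynomial {d : ℕ // d ∈ N.divisors} Kb

/-- the generators of the function field -/
noncomputable def gen (N : ℕ) (d : {d : ℕ // d ∈ N.divisors}) : FN N :=
  haveI : NeZero d.1 := ⟨(Nat.pos_of_mem_divisors d.2).ne'⟩
  jB N d.1 (Nat.dvd_of_mem_divisors d.2)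

/-- formal evaluation (`q`-expansions) -/
noncomputable def evq (N : ℕ) : AN N →ₐ[Kb] FN N := MvPolynomial.aeval (gen N)

/-- analytic evaluation -/
noncomputable def evan (N : ℕ) : AN N →+* (ℍ → ℂ) :=
  MvPolynomial.eval₂Hom ((Pi.constRingHom ℍ ℂ).comp phiK) (fun d => jD d.1)

/-- a filter on `ℍ` together with a local parameter -/
structure IsChart (l : Filter ℍ) (π : ℍ → ℂ) : Prop where
  neBot : l.NeBot
  tendsto : Tendsto π l (𝓝[≠] 0)

/-- the Taylor series at `0` -/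
noncomputable def taylor0 (H : ℂ → ℂ) : PowerSeries ℂ :=
  PowerSeries.mk fun n => iteratedDeriv n H 0 / (n.factorial : ℂ)

/-- `f` has the (convergent) Laurent expansion `ℓ` in the parameter `π` along `l` -/
def HasExp (l : Filter ℍ) (π : ℍ → ℂ) (f : ℍ → ℂ) (ℓ : LaurentSeries ℂ) : Prop :=
  ∃ (k : ℕ) (H : ℂ → ℂ), AnalyticAt ℂ H 0 ∧ (∀ᶠ τ in l, π τ ^ k * f τ = H (π τ)) ∧
    HahnSeries.single (k : ℤ) (1 : ℂ) * ℓ = HahnSeries.ofPowerSeries ℤ ℂ (taylor0 H)

/-- charts at which all the conjugates of the modular functions of level `N` can be expanded -/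
structure GoodChart (N : ℕ) (l : Filter ℍ) (π : ℍ → ℂ) : Prop where
  chart : IsChart l π
  ident : ∀ g : ℍ → ℂ, MDiff g → g =ᶠ[l] 0 → g = 0
  exp : ∀ F : ℍ → X0 N → ℂ, IsWH N F → ∀ x, ∃ ℓ, HasExp l π (fun τ => F τ x) ℓ

end Fermat.Agent.S24Lib
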