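import Fermat.Agent.S20.Infty
import Fermat.Agent.S20.JBasic
import Fermat.Agent.S23.PHI
import Fermat.Agent.S24.DefsB

/-!
# [B3-dist] of S24 : the stabiliser of `τ ↦ j(Nτ)` is `Γ₀(N)`
-/

set_option autoImplicit false
open UpperHalfPlane hiding I
open ModularForm EisensteinSeries Complex Filter Topology CongruenceSubgroup
open scoped MatrixGroups Manifold

namespace Fermat.Agent.S24Lib

open Fermat.Agent.S20Lib Fermat.Agent.S23L

theorem tendsto_qN_mul_jF : Tendsto (fun τ => qN 1 τ * jF τ) atImInfty (𝓝 1) := by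
  have := jF_lead_infty 1
  unfold Lead at this
  simpa using this

theorem norm_qN_one (τ : ℍ) : ‖qN 1 τ‖ = Real.exp (-2 * Real.pi * τ.im) := by
  unfold qN
  rw [Function.Periodic.norm_qParam]
  simp

theorem tendsto_atImInfty_of_im {c : ℝ} (hc : 0 < c) {w : ℍ → ℍ} (hw : ∀ τ, (w τ).im = c * τ.im) :
    Tendsto w atImInfty atImInfty := by
  unfold atImInfty
  rw [tendsto_comap_iff]
  have : (UpperHalfPlane.im ∘ w) = fun τ => c * τ.im := funext hw
  rw [this]
  exact (tendsto_comap (f := UpperHalfPlane.im) (x := atTop)).const_mul_atTop hc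

theorem growth_aux {c c' : ℝ} (hc : 0 < c) (hc' : 0 < c') {w w' : ℍ → ℍ}
    (hw : ∀ τ, (w τ).im = c * τ.im) (hw' : ∀ τ, (w' τ).im = c' * τ.im)
    (h : ∀ τ, jF (w τ) = jF (w' τ)) : ¬ c < c' := by
  intro hlt
  have h1 := (tendsto_qN_mul_jF.comp (tendsto_atImInfty_of_im hc hw)).norm
  have h2 := (tendsto_qN_mul_jF.comp (tendsto_atImInfty_of_im hc' hw')).norm
  have h3 : Tendsto (fun τ : ℍ => Real.exp (-(2 * Real.pi * (c' - c)) * τ.im)) atImInfty (𝓝 0) := by
    apply Real.tendsto_exp_atBot.comp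
    have hpos : 0 < 2 * Real.pi * (c' - c) := by
      have := Real.pi_pos
      have : 0 < c' - c := sub_pos.2 hlt
      positivity
    have := (tendsto_comap (f := UpperHalfPlane.im) (x := atTop)).const_mul_atTop hpos
    have h4 := tendsto_neg_atTop_atBot.comp this
    refine h4.congr fun τ => ?_
    simp
  have h5 := h3.mul h1
  have h6 : (fun τ : ℍ => Real.exp (-(2 * Real.pi * (c' - c)) * τ.im) *
      ‖((fun τ => qN 1 τ * jF τ) ∘ w) τ‖) = fun τ => ‖((fun τ => qN 1 τ * jF τ) ∘ w') τ‖ := by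
    ext τ
    simp only [Function.comp_apply, norm_mul, norm_qN_one, hw, hw', h τ]
    rw [← mul_assoc, ← Real.exp_add]
    congr 2
    ring
  rw [h6] at h5
  have := tendsto_nhds_unique h5 h2
  simp at this

theorem growth_eq {c c' : ℝ} (hc : 0 < c) (hc' : 0 < c') {w w' : ℍ → ℍ}
    (hw : ∀ τ, (w τ).im = c * τ.im) (hw' : ∀ τ, (w' τ).im = c' * τ.im)
    (h : ∀ τ, jF (w τ) = jF (w' τ)) : c = c' :=
  le_antisymm (not_lt.1 (growth_aux hc' hc hw' hw fun τ => (h τ).symm))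
    (not_lt.1 (growth_aux hc hc' hw hw' h))

theorem coe_upperTriangularGL_smul (a b d : ℝ) (had : a * d ≠ 0) (hpos : 0 < a * d) (τ : ℍ) :
    ((upperTriangularGL a b d had • τ : ℍ) : ℂ) = (a * τ + b) / d := by
  have hdet : 0 < ((upperTriangularGL a b d had).det : ℝ) := by
    rw [Matrix.GeneralLinearGroup.val_det_apply, val_upperTriangularGL, Matrix.det_fin_two_of]
    simpa using hpos
  rw [UpperHalfPlane.coe_smul_of_det_pos hdet]
  simp [UpperHalfPlane.num, UpperHalfPlane.denom, val_upperTriangularGL]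

/-- the stabiliser of `τ ↦ j(Nτ)` in `SL₂(ℤ)` is `Γ₀(N)` -/
theorem mem_Gamma0_of_jF_diag (N : ℕ) [NeZero N] (γ : SL(2, ℤ))
    (h : ∀ τ : ℍ, jF (heckeDiagMatrix N • (γ • τ)) = jF (heckeDiagMatrix N • τ)) :
    γ ∈ Gamma0 N := by
  have hN : N ≠ 0 := NeZero.ne N
  obtain ⟨ε, g, B, D, hgD, hg, hD, hgDN, hD1, hdec⟩ := phi_decomp N γ
  apply hD1
  have hgR : (0 : ℝ) < g := by exact_mod_cast hg
  have hDR : (0 : ℝ) < D := by exact_mod_cast hD
  have hNR : (0 : ℝ) < N := by exact_mod_cast Nat.pos_of_ne_zero hN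
  have h1 : ∀ τ : ℍ, jF (upperTriangularGL g B D hgD • τ) = jF (heckeDiagMatrix N • τ) := by
    intro τ
    rw [← h τ]
    have : heckeDiagMatrix N • (γ • τ) = ε • (upperTriangularGL g B D hgD • τ) := by
      have e1 : γ • τ = (γ : GL (Fin 2) ℝ) • τ := rfl
      have e2 : ε • (upperTriangularGL g B D hgD • τ)
          = (ε : GL (Fin 2) ℝ) • (upperTriangularGL g B D hgD • τ) := rfl
      rw [e1, e2, ← mul_smul, ← mul_smul, hdec]
    rw [this, jF_inv]
  have h2 : ((g : ℝ) / D) = N := by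
    refine growth_eq (w := fun τ => upperTriangularGL g B D hgD • τ)
      (w' := fun τ => heckeDiagMatrix N • τ) (by positivity) hNR ?_ ?_ h1
    · intro τ
      have := congrArg Complex.im (coe_upperTriangularGL_smul g B D hgD (by positivity) τ)
      rw [UpperHalfPlane.coe_im] at this
      rw [this]
      have e : (((g : ℝ) : ℂ) * τ + ((B : ℝ) : ℂ)) / ((D : ℝ) : ℂ)
          = ((((g : ℝ) / D : ℝ)) : ℂ) * τ + (((B : ℝ) / D : ℝ) : ℂ) := by
        push_cast
        field_simp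
      rw [e]
      simp
    · intro τ
      have := congrArg Complex.im (coe_heckeDiagMatrix_smul hN τ)
      rw [UpperHalfPlane.coe_im] at this
      rw [this]
      simp
  have h3 : (g : ℝ) = N * D := by
    field_simp at h2
    linarith
  have h4 : g = N * D := by exact_mod_cast h3
  rw [h4] at hgDN
  have h5 : (N : ℤ) * (D * D) = N * 1 := by linarith
  have h6 : D * D = 1 := mul_left_cancel₀ (by exact_mod_cast hN) h5
  nlinarith

/-- representation independent version -/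
theorem mem_Gamma0_of_jF_eq (N : ℕ) [NeZero N] (γ : SL(2, ℤ)) (s : ℍ → ℍ)
    (hs : ∀ τ, (s τ : ℂ) = N * τ) (h : ∀ τ : ℍ, jF (s (γ • τ)) = jF (s τ)) : γ ∈ Gamma0 N := by
  have hN : N ≠ 0 := NeZero.ne N
  have : ∀ τ, s τ = heckeDiagMatrix N • τ := fun τ => by
    ext1
    rw [hs, coe_heckeDiagMatrix_smul hN]
  apply mem_Gamma0_of_jF_diag N γ
  intro τ
  rw [← this, ← this, h]

/-- conversely `τ ↦ j(dτ)` is `Γ₀(N)`-invariant for `d ∣ N` -/
theorem jF_diag_smul_of_mem (N : ℕ) [NeZero N] (γ : SL(2, ℤ)) (hγ : γ ∈ Gamma0 N) (τ : ℍ) :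
    jF (heckeDiagMatrix N • (γ • τ)) = jF (heckeDiagMatrix N • τ) := by
  obtain ⟨γ', hγ'⟩ := phi_conj N γ hγ
  have e1 : γ • τ = (γ : GL (Fin 2) ℝ) • τ := rfl
  rw [e1, ← mul_smul, hγ', mul_smul]
  exact jF_inv γ' _

/-- Skeleton form -/
theorem mem_Gamma0_of_jD_eq (N : ℕ) [NeZero N] (g : SL(2, ℤ))
    (h : ∀ τ : ℍ, jD N (g • τ) = jD N τ) : g ∈ Gamma0 N :=
  mem_Gamma0_of_jF_diag N g h

theorem jD_smul_of_mem (N : ℕ) [NeZero N] (γ : SL(2, ℤ)) (hγ : γ ∈ Gamma0 N) (τ : ℍ) :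
    jD N (γ • τ) = jD N τ :=
  jF_diag_smul_of_mem N γ hγ τ

/-- `τ ↦ j(dτ)` is `Γ₀(N)`-invariant for `d ∣ N` -/
theorem jD_smul_of_dvd {N d : ℕ} [NeZero N] (hd : d ∣ N) (γ : SL(2, ℤ)) (hγ : γ ∈ Gamma0 N)
    (τ : ℍ) : jD d (γ • τ) = jD d τ := by
  haveI : NeZero d := ⟨fun h => NeZero.ne N (by rw [h] at hd; exact Nat.eq_zero_of_zero_dvd hd)⟩
  refine jD_smul_of_mem d γ ?_ τ
  rw [Gamma0_mem, ZMod.intCast_zmod_eq_zero_iff_dvd] at hγ ⊢
  exact dvd_trans (by exact_mod_cast hd) hγ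

end Fermat.Agent.S24Lib
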