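import Fermat.Agent.S20.Infty
import Fermat.Agent.S20.Basic
import Fermat.Agent.S20.JBasic
import Fermat.Agent.S20.ConstBdd
import Fermat.Agent.S23.PHI
import Fermat.Agent.S24.DefsB
import Fermat.Agent.S24.Distinct

/-!
# The functions `j(dτ)`, their conjugates, weak holomorphy
-/

set_option autoImplicit false
open UpperHalfPlane hiding I
open ModularForm EisensteinSeries Complex Filter Topology CongruenceSubgroup
open scoped MatrixGroups Manifold

namespace Fermat.Agent.S24Lib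

open Fermat.Agent.S20Lib Fermat.Agent.S23L

theorem jD_eq_slash (d : ℕ) [NeZero d] : jD d = jF ∣[(1 : ℤ)] heckeDiagMatrix d := by
  ext τ
  rw [slash_heckeDiagMatrix_apply 1 (NeZero.ne d)]
  simp [jD]

theorem jD_holo (d : ℕ) [NeZero d] : MDiff (jD d) := by
  rw [jD_eq_slash]
  exact jF_holo.slash 1 _

theorem jD_one : jD 1 = jF := by
  ext τ
  unfold jD
  congr 1
  ext1
  rw [coe_heckeDiagMatrix_smul one_ne_zero]
  simp

theorem Gamma0_le_of_dvd {d N : ℕ} (h : d ∣ N) : Gamma0 N ≤ Gamma0 d := by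
  intro γ hγ
  rw [Gamma0_mem, ZMod.intCast_zmod_eq_zero_iff_dvd] at hγ ⊢
  exact (Int.natCast_dvd_natCast.mpr h).trans hγ

theorem jD_Gamma0 (d : ℕ) [NeZero d] (γ : SL(2, ℤ)) (hγ : γ ∈ Gamma0 d) (τ : ℍ) :
    jD d (γ • τ) = jD d τ := by
  obtain ⟨γ', hγ'⟩ := phi_conj d γ hγ
  unfold jD
  have h1 : heckeDiagMatrix d • (γ • τ) = γ' • (heckeDiagMatrix d • τ) := by
    show heckeDiagMatrix d • ((γ : GL (Fin 2) ℝ) • τ) = (γ' : GL (Fin 2) ℝ) • (heckeDiagMatrix d • τ)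
    rw [← mul_smul, hγ', mul_smul]
  rw [h1, jF_inv]

/-- the conjugates of `j(dτ)` are the `j((gτ+B)/D)`, `gD = d`. -/
theorem jD_smul_eq (d : ℕ) [NeZero d] (γ : SL(2, ℤ)) :
    ∃ (g B D : ℤ) (hgD : ((g : ℝ) * (D : ℝ)) ≠ 0), 0 < g ∧ 0 < D ∧ g * D = d ∧
      (D = 1 → γ ∈ Gamma0 d) ∧
      ∀ τ : ℍ, jD d (γ • τ) = jF (upperTriangularGL g B D hgD • τ) := by
  obtain ⟨ε, g, B, D, hgD, hg, hD, hgDN, hD1, hdec⟩ := phi_decomp d γ
  refine ⟨g, B, D, hgD, hg, hD, hgDN, hD1, fun τ => ?_⟩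
  unfold jD
  have h1 : heckeDiagMatrix d • (γ • τ) = ε • (upperTriangularGL g B D hgD • τ) := by
    show heckeDiagMatrix d • ((γ : GL (Fin 2) ℝ) • τ)
      = (ε : GL (Fin 2) ℝ) • (upperTriangularGL g B D hgD • τ)
    rw [← mul_smul, hdec, mul_smul]
  rw [h1, jF_inv]

theorem tendsto_upperTriangularGL_smul (a b d : ℝ) (had : a * d ≠ 0) :
    Tendsto (fun τ : ℍ => upperTriangularGL a b d had • τ) atImInfty atImInfty := by
  have h10 : (upperTriangularGL a b d had : GL (Fin 2) ℝ) 1 0 = 0 := by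
    simp [val_upperTriangularGL]
  exact tendsto_smul_atImInfty h10

/-- `q((gτ+B)/D) = ζ q_M^{g M / D}` -/
theorem qN_one_upper (M : ℕ) [NeZero M] (g B D k : ℤ) (hgD : ((g : ℝ) * (D : ℝ)) ≠ 0)
    (hg : 0 < g) (hD : 0 < D) (hk : D * k = M) (τ : ℍ) :
    qN 1 (upperTriangularGL g B D hgD • τ)
      = Complex.exp (2 * Real.pi * Complex.I * B / D) * qN M τ ^ (g * k) := by
  have hposR : (0 : ℝ) < (g : ℝ) * (D : ℝ) := by
    have h1 : (0 : ℝ) < (g : ℝ) := by exact_mod_cast hg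
    have h2 : (0 : ℝ) < (D : ℝ) := by exact_mod_cast hD
    positivity
  have hM : (M : ℂ) ≠ 0 := by exact_mod_cast NeZero.ne M
  have hDC : (D : ℂ) ≠ 0 := by exact_mod_cast hD.ne'
  have hkC : (D : ℂ) * k = M := by exact_mod_cast hk
  unfold qN Function.Periodic.qParam
  rw [coe_upperTriangularGL_smul _ _ _ _ hposR, ← Complex.exp_int_mul, ← Complex.exp_add]
  congr 1
  push_cast
  rw [← hkC]
  have hk0 : (k : ℂ) ≠ 0 := by
    intro h
    rw [h, mul_zero] at hkC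
    exact hM hkC.symm
  field_simp
  ring

/-- the leading term of `j((gτ+B)/D)` at infinity -/
theorem jF_upper_lead (M : ℕ) [NeZero M] (g B D k : ℤ) (hgD : ((g : ℝ) * (D : ℝ)) ≠ 0)
    (hg : 0 < g) (hD : 0 < D) (hk : D * k = M) :
    Lead atImInfty (qN M) (fun τ => jF (upperTriangularGL g B D hgD • τ)) (-(g * k))
      (Complex.exp (2 * Real.pi * Complex.I * B / D))⁻¹ := by
  have h1 := jF_lead_infty 1
  unfold Lead at h1 ⊢
  have h2 := h1.comp (tendsto_upperTriangularGL_smul g B D hgD)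
  have h3 := h2.const_mul (Complex.exp (2 * Real.pi * Complex.I * B / D))⁻¹
  rw [mul_one] at h3
  refine h3.congr fun τ => ?_
  simp only [Function.comp_apply, smul_eq_mul, neg_neg, Nat.cast_one, zpow_one]
  rw [qN_one_upper M g B D k hgD hg hD hk]
  have := Complex.exp_ne_zero (2 * Real.pi * Complex.I * B / D)
  field_simp

/-! ### conjugates -/

/-- the vector of conjugates of a function -/
noncomputable def cvec (N : ℕ) (f : ℍ → ℂ) (τ : ℍ) (x : X0 N) : ℂ := f ((x.out)⁻¹ • τ)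

/-- invariance under `Γ₀(N)` -/
def IsInv (N : ℕ) (f : ℍ → ℂ) : Prop := ∀ γ ∈ Gamma0 N, ∀ τ : ℍ, f (γ • τ) = f τ

theorem cvec_mk {N : ℕ} {f : ℍ → ℂ} (hf : IsInv N f) (g : SL(2, ℤ)) (τ : ℍ) :
    cvec N f τ (g : X0 N) = f (g⁻¹ • τ) := by
  unfold cvec
  have hgh : (((g : X0 N).out : SL(2, ℤ)) : X0 N) = g := QuotientGroup.out_eq' _
  have hmem : ((g : X0 N).out)⁻¹ * g ∈ Gamma0 N := QuotientGroup.eq.mp hgh
  have h1 : ((g : X0 N).out)⁻¹ = (((g : X0 N).out)⁻¹ * g) * g⁻¹ := by group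
  rw [h1, mul_smul, hf _ hmem]

theorem cvec_equiv {N : ℕ} {f : ℍ → ℂ} (hf : IsInv N f) (γ : SL(2, ℤ)) (τ : ℍ) (x : X0 N) :
    cvec N f (γ • τ) x = cvec N f τ (γ⁻¹ • x) := by
  induction x using QuotientGroup.induction_on with
  | H g =>
    have h1 : γ⁻¹ • (g : X0 N) = ((γ⁻¹ * g : SL(2, ℤ)) : X0 N) := rfl
    rw [h1, cvec_mk hf, cvec_mk hf, ← mul_smul]
    congr 2
    group

theorem cvec_base {N : ℕ} {f : ℍ → ℂ} (hf : IsInv N f) (τ : ℍ) :
    cvec N f τ ((1 : SL(2, ℤ)) : X0 N) = f τ := by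
  rw [cvec_mk hf]
  simp

theorem cvec_holo {N : ℕ} {f : ℍ → ℂ} (hf : MDiff f) (x : X0 N) :
    MDiff (fun τ => cvec N f τ x) := by
  have := hf.slash 0 (((x.out)⁻¹ : SL(2, ℤ)) : GL (Fin 2) ℝ)
  have h2 : f ∣[(0 : ℤ)] (((x.out)⁻¹ : SL(2, ℤ)) : GL (Fin 2) ℝ) = fun τ => cvec N f τ x :=
    slash_zero_eq f _
  rwa [h2] at this

theorem IsInv.jD {d N : ℕ} [NeZero d] (h : d ∣ N) : IsInv N (jD d) :=
  fun γ hγ τ => jD_Gamma0 d γ (Gamma0_le_of_dvd h hγ) τ

theorem IsWH.mul {N : ℕ} {F G : ℍ → X0 N → ℂ} (hF : IsWH N F) (hG : IsWH N G) :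
    IsWH N (fun τ x => F τ x * G τ x) where
  holo x := (hF.holo x).mul (hG.holo x)
  equiv γ τ x := by rw [hF.equiv, hG.equiv]
  mero := by
    obtain ⟨s, hs⟩ := hF.mero
    obtain ⟨t, ht⟩ := hG.mero
    refine ⟨s + t, fun x => ?_⟩
    have := (hs x).mul (ht x)
    have e : ((fun τ => discriminant τ ^ s * F τ x) * fun τ => discriminant τ ^ t * G τ x)
        = fun τ => discriminant τ ^ (s + t) * (F τ x * G τ x) := by
      ext τ
      simp only [Pi.mul_apply]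
      ring
    rwa [e] at this

theorem bdd_of_lead_nonneg (M : ℕ) [NeZero M] {f : ℍ → ℂ} {n : ℤ} {a : ℂ}
    (h : Lead atImInfty (qN M) f n a) (hn : 0 ≤ n) : IsBoundedAtImInfty f := by
  rcases hn.lt_or_eq with h1 | h1
  · exact (h.tendsto_zero (qN_ev_ne_zero M) (qN_tendsto M) h1).isBigO_one ℝ
  · subst h1
    exact h.tendsto_of_zero.isBigO_one ℝ

theorem isWH_cvec_jD {d N : ℕ} [NeZero d] (h : d ∣ N) : IsWH N (cvec N (jD d)) where
  holo x := cvec_holo (jD_holo d) x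
  equiv γ τ x := cvec_equiv (IsInv.jD h) γ τ x
  mero := by
    refine ⟨d, fun x => ?_⟩
    obtain ⟨g, B, D, hgD, hg, hD, hgDd, -, hj⟩ := jD_smul_eq d ((x.out)⁻¹)
    have h1 := jF_upper_lead d g B D g hgD hg hD (by rw [mul_comm]; exact hgDd)
    have h2 := (disc_lead_infty d).pow (qN_ev_ne_zero d) d
    have h3 := h2.mul (qN_ev_ne_zero d) h1
    refine bdd_of_lead_nonneg d (h3.congr' (Eventually.of_forall fun τ => ?_)) ?_
    · show _ = discriminant τ ^ d * cvec N (jD d) τ x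
      unfold cvec
      rw [hj]
    · have h4 : g ≤ d := by
        rw [← hgDd]
        nlinarith
      nlinarith

end Fermat.Agent.S24Lib
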