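import Fermat.Agent.S24.DefsB
import Fermat.Agent.S24.Conj

/-!
# [B-Theta] of S24: the dictionary between the function field `FN N` and analytic functions
-/

set_option autoImplicit false
open UpperHalfPlane hiding I
open ModularForm Complex Filter Topology CongruenceSubgroup
open scoped MatrixGroups Manifold

namespace Fermat.Agent.S24Lib

open Fermat.Agent.S20Lib ModularCurve

instance instNeZeroDv (N : ℕ) (d : {d : ℕ // d ∈ N.divisors}) : NeZero d.1 :=
  ⟨(Nat.pos_of_mem_divisors d.2).ne'⟩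

/-- the divisor `1` -/
def dvOne (N : ℕ) [NeZero N] : {d : ℕ // d ∈ N.divisors} :=
  ⟨1, Nat.one_mem_divisors.mpr (NeZero.ne N)⟩

/-- the divisor `N` -/
def dvTop (N : ℕ) [NeZero N] : {d : ℕ // d ∈ N.divisors} :=
  ⟨N, Nat.mem_divisors_self N (NeZero.ne N)⟩

theorem coe_gen (N : ℕ) (d : {d : ℕ // d ∈ N.divisors}) :
    (gen N d : LaurentSeries Kb) = coeffEmb Kb (qExpand ℚ d.1 jq) := rfl

theorem gen_dvOne (N : ℕ) [NeZero N] : gen N (dvOne N) = jj N := rfl

@[simp] theorem evq_X (N : ℕ) (d : {d : ℕ // d ∈ N.divisors}) :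
    evq N (MvPolynomial.X d) = gen N d := by
  simp [evq]

@[simp] theorem evq_C (N : ℕ) (a : Kb) : evq N (MvPolynomial.C a) = algebraMap Kb (FN N) a := by
  simp [evq]

@[simp] theorem evan_X (N : ℕ) (d : {d : ℕ // d ∈ N.divisors}) :
    evan N (MvPolynomial.X d) = jD d.1 := by
  simp [evan]

@[simp] theorem evan_C (N : ℕ) (a : Kb) : evan N (MvPolynomial.C a) = fun _ => phiK a := by
  simp [evan]
  rfl

theorem evq_dvOne (N : ℕ) [NeZero N] : evq N (MvPolynomial.X (dvOne N)) = jj N := by
  rw [evq_X, gen_dvOne]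

theorem evan_dvOne (N : ℕ) [NeZero N] : evan N (MvPolynomial.X (dvOne N)) = jF := by
  rw [evan_X]
  exact jD_one

theorem coeffMap_algebraMap' {K L : Type*} [Field K] [Field L] (φ : K →+* L) (a : K) :
    coeffMap φ (algebraMap K (LaurentSeries K) a) = algebraMap L (LaurentSeries L) (φ a) := by
  rw [algebraMap_laurentSeries_eq_single, algebraMap_laurentSeries_eq_single, coeffMap_single]

/-! ### analytic properties -/

theorem vec_zero_apply (N : ℕ) (f : ℍ → ℂ) (τ : ℍ) (x : X0 N) :
    vec N 0 f τ x = f ((x.out)⁻¹ • τ) := by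
  unfold vec
  rw [slash_zero_eq]

theorem vec_zero_eq_cvec (N : ℕ) (f : ℍ → ℂ) : vec N 0 f = cvec N f := by
  ext τ x
  rw [vec_zero_apply]
  rfl

theorem evan_holo (N : ℕ) [NeZero N] (P : AN N) : MDiff (evan N P) := by
  induction P using MvPolynomial.induction_on with
  | C a => rw [evan_C]; exact mdifferentiable_const
  | add p q hp hq => rw [map_add]; exact hp.add hq
  | mul_X p d hp => rw [map_mul, evan_X]; exact hp.mul (jD_holo d.1)

theorem evan_isInv (N : ℕ) (P : AN N) : IsInv N (evan N P) := by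
  induction P using MvPolynomial.induction_on with
  | C a => rw [evan_C]; exact fun _ _ _ => rfl
  | add p q hp hq =>
    rw [map_add]
    intro γ hγ τ
    simp only [Pi.add_apply, hp γ hγ τ, hq γ hγ τ]
  | mul_X p d hp =>
    rw [map_mul, evan_X]
    intro γ hγ τ
    simp only [Pi.mul_apply, hp γ hγ τ, IsInv.jD (Nat.dvd_of_mem_divisors d.2) γ hγ τ]

theorem evan_smul (N : ℕ) [NeZero N] (P : AN N) (γ : SL(2, ℤ)) (hγ : γ ∈ Gamma0 N) (τ : ℍ) :
    evan N P (γ • τ) = evan N P τ := evan_isInv N P γ hγ τ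

theorem isWH_evan (N : ℕ) [NeZero N] (P : AN N) : IsWH N (vec N 0 (evan N P)) := by
  rw [vec_zero_eq_cvec]
  induction P using MvPolynomial.induction_on with
  | C a =>
    rw [evan_C]
    have := (IsWH.one N).smul (phiK a)
    convert this using 1
    ext τ x
    simp [cvec]
  | add p q hp hq => rw [map_add]; exact hp.add hq
  | mul_X p d hp =>
    rw [map_mul, evan_X]
    exact IsWH.mul hp (isWH_cvec_jD (Nat.dvd_of_mem_divisors d.2))

/-- the value of the conjugate at the class of `g` -/
theorem vec_evan_mk (N : ℕ) [NeZero N] (P : AN N) (g : SL(2, ℤ)) (τ : ℍ) :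
    vec N 0 (evan N P) τ (g : X0 N) = evan N P (g⁻¹ • τ) := by
  rw [vec_zero_eq_cvec, cvec_mk (evan_isInv N P)]

theorem vec_evan_base (N : ℕ) [NeZero N] (P : AN N) (τ : ℍ) :
    vec N 0 (evan N P) τ ((1 : SL(2, ℤ)) : X0 N) = evan N P τ := by
  rw [vec_evan_mk]
  simp

/-! ### the function field is the fraction field of the range of `evq` -/

theorem modularFunctionFieldBar_eq (N : ℕ) [NeZero N] : modularFunctionFieldBar N =
    IntermediateField.adjoin Kb
      (Set.range (fun d : {d : ℕ // d ∈ N.divisors} => (gen N d : LaurentSeries Kb))) := by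
  apply le_antisymm
  · unfold modularFunctionFieldBar laurentBaseChange
    rw [IntermediateField.adjoin_le_iff]
    rintro _ ⟨x, hx, rfl⟩
    have hx' : x ∈ IntermediateField.adjoin ℚ (divisorExpansions N) := hx
    induction hx' using IntermediateField.adjoin_induction with
    | mem y hy =>
      obtain ⟨d, hd0, hd, rfl⟩ := hy
      exact IntermediateField.subset_adjoin _ _
        ⟨⟨d, Nat.mem_divisors.mpr ⟨hd, NeZero.ne N⟩⟩, rfl⟩
    | algebraMap r =>
      have : coeffEmb Kb (algebraMap ℚ (LaurentSeries ℚ) r)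
          = algebraMap Kb (LaurentSeries Kb) (algebraMap ℚ Kb r) := coeffMap_algebraMap' _ r
      rw [this]
      exact IntermediateField.algebraMap_mem _ _
    | add y z _ _ hy hz =>
      rw [map_add]
      exact add_mem (hy (by assumption)) (hz (by assumption))
    | inv y _ hy =>
      rw [map_inv₀]
      exact inv_mem (hy (by assumption))
    | mul y z _ _ hy hz =>
      rw [map_mul]
      exact mul_mem (hy (by assumption)) (hz (by assumption))
  · rw [IntermediateField.adjoin_le_iff]
    rintro _ ⟨d, rfl⟩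
    exact (gen N d).2

theorem coe_evq (N : ℕ) (P : AN N) : ((evq N P : FN N) : LaurentSeries Kb)
    = MvPolynomial.aeval
      (fun d : {d : ℕ // d ∈ N.divisors} => (gen N d : LaurentSeries Kb)) P := by
  have := MvPolynomial.comp_aeval_apply (gen N) (modularFunctionFieldBar N).val P
  exact this

theorem exists_evq_div' (N : ℕ) [NeZero N] (f : FN N) :
    ∃ P Q : AN N, f = evq N P / evq N Q := by
  have hf : (f : LaurentSeries Kb) ∈ IntermediateField.adjoin Kb
      (Set.range (fun d : {d : ℕ // d ∈ N.divisors} => (gen N d : LaurentSeries Kb))) := by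
    rw [← modularFunctionFieldBar_eq]
    exact f.2
  rw [IntermediateField.mem_adjoin_range_iff] at hf
  obtain ⟨P, Q, h⟩ := hf
  refine ⟨P, Q, Subtype.ext ?_⟩
  rw [h, ← coe_evq, ← coe_evq]
  rfl

theorem exists_evq_div (N : ℕ) [NeZero N] (f : FN N) :
    ∃ P Q : AN N, evq N Q ≠ 0 ∧ f = evq N P / evq N Q := by
  obtain ⟨P, Q, h⟩ := exists_evq_div' N f
  by_cases hQ : evq N Q = 0
  · refine ⟨0, 1, by simp, ?_⟩
    rw [h, hQ]
    simp
  · exact ⟨P, Q, hQ, h⟩

theorem isFractionRing_range (N : ℕ) [NeZero N] : IsFractionRing (evq N).range (FN N) := by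
  apply IsFractionRing.of_field
  intro z
  obtain ⟨P, Q, h⟩ := exists_evq_div' N z
  exact ⟨⟨evq N P, P, rfl⟩, ⟨evq N Q, Q, rfl⟩, h⟩

theorem exists_lift (N : ℕ) [NeZero N] {L : Type} [Field L] (ψ : AN N →+* L)
    (h : ∀ P, ψ P = 0 ↔ evq N P = 0) : ∃ ι : FN N →+* L, ∀ P, ι (evq N P) = ψ P := by
  have := isFractionRing_range N
  let r : AN N →+* (evq N).range := (evq N).rangeRestrict
  have hr : Function.Surjective r := (evq N).rangeRestrict_surjective
  have hker : RingHom.ker r ≤ RingHom.ker ψ := by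
    intro P hP
    rw [RingHom.mem_ker] at hP ⊢
    rw [h]
    exact congrArg Subtype.val hP
  let ψ' : (evq N).range →+* L := RingHom.liftOfSurjective r hr ⟨ψ, hker⟩
  have hψ' : ∀ P, ψ' (r P) = ψ P := fun P => RingHom.liftOfRightInverse_comp_apply _ _ _ _ P
  have hinj : Function.Injective ψ' := by
    rw [injective_iff_map_eq_zero]
    intro a ha
    obtain ⟨P, rfl⟩ := hr a
    rw [hψ', h] at ha
    exact Subtype.ext ha
  refine ⟨IsFractionRing.lift hinj, fun P => ?_⟩
  have := IsFractionRing.lift_algebraMap hinj (K := FN N) (r P)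
  rw [hψ'] at this
  exact this

theorem ringHom_ext_evq (N : ℕ) [NeZero N] {L : Type*} [Field L] (ι ι' : FN N →+* L)
    (h : ∀ P, ι (evq N P) = ι' (evq N P)) : ι = ι' := by
  ext f
  obtain ⟨P, Q, rfl⟩ := exists_evq_div' N f
  rw [map_div₀, map_div₀, h, h]

theorem ringHom_ext_gen (N : ℕ) [NeZero N] {L : Type*} [Field L] (ι ι' : FN N →+* L)
    (h0 : ∀ a : Kb, ι (algebraMap Kb (FN N) a) = ι' (algebraMap Kb (FN N) a))
    (h : ∀ d, ι (gen N d) = ι' (gen N d)) : ι = ι' := by
  apply ringHom_ext_evq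
  intro P
  have : ι.comp (evq N : AN N →+* FN N) = ι'.comp (evq N : AN N →+* FN N) := by
    apply MvPolynomial.ringHom_ext
    · intro a
      simpa using h0 a
    · intro d
      simpa using h d
  exact congrArg (fun f => f P) this

end Fermat.Agent.S24Lib
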