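import Fermat.Agent.S24.Kernel
import Fermat.Agent.S24.Theta
import Fermat.Agent.S24.DegreeAlg

/-!
# S24 : lower bound for `[F_N : ℚ̄(j)]` from distinct embeddings, and the basic facts on the
embeddings (`ι x` of constants and of `j`).
-/

set_option autoImplicit false

open UpperHalfPlane hiding I
open Filter Topology ModularForm IntermediateField
open scoped MatrixGroups Manifold

namespace Fermat.Agent.S24Lib

open Fermat.Agent.S20Lib

section
variable {N : ℕ} [NeZero N] {l : Filter ℍ} {π : ℍ → ℂ}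
  {ι : X0 N → FN N →+* LaurentSeries ℂ}

theorem emb_algebraMap (hc : IsChart l π)
    (h : ∀ (x : X0 N) (P : AN N), HasExp l π (fun τ => vec N 0 (evan N P) τ x) (ι x (evq N P)))
    (x : X0 N) (c : Kb) : ι x (algebraMap Kb (FN N) c) = HahnSeries.C (phiK c) := by
  have h1 := h x (MvPolynomial.C c)
  rw [evq_C] at h1
  refine h1.unique hc ((HasExp.const l π (phiK c)).congr (Eventually.of_forall fun τ => ?_))
  simp only [vec_zero_apply, evan_C]

theorem hasExp_emb_jj
    (h : ∀ (x : X0 N) (P : AN N), HasExp l π (fun τ => vec N 0 (evan N P) τ x) (ι x (evq N P)))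
    (x : X0 N) : HasExp l π jF (ι x (jj N)) := by
  have h1 := h x (MvPolynomial.X (dvOne N))
  rw [evq_dvOne] at h1
  refine h1.congr (Eventually.of_forall fun τ => ?_)
  simp only [vec_zero_apply, evan_dvOne, jF_inv]

theorem emb_jj_eq (hc : IsChart l π)
    (h : ∀ (x : X0 N) (P : AN N), HasExp l π (fun τ => vec N 0 (evan N P) τ x) (ι x (evq N P)))
    (x y : X0 N) : ι x (jj N) = ι y (jj N) :=
  (hasExp_emb_jj h x).unique hc (hasExp_emb_jj h y)

theorem emb_eq_on_adjoin (hc : IsChart l π)
    (h : ∀ (x : X0 N) (P : AN N), HasExp l π (fun τ => vec N 0 (evan N P) τ x) (ι x (evq N P)))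
    (x y : X0 N) (a : Kb⟮jj N⟯) :
    ι x (algebraMap Kb⟮jj N⟯ (FN N) a) = ι y (algebraMap Kb⟮jj N⟯ (FN N) a) := by
  obtain ⟨a, ha⟩ := a
  show ι x a = ι y a
  induction ha using IntermediateField.adjoin_induction with
  | mem z hz =>
    rw [Set.mem_singleton_iff] at hz
    subst hz
    exact emb_jj_eq hc h x y
  | algebraMap c => rw [emb_algebraMap hc h, emb_algebraMap hc h]
  | add a b _ _ ha hb => rw [map_add, map_add, ha, hb]
  | inv a _ ha => rw [map_inv₀, map_inv₀, ha]
  | mul a b _ _ ha hb => rw [map_mul, map_mul, ha, hb]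

theorem card_le_finrank_jj_of_emb [FiniteDimensional Kb⟮jj N⟯ (FN N)] (hc : IsChart l π)
    (hinj : Function.Injective ι)
    (h : ∀ (x : X0 N) (P : AN N), HasExp l π (fun τ => vec N 0 (evan N P) τ x) (ι x (evq N P))) :
    Nat.card (X0 N) ≤ Module.finrank Kb⟮jj N⟯ (FN N) :=
  card_le_finrank_of_injective ι hinj (emb_eq_on_adjoin hc h)

end

end Fermat.Agent.S24Lib
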