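import Fermat.Agent.S24.Kernel
import Fermat.Agent.S24.Theta
import Fermat.Agent.S24.Distinct

set_option autoImplicit false

/-!
# S24 [B3-emb] : the embeddings of the function field attached to a good chart
-/

open UpperHalfPlane hiding I
open Filter Topology ModularForm AlgebraicCurve IntermediateField CongruenceSubgroup
open scoped MatrixGroups Manifold

namespace Fermat.Agent.S24Lib

open Fermat.Agent.S20Lib

theorem exists_embeddings (N : ℕ) [NeZero N] {l : Filter ℍ} {π : ℍ → ℂ}
    (h : GoodChart N l π) :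
    ∃ ι : X0 N → FN N →+* LaurentSeries ℂ, Function.Injective ι ∧
      ∀ (x : X0 N) (P : AN N), HasExp l π (fun τ => vec N 0 (evan N P) τ x) (ι x (evq N P)) := by
  have hc := h.chart
  have hex : ∀ (x : X0 N) (P : AN N), ∃ ℓ, HasExp l π (fun τ => vec N 0 (evan N P) τ x) ℓ :=
    fun x P => h.exp _ (isWH_evan N P) x
  choose ψ hψ using hex
  have hone : ∀ x, ψ x 1 = 1 := by
    intro x
    refine (hψ x 1).unique hc ?_
    have := HasExp.const l π 1
    rw [map_one] at this
    refine this.congr (Eventually.of_forall fun τ => ?_)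
    show (1 : ℂ) = vec N 0 (evan N 1) τ x
    rw [vec_zero_apply, map_one]
    rfl
  have hmul : ∀ x P Q, ψ x (P * Q) = ψ x P * ψ x Q := by
    intro x P Q
    refine (hψ x (P * Q)).unique hc ?_
    refine ((hψ x P).mul (hψ x Q)).congr (Eventually.of_forall fun τ => ?_)
    show vec N 0 (evan N P) τ x * vec N 0 (evan N Q) τ x = vec N 0 (evan N (P * Q)) τ x
    rw [vec_zero_apply, vec_zero_apply, vec_zero_apply, map_mul]
    rfl
  have hadd : ∀ x P Q, ψ x (P + Q) = ψ x P + ψ x Q := by
    intro x P Q
    refine (hψ x (P + Q)).unique hc ?_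
    refine ((hψ x P).add (hψ x Q)).congr (Eventually.of_forall fun τ => ?_)
    show vec N 0 (evan N P) τ x + vec N 0 (evan N Q) τ x = vec N 0 (evan N (P + Q)) τ x
    rw [vec_zero_apply, vec_zero_apply, vec_zero_apply, map_add]
    rfl
  have hzero : ∀ x, ψ x 0 = 0 := by
    intro x
    have := hadd x 0 0
    rw [add_zero] at this
    exact left_eq_add.mp this
  let Ψ : X0 N → AN N →+* LaurentSeries ℂ := fun x =>
    { toFun := ψ x
      map_one' := hone x
      map_mul' := hmul x
      map_zero' := hzero x
      map_add' := hadd x }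
  have hker : ∀ x P, Ψ x P = 0 ↔ evq N P = 0 := by
    intro x P
    show ψ x P = 0 ↔ _
    rw [(hψ x P).eq_zero_iff hc, evq_eq_zero_iff]
    constructor
    · intro h0
      have h1 := h.ident _ ((isWH_evan N P).holo x) h0
      funext τ
      have h2 := congrFun h1 (x.out • τ)
      simp only [vec_zero_apply, inv_smul_smul] at h2
      exact h2
    · intro h0
      refine Eventually.of_forall fun τ => ?_
      show vec N 0 (evan N P) τ x = 0
      rw [vec_zero_apply, h0]
      rfl
  have hlift : ∀ x, ∃ ι : FN N →+* LaurentSeries ℂ, ∀ P, ι (evq N P) = Ψ x P :=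
    fun x => exists_lift N (Ψ x) (hker x)
  choose ι hι using hlift
  refine ⟨ι, ?_, ?_⟩
  · intro x y hxy
    have h1 := hψ x (MvPolynomial.X (dvTop N))
    have h2 := hψ y (MvPolynomial.X (dvTop N))
    have h3 : ψ x (MvPolynomial.X (dvTop N)) = ψ y (MvPolynomial.X (dvTop N)) := by
      have e1 := hι x (MvPolynomial.X (dvTop N))
      have e2 := hι y (MvPolynomial.X (dvTop N))
      rw [hxy] at e1
      exact e1.symm.trans e2
    rw [h3] at h1
    have h4 := (h1.sub h2)
    rw [sub_self] at h4
    have h5 := (h4.eq_zero_iff hc).mp rfl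
    have h6 := h.ident _ (((isWH_evan N _).holo x).sub ((isWH_evan N _).holo y)) h5
    have h7 : ∀ τ : ℍ, jD N ((x.out)⁻¹ • τ) = jD N ((y.out)⁻¹ • τ) := by
      intro τ
      have := congrFun h6 τ
      simp only [vec_zero_apply, evan_X, Pi.zero_apply] at this
      exact sub_eq_zero.mp this
    have h8 : (x.out)⁻¹ * y.out ∈ Gamma0 N := by
      apply mem_Gamma0_of_jD_eq
      intro τ
      rw [mul_smul, h7, inv_smul_smul]
    rw [← QuotientGroup.out_eq' x, ← QuotientGroup.out_eq' y]
    exact QuotientGroup.eq.mpr h8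
  · intro x P
    rw [hι]
    exact hψ x P

end Fermat.Agent.S24Lib
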