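import Fermat.Agent.S24.Degree
import Fermat.Agent.S24.DegreeLow
import Fermat.Agent.S24.Embed

set_option autoImplicit false

/-!
# S24 : `[F_N : ℚ̄(j)] = #X₀(N)`
-/

open UpperHalfPlane hiding I
open Filter Topology ModularForm AlgebraicCurve IntermediateField CongruenceSubgroup
open scoped MatrixGroups Manifold

namespace Fermat.Agent.S24Lib

open Fermat.Agent.S20Lib

theorem finrank_jj (N : ℕ) [NeZero N] :
    Module.finrank Kb⟮jj N⟯ (FN N) = Nat.card (X0 N) := by
  apply le_antisymm
  · rw [Nat.card_eq_fintype_card]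
    exact finrank_jj_le N
  · obtain ⟨ι, hinj, h⟩ := exists_embeddings N (goodChart_at N UpperHalfPlane.I)
    exact card_le_finrank_jj_of_emb (isChart_at UpperHalfPlane.I) hinj h

end Fermat.Agent.S24Lib
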