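import Fermat.Agent.S24.Count2
import Fermat.Agent.S24.Charts
import Fermat.Agent.S24.Degree2
import Fermat.Agent.S20.Local
import Fermat.Agent.S20.Infty
import Fermat.Agent.S20.JBasic

set_option autoImplicit false

/-!
# S24 [B3-count] : the number of places of `X₀(N)` above a point of the `j`-line
-/

open UpperHalfPlane hiding I
open Filter Topology ModularForm AlgebraicCurve IntermediateField CongruenceSubgroup
open scoped MatrixGroups Manifold

namespace Fermat.Agent.S24Lib

open Fermat.Agent.S20Lib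

/-! ### small algebraic facts -/

section Alg

variable {K F : Type} [Field K] [Field F] [Algebra K F]

theorem cn_adjoin_sub_const (j : F) (c : K) : K⟮j - algebraMap K F c⟯ = K⟮j⟯ := by
  apply le_antisymm
  · rw [adjoin_simple_le_iff]
    exact sub_mem (mem_adjoin_simple_self K j) (IntermediateField.algebraMap_mem _ c)
  · rw [adjoin_simple_le_iff]
    have h : (j - algebraMap K F c) + algebraMap K F c = j := by ring
    rw [← h]
    exact add_mem (by rw [h]; exact mem_adjoin_simple_self K _)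
      (IntermediateField.algebraMap_mem _ c)

theorem cn_transcendental_sub_const {j : F} (hj : Transcendental K j) (c : K) :
    Transcendental K (j - algebraMap K F c) := by
  intro h
  apply hj
  have h2 : IsAlgebraic K (algebraMap K F c) := isAlgebraic_algebraMap c
  have := h.add h2
  simpa using this

end Alg

/-! ### iteration of the transport of leading terms -/

theorem cn_lead_iter {l : Filter ℍ} {π : ℍ → ℂ} {σ : SL(2, ℤ)} {ε : ℂ}
    (hcomp : ∀ (g : ℍ → ℂ) (n : ℤ) (A : ℂ), Lead l π g n A →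
      Lead l π (fun τ => g (σ • τ)) n (ε ^ n • A))
    (g : ℍ → ℂ) (n : ℤ) (A : ℂ) (hg : Lead l π g n A) (h : ℕ) :
    Lead l π (fun τ => g (σ ^ h • τ)) n ((ε ^ n) ^ h • A) := by
  induction h with
  | zero => simpa using hg
  | succ h ih =>
    have h1 := hcomp _ _ _ ih
    have e1 : (fun τ : ℍ => g (σ ^ (h + 1) • τ)) = fun τ => g (σ ^ h • σ • τ) := by
      funext τ
      rw [pow_succ, mul_smul]
    have e2 : (ε ^ n) ^ (h + 1) • A = ε ^ n • (ε ^ n) ^ h • A := by
      rw [pow_succ, smul_smul, mul_comm]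
    rw [e1, e2]
    exact h1

theorem cn_jD_one : jD 1 = jF := by
  funext τ
  unfold jD
  congr 1
  ext1
  rw [coe_heckeDiagMatrix_smul one_ne_zero]
  simp

/-! ### the general statement -/

theorem cn_card_zeros (N : ℕ) [NeZero N] {l : Filter ℍ} {π : ℍ → ℂ} (hG : GoodChart N l π)
    (σ : SL(2, ℤ)) (e : ℕ) (ε : ℂ) (hε : IsPrimitiveRoot ε e) (he : 0 < e)
    (hcomp : ∀ (g : ℍ → ℂ) (n : ℤ) (A : ℂ), Lead l π g n A →
      Lead l π (fun τ => g (σ • τ)) n (ε ^ n • A))
    (s : FN N) (hs : Transcendental Kb s) (hadj : Kb⟮s⟯ = Kb⟮jj N⟯) (sf : ℍ → ℂ)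
    (hexp : ∀ ι : FN N →+* LaurentSeries ℂ,
      (∀ a, ι (algebraMap Kb (FN N) a) = HahnSeries.C (phiK a)) →
        HasExp l π jF (ι (jj N)) → HasExp l π sf (ι s))
    (hlead : ∃ c : ℂ, c ≠ 0 ∧ Lead l π sf e c) :
    Nat.card {v : Place Kb (FN N) // 0 < v.ord s} = orbCount N σ := by
  obtain ⟨ι, hinj, hι⟩ := exists_embeddings N hG
  have hc := hG.chart
  have : l.NeBot := hc.neBot
  have hε0 : ε ≠ 0 := hε.ne_zero he.ne'
  have hconst : ∀ x a, ι x (algebraMap Kb (FN N) a) = HahnSeries.C (phiK a) := by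
    intro x a
    have h1 := hι x (MvPolynomial.C a)
    have h2 : evq N (MvPolynomial.C a) = algebraMap Kb (FN N) a := by
      simp [evq]
    rw [h2] at h1
    refine HasExp.unique hc h1 ((HasExp.const l π (phiK a)).congr ?_)
    exact Eventually.of_forall fun τ => by
      show phiK a = vec N 0 (evan N (MvPolynomial.C a)) τ x
      rw [vec_zero_apply]; simp [evan]
  have hjj : ∀ x, HasExp l π jF (ι x (jj N)) := by
    intro x
    have h1 := hι x (MvPolynomial.X ⟨1, by simp [NeZero.ne N]⟩)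
    have h2 : evq N (MvPolynomial.X ⟨1, by simp [NeZero.ne N]⟩) = jj N := by
      simp [evq, gen, jj]
    rw [h2] at h1
    refine h1.congr (Eventually.of_forall fun τ => ?_)
    show vec N 0 (evan N (MvPolynomial.X ⟨1, by simp [NeZero.ne N]⟩)) τ x = jF τ
    rw [vec_zero_apply]
    have h3 : evan N (MvPolynomial.X ⟨1, by simp [NeZero.ne N]⟩) = jD 1 := by simp [evan]
    rw [h3, cn_jD_one, jF_inv]
  have hsx : ∀ x, HasExp l π sf (ι x s) := fun x => hexp _ (hconst x) (hjj x)
  obtain ⟨c, hc0, hlead⟩ := hlead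
  -- transport for polynomials
  have key : ∀ (x : X0 N) (P : AN N), evq N P ≠ 0 → ∀ h : ℕ,
      Lead l π (fun τ => vec N 0 (evan N P) τ (σ⁻¹ ^ h • x)) (ι x (evq N P)).order
        ((ε ^ (ι x (evq N P)).order) ^ h • (ι x (evq N P)).leadingCoeff) := by
    intro x P hP h
    have h0 : ι x (evq N P) ≠ 0 := (map_ne_zero (ι x)).mpr hP
    have h1 := (hι x P).lead hc h0
    have h2 := cn_lead_iter hcomp _ _ _ h1 h
    have h3 : (fun τ => vec N 0 (evan N P) (σ ^ h • τ) x) =
        fun τ => vec N 0 (evan N P) τ (σ⁻¹ ^ h • x) := by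
      funext τ
      rw [(isWH_evan N P).equiv, inv_pow]
    rwa [h3] at h2
  have hlc : ∀ (x : X0 N) (P : AN N), evq N P ≠ 0 → (ι x (evq N P)).leadingCoeff ≠ 0 := by
    intro x P hP
    exact HahnSeries.leadingCoeff_ne_zero.mpr ((map_ne_zero (ι x)).mpr hP)
  have heps0 : ∀ (x : X0 N) (P : AN N), evq N P ≠ 0 →
      (ι (σ⁻¹ • x) (evq N P)).order = (ι x (evq N P)).order := by
    intro x P hP
    have h1 := key x P hP 1
    rw [pow_one, pow_one] at h1
    exact ((hι (σ⁻¹ • x) P).order_eq_of_lead hc h1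
      (smul_ne_zero (zpow_ne_zero _ hε0) (hlc x P hP))).2
  have hfix0 : ∀ (x : X0 N) (h : ℕ), σ⁻¹ ^ h • x = x → ∀ P : AN N, evq N P ≠ 0 →
      (e : ℤ) ∣ h * (ι x (evq N P)).order := by
    intro x h hx P hP
    have h1 := key x P hP h
    rw [hx] at h1
    have h2 := (hι x P).lead hc ((map_ne_zero (ι x)).mpr hP)
    have h3 := h1.unique h2
    have h4 : (ε ^ (ι x (evq N P)).order) ^ h = 1 := by
      have h5 := hlc x P hP
      rw [smul_eq_mul] at h3
      exact mul_right_cancel₀ h5 (h3.trans (one_mul _).symm)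
    rw [← zpow_natCast, ← zpow_mul, hε.zpow_eq_one_iff_dvd] at h4
    rwa [mul_comm]
  have hdiv : ∀ (x : X0 N) (P Q : AN N), evq N P ≠ 0 → evq N Q ≠ 0 →
      (ι x (evq N P / evq N Q)).order = (ι x (evq N P)).order - (ι x (evq N Q)).order := by
    intro x P Q hP hQ
    have h1 : ι x (evq N P) = ι x (evq N P / evq N Q) * ι x (evq N Q) := by
      rw [← map_mul, div_mul_cancel₀ _ hQ]
    rw [h1, HahnSeries.order_mul ((map_ne_zero (ι x)).mpr (div_ne_zero hP hQ))
      ((map_ne_zero (ι x)).mpr hQ)]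
    ring
  unfold orbCount
  rw [← Subgroup.zpowers_inv]
  refine card_zeros_eq_card_orbits (isFF N) hs ?_ σ⁻¹ e he ι hinj ?_ ?_ ?_ ?_ ?_
  · rw [hadj, finrank_jj, Nat.card_eq_fintype_card]
  · intro x y a
    rw [hconst, hconst]
  · intro x y
    exact (hsx x).unique hc (hsx y)
  · intro x
    exact ((hsx x).order_eq_of_lead hc hlead hc0).2
  · intro x f
    obtain ⟨P, Q, hQ, rfl⟩ := exists_evq_div N f
    by_cases hP : evq N P = 0
    · simp [hP]
    · rw [hdiv _ P Q hP hQ, hdiv _ P Q hP hQ, heps0 x P hP, heps0 x Q hQ]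
  · intro x h hx f hf
    obtain ⟨P, Q, hQ, rfl⟩ := exists_evq_div N f
    have hP : evq N P ≠ 0 := by
      rintro hP
      apply hf
      rw [hP, zero_div]
    rw [hdiv _ P Q hP hQ, mul_sub]
    exact dvd_sub (hfix0 x h hx P hP) (hfix0 x h hx Q hQ)

/-! ### the two cases -/

theorem card_zeros_finite (N : ℕ) [NeZero N] {τ0 : ℍ} {σ : SL(2, ℤ)} {e : ℕ} {ε : ℂ}
    (hE : EllData τ0 σ e ε) (c : Kb) (hc : phiK c = jF τ0) :
    Nat.card {v : Place Kb (FN N) // 0 < v.ord (jj N - algebraMap Kb (FN N) c)} = orbCount N σ := by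
  have he : 0 < e := Nat.pos_of_dvd_of_pos hE.dvd (by norm_num)
  refine cn_card_zeros N (goodChart_at N τ0) σ e ε hE.prim he ?_ _
    (cn_transcendental_sub_const (transcendental_jj N) c) (cn_adjoin_sub_const _ _)
    (fun τ => jF τ - jF τ0) ?_ hE.jord
  · intro g n A hg
    have := lead_comp_smul hE.fix hg
    rwa [← hE.eps_eq] at this
  · intro ι hι hj
    rw [map_sub, hι, hc]
    exact hj.sub (HasExp.const _ _ _)

theorem card_zeros_infty (N : ℕ) [NeZero N] :
    Nat.card {v : Place Kb (FN N) // 0 < v.ord (jj N)⁻¹} = orbCount N ModularGroup.T := by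
  have hN : 0 < N := Nat.pos_of_ne_zero (NeZero.ne N)
  refine cn_card_zeros N (goodChart_infty N) ModularGroup.T N
    (Complex.exp (2 * Real.pi * Complex.I / N)) (Complex.isPrimitiveRoot_exp N (NeZero.ne N)) hN
    ?_ _ (transcendental_inv_aux (transcendental_jj N)) (adjoin_inv_eq_aux _)
    (fun τ => (jF τ)⁻¹) ?_ ⟨1⁻¹, by simp, ?_⟩
  · intro g n A hg
    exact lead_comp_T N hg
  · intro ι _ hj
    rw [map_inv₀]
    exact hj.inv (isChart_infty N)
  · have := (jF_lead_infty N).inv one_ne_zero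
    rwa [neg_neg] at this

end Fermat.Agent.S24Lib
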