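import Fermat.Agent.S20.DivLemma
import Fermat.Agent.S20.Ell
import Fermat.Agent.S20.ConstBdd

/-!
# [B5] of S24 : the `j`-function is surjective
-/

set_option autoImplicit false
open UpperHalfPlane hiding I
open ModularForm EisensteinSeries Complex Filter Topology CongruenceSubgroup
open scoped MatrixGroups Manifold

namespace Fermat.Agent.S24Lib

open Fermat.Agent.S20Lib

theorem jF_surjective : Function.Surjective jF := by
  intro c
  by_contra hc
  push Not at hc
  have hne : ∀ τ, jF τ - c ≠ 0 := fun τ => sub_ne_zero.2 (hc τ)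
  have hWH : IsWH 1 (fun τ _ => (jF τ - c)⁻¹) := by
    refine ⟨fun _ => ?_, fun γ τ _ => ?_, ⟨0, fun _ => ?_⟩⟩
    · have h1 : MDiff (fun τ => jF τ - c) := jF_holo.sub mdifferentiable_const
      rw [UpperHalfPlane.mdifferentiable_iff] at h1 ⊢
      have : ((fun τ => (jF τ - c)⁻¹) ∘ ofComplex) = fun z => (((fun τ => jF τ - c) ∘ ofComplex) z)⁻¹ := rfl
      rw [this]
      exact h1.inv (fun z _ => hne _)
    · simp only [jF_inv]
    · simp only [pow_zero, one_mul]
      rw [UpperHalfPlane.IsBoundedAtImInfty, Filter.BoundedAtFilter, Asymptotics.isBigO_iff]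
      refine ⟨1, ?_⟩
      filter_upwards [jF_sub_norm_ge c] with τ hτ
      simp only [norm_inv, Pi.one_apply, norm_one, mul_one]
      exact inv_le_one_of_one_le₀ hτ
  obtain ⟨a, ha⟩ := const_of_bdd 1 hWH (fun _ => by
    rw [UpperHalfPlane.IsBoundedAtImInfty, Filter.BoundedAtFilter, Asymptotics.isBigO_iff]
    refine ⟨1, ?_⟩
    filter_upwards [jF_sub_norm_ge c] with τ hτ
    simp only [norm_inv, Pi.one_apply, norm_one, mul_one]
    exact inv_le_one_of_one_le₀ hτ)
  have h1 := ha UpperHalfPlane.I ((1 : SL(2, ℤ)) : X0 1)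
  have h2 := ha ellRho ((1 : SL(2, ℤ)) : X0 1)
  rw [← h2] at h1
  simp only [jF_I, jF_rho] at h1
  have := inv_injective h1
  norm_num at this

end Fermat.Agent.S24Lib
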