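import Fermat.Agent.S24.RH
import Fermat.Agent.S24.CountN
import Fermat.Agent.S24.JSurj
import Fermat.Agent.S20.Dual2

/-!
# S24, PART C : the degree of the canonical divisor of `X₀(N)`
-/

set_option autoImplicit false

open UpperHalfPlane hiding I
open ModularForm EisensteinSeries AlgebraicCurve IntermediateField KaehlerDifferential
  CongruenceSubgroup
open scoped MatrixGroups Manifold

namespace Fermat.Agent.S24Lib

open Fermat.Agent.S20Lib

theorem orbCount_one (N : ℕ) : orbCount N 1 = Nat.card (X0 N) := by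
  unfold orbCount
  refine Nat.card_congr (Equiv.ofBijective (fun x : X0 N => (Quotient.mk'' x :
    MulAction.orbitRel.Quotient (Subgroup.zpowers (1 : SL(2, ℤ))) (X0 N))) ⟨?_, ?_⟩).symm
  · intro x y hxy
    have h := Quotient.exact' hxy
    change MulAction.orbitRel _ _ x y at h
    rw [MulAction.orbitRel_apply] at h
    obtain ⟨⟨g, hg⟩, hgy⟩ := h
    rw [Subgroup.zpowers_one_eq_bot, Subgroup.mem_bot] at hg
    subst hg
    have h2 : ((⟨1, hg⟩ : Subgroup.zpowers (1 : SL(2, ℤ))) • y) = y := one_smul _ y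
    exact (hgy.symm.trans h2)
  · intro q
    induction q using Quotient.inductionOn' with
    | h x => exact ⟨x, rfl⟩

theorem card_zeros_generic (N : ℕ) [NeZero N] (c : Kb) (h0 : c ≠ 0) (h1 : c ≠ 1728) :
    Nat.card {v : Place Kb (FN N) // 0 < v.ord (jj N - algebraMap Kb (FN N) c)}
      = Module.finrank Kb⟮jj N⟯ (FN N) := by
  obtain ⟨τ0, hτ0⟩ := jF_surjective (phiK c)
  have h4 : E₄ τ0 ≠ 0 := by
    intro h
    apply h0
    have : phiK c = 0 := by
      rw [← hτ0, jF, h]
      simp
    exact (map_eq_zero phiK).mp this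
  have h6 : E₆ τ0 ≠ 0 := by
    intro h
    apply h1
    have h2 := jF_sub_eq τ0
    rw [h, hτ0] at h2
    have h3 : phiK c = phiK 1728 := by
      have : phiK c - 1728 = 0 := by rw [h2]; simp
      rw [map_ofNat]
      exact sub_eq_zero.mp this
    exact phiK.injective h3
  rw [card_zeros_finite N (ellData_generic τ0 h4 h6) c hτ0.symm, orbCount_one, finrank_jj]

/-- the degree of every canonical divisor -/
theorem degree_canonical (N : ℕ) [NeZero N] {ω : Ω[FN N⁄Kb]} (hω : ω ≠ 0)
    (D₀ : Divisor Kb (FN N)) (hD : ∀ v, D₀ v = v.ordDifferential ω) :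
    Divisor.degree D₀ + 2 = 2 * (Module.finrank ℂ (CuspForm (Gamma0 N) 2) : ℤ) := by
  obtain ⟨ε, hε⟩ := ellData_rho
  have h := degree_of_counts (isFF N) (transcendental_jj N) (0 : Kb) (1728 : Kb) (by norm_num)
    (orbCount N (ModularGroup.S * ModularGroup.T)) (orbCount N ModularGroup.S)
    (orbCount N ModularGroup.T)
    (card_zeros_finite N hε 0 (by rw [map_zero, jF_rho]))
    (card_zeros_finite N ellData_I 1728 (by rw [map_ofNat, jF_I]))
    (card_zeros_infty N) (fun c h0 h1 => card_zeros_generic N c h0 h1) hω D₀ hD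
  have hm := main_formula N
  rw [h, finrank_jj]
  linarith

end Fermat.Agent.S24Lib
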