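import Fermat.Agent.S24.Principal

set_option autoImplicit false

namespace Fermat.Agent.S24Lib

open AlgebraicCurve IntermediateField IsDedekindDomain

section Approx

variable {K F : Type*} [Field K] [Field F] [Algebra K F]

/-- the centre of a zero of `s` -/
theorem exists_center_aux
    (R B : Type*) [CommRing R] [Algebra R F]
    [CommRing B] [IsDedekindDomain B] [Algebra R B] [Algebra B F] [IsScalarTower R B F]
    [IsFractionRing B F] [Algebra K B] [IsScalarTower K B F]
    (sR : R) (hmax : (Ideal.span {sR}).IsMaximal) (hsB0 : algebraMap R B sR ≠ 0)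
    (hint : ∀ v : Place K F, 0 ≤ v.ord (algebraMap R F sR) →
      ∀ b : B, algebraMap B F b ∈ v.toValuationSubring)
    (v : Place K F) (hv : 0 < v.ord (algebraMap R F sR)) :
    ∃ P : HeightOneSpectrum B, Place.ofHeightOneSpectrum P = v ∧
      P.asIdeal.comap (algebraMap R B) = Ideal.span {sR} := by
  have hsF : algebraMap R F sR = algebraMap B F (algebraMap R B sR) :=
    IsScalarTower.algebraMap_apply R B F sR
  obtain ⟨P, rfl⟩ := exists_eq_ofHeightOneSpectrum (B := B) v (hint v hv.le)
  rw [hsF, ord_ofHeightOneSpectrum_pos_iff _ hsB0] at hv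
  have hle : Ideal.span {sR} ≤ P.asIdeal.comap (algebraMap R B) := by
    rw [Ideal.span_singleton_le_iff_mem]
    exact hv
  exact ⟨P, rfl, (hmax.eq_of_le (Ideal.comap_ne_top _ P.isPrime.ne_top) hle).symm⟩

theorem approx_aux
    (B : Type*) [CommRing B] [IsDedekindDomain B] [Algebra B F]
    [IsFractionRing B F] [Algebra K B] [IsScalarTower K B F]
    (T : Finset (Place K F))
    (hT : ∀ v ∈ T, ∃ P : HeightOneSpectrum B, Place.ofHeightOneSpectrum P = v)
    (v₀ : Place K F) (hv₀ : v₀ ∈ T) :
    ∃ g : B, g ≠ 0 ∧ 0 < v₀.ord (algebraMap B F g) ∧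
      ∀ v ∈ T, v ≠ v₀ → v.ord (algebraMap B F g) = 0 := by
  classical
  obtain ⟨P₀, hP₀⟩ := hT v₀ hv₀
  let c : Place K F → Ideal B := fun v =>
    if h : ∃ P : HeightOneSpectrum B, Place.ofHeightOneSpectrum P = v then h.choose.asIdeal else ⊥
  have hc : ∀ v ∈ T, ∃ P : HeightOneSpectrum B, Place.ofHeightOneSpectrum P = v ∧
      c v = P.asIdeal := by
    intro v hv
    have h := hT v hv
    exact ⟨h.choose, h.choose_spec, by simp only [c, dif_pos h]⟩
  have hcprime : ∀ v, (c v).IsPrime := by
    intro v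
    by_cases h : ∃ P : HeightOneSpectrum B, Place.ofHeightOneSpectrum P = v
    · simp only [c, dif_pos h]
      exact h.choose.isPrime
    · simp only [c, dif_neg h]
      exact Ideal.isPrime_bot
  have hnot : ¬ ((P₀.asIdeal : Set B) ⊆ ⋃ i ∈ ((insert ⊥ ((T.erase v₀).image c) : Finset (Ideal B)) :
      Set (Ideal B)), (i : Set B)) := by
    intro hsub
    obtain ⟨i, hi, hle⟩ := (Ideal.subset_union_prime (f := fun i : Ideal B => i) ⊥ ⊥ (by
      intro i hi _ _
      rw [Finset.mem_insert, Finset.mem_image] at hi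
      rcases hi with rfl | ⟨v, _, rfl⟩
      · exact Ideal.isPrime_bot
      · exact hcprime v)).1 hsub
    rw [Finset.mem_insert, Finset.mem_image] at hi
    rcases hi with rfl | ⟨v, hv, rfl⟩
    · exact P₀.ne_bot (le_bot_iff.1 hle)
    · rw [Finset.mem_erase] at hv
      obtain ⟨P, hP, hcP⟩ := hc v hv.2
      rw [hcP] at hle
      have : P₀.asIdeal = P.asIdeal := P₀.isMaximal.eq_of_le P.isPrime.ne_top hle
      have hPP : P₀ = P := HeightOneSpectrum.ext this
      apply hv.1
      rw [← hP, ← hP₀, hPP]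
  rw [Set.not_subset] at hnot
  obtain ⟨g, hgP, hg⟩ := hnot
  simp only [Finset.coe_insert, Finset.coe_image, Set.mem_insert_iff, Set.mem_image,
    Set.iUnion_iUnion_eq_or_left, Set.mem_union, Set.mem_iUnion, not_or, not_exists] at hg
  have hg0 : g ≠ 0 := by
    intro h
    apply hg.1
    rw [h]
    exact zero_mem _
  refine ⟨g, hg0, ?_, ?_⟩
  · rw [← hP₀, ord_ofHeightOneSpectrum_pos_iff _ hg0]
    exact hgP
  · intro v hv hne
    obtain ⟨P, hP, hcP⟩ := hc v hv
    have h1 : g ∉ P.asIdeal := by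
      rw [← hcP]
      exact hg.2 (c v) ⟨v, by simp [hv, hne], rfl⟩
    have h2 := ord_ofHeightOneSpectrum_nonneg (K := K) (F := F) P g
    have h3 := (ord_ofHeightOneSpectrum_pos_iff (K := K) (F := F) P hg0).not.2 h1
    rw [← hP]
    omega

theorem norm_aux
    (R L B : Type*) [CommRing R] [IsDedekindDomain R] [Field L] [Algebra R L] [IsFractionRing R L]
    [Algebra L F] [Algebra R F] [IsScalarTower R L F] [FiniteDimensional L F]
    [CommRing B] [IsDedekindDomain B] [Algebra R B] [Algebra B F] [IsScalarTower R B F]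
    [IsIntegralClosure B R F] [Module.Finite R B] [Module.IsTorsionFree R B]
    (P : Ideal B) (g : B) (hg : g ∈ P) :
    ∃ r : R, r ∈ P.comap (algebraMap R B) ∧
      algebraMap R L r = Algebra.norm L (algebraMap B F g) := by
  refine ⟨Algebra.intNorm R B g, ?_, Algebra.algebraMap_intNorm (K := L) (L := F) g⟩
  obtain ⟨h, hh⟩ := Algebra.dvd_algebraMap_intNorm_self R B g
  rw [Ideal.mem_comap, hh]
  exact Ideal.mul_mem_right _ _ hg

end Approx

section Inst2

variable {K F : Type*} [Field K] [IsAlgClosed K] [CharZero K] [Field F] [Algebra K F]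

open scoped IntermediateField.algebraAdjoinAdjoin

/-- API-1 : approximation -/
theorem exists_isIntegral_ord (hFF : IsFF K F) {s : F} (hs : Transcendental K s)
    (v₀ : Place K F) (hv₀ : 0 < v₀.ord s) :
    ∃ g : F, g ≠ 0 ∧ IsIntegral (Algebra.adjoin K {s}) g ∧ 0 < v₀.ord g ∧
      ∀ v : Place K F, 0 < v.ord s → v ≠ v₀ → v.ord g = 0 := by
  have hfin := finiteDimensional_adjoin hFF hs
  have hPID := isPrincipalIdealRing_adjoin hs
  have hchar : CharZero K⟮s⟯ := charZero_of_injective_algebraMap (algebraMap K K⟮s⟯).injective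
  have hD : IsDedekindDomain (integralClosure (Algebra.adjoin K {s}) F) :=
    integralClosure.isDedekindDomain (Algebra.adjoin K {s}) K⟮s⟯ F
  have hFr : IsFractionRing (integralClosure (Algebra.adjoin K {s}) F) F :=
    integralClosure.isFractionRing_of_finite_extension K⟮s⟯ F
  obtain ⟨T, hT, -⟩ := exists_zeros_finset hFF hs
  obtain ⟨g, hg0, hg1, hg2⟩ := approx_aux (K := K) (F := F)
    (integralClosure (Algebra.adjoin K {s}) F) T (by
      intro v hv
      exact exists_eq_ofHeightOneSpectrum v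
        (fun b => mem_of_isIntegral v (adjoin_le_of_ord_nonneg v ((hT v).1 hv).le) b.2))
    v₀ ((hT v₀).2 hv₀)
  refine ⟨g, ?_, g.2, hg1, fun v hv hne => hg2 v ((hT v).2 hv) hne⟩
  simpa using hg0

/-- API-4 : the norm of an integral element vanishing at a zero of `s` is divisible by `s` -/
theorem norm_eq_aeval_of_isIntegral (hFF : IsFF K F) {s : F} (hs : Transcendental K s) {g : F}
    (hg : IsIntegral (Algebra.adjoin K {s}) g) (v₀ : Place K F) (hv₀ : 0 < v₀.ord s)
    (hgv : 0 < v₀.ord g) :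
    ∃ P : Polynomial K, ((Algebra.norm K⟮s⟯ g : K⟮s⟯) : F) = s * Polynomial.aeval s P := by
  have hfin := finiteDimensional_adjoin hFF hs
  have hPID := isPrincipalIdealRing_adjoin hs
  have hchar : CharZero K⟮s⟯ := charZero_of_injective_algebraMap (algebraMap K K⟮s⟯).injective
  have hD : IsDedekindDomain (integralClosure (Algebra.adjoin K {s}) F) :=
    integralClosure.isDedekindDomain (Algebra.adjoin K {s}) K⟮s⟯ F
  have hFr : IsFractionRing (integralClosure (Algebra.adjoin K {s}) F) F :=
    integralClosure.isFractionRing_of_finite_extension K⟮s⟯ F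
  have hMF : Module.Finite (Algebra.adjoin K {s}) (integralClosure (Algebra.adjoin K {s}) F) :=
    IsIntegralClosure.finite (Algebra.adjoin K {s}) K⟮s⟯ F _
  have hs0 : s ≠ 0 := by
    rintro rfl
    exact hs isAlgebraic_zero
  obtain ⟨P, hP, hcomap⟩ := exists_center_aux (K := K) (F := F) (Algebra.adjoin K {s})
    (integralClosure (Algebra.adjoin K {s}) F)
    ⟨s, Algebra.self_mem_adjoin_singleton K s⟩ (isMaximal_span_gen hs)
    (by
      intro h
      exact hs0 (congrArg (fun x : integralClosure (Algebra.adjoin K {s}) F => (x : F)) h))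
    (fun v hv b => mem_of_isIntegral v (adjoin_le_of_ord_nonneg (s := s) v hv)
      (show IsIntegral (Algebra.adjoin K {s}) (b : F) from b.2)) v₀ hv₀
  have hg0 : g ≠ 0 := by
    rintro rfl
    simp at hgv
  have hgP : (⟨g, hg⟩ : integralClosure (Algebra.adjoin K {s}) F) ∈ P.asIdeal := by
    refine (ord_ofHeightOneSpectrum_pos_iff (K := K) (F := F) P ?_).1 ?_
    · intro h
      exact hg0 (congrArg (fun x : integralClosure (Algebra.adjoin K {s}) F => (x : F)) h)
    · rw [hP]
      exact hgv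
  obtain ⟨r, hr, hrN⟩ := norm_aux (F := F) (Algebra.adjoin K {s}) K⟮s⟯
    (integralClosure (Algebra.adjoin K {s}) F) P.asIdeal ⟨g, hg⟩ hgP
  rw [hcomap, Ideal.mem_span_singleton] at hr
  obtain ⟨t, rfl⟩ := hr
  obtain ⟨Q, hQ⟩ := Algebra.adjoin_mem_exists_aeval _ _ t.2
  refine ⟨Q, ?_⟩
  have : (Algebra.norm K⟮s⟯ g : K⟮s⟯) = algebraMap (Algebra.adjoin K {s}) K⟮s⟯
      (⟨s, Algebra.self_mem_adjoin_singleton K s⟩ * t) := hrN.symm
  rw [this, hQ]
  rfl

end Inst2

end Fermat.Agent.S24Lib
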