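import Fermat.Agent.S24.Emb

set_option autoImplicit false
set_option linter.unusedSectionVars false

/-!
# S24 [A-ACL] : the abstract counting lemma
-/

namespace Fermat.Agent.S24Lib

open AlgebraicCurve IntermediateField

/-! ### combinatorics -/

theorem card_eq_of_surj {Ω Z : Type*} [Fintype Ω] [Fintype Z] (size : Ω → ℕ) (e : Z → ℕ)
    (Φ : Ω → Z) (hΦ : Function.Surjective Φ) (hpos : ∀ ω, 0 < size ω)
    (hle : ∀ ω, e (Φ ω) ≤ size ω) (hsum : ∑ z, e z = ∑ ω, size ω) :
    Fintype.card Z = Fintype.card Ω := by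
  classical
  have hg : Function.Injective (Function.surjInv hΦ) := Function.injective_surjInv hΦ
  have hs : Function.Surjective (Function.surjInv hΦ) := by
    by_contra hcon
    rw [Function.Surjective] at hcon
    push Not at hcon
    obtain ⟨ω₀, hω₀⟩ := hcon
    have h1 : ∑ z, e z ≤ ∑ z, size (Function.surjInv hΦ z) := by
      refine Finset.sum_le_sum fun z _ => ?_
      have := hle (Function.surjInv hΦ z)
      rwa [Function.surjInv_eq hΦ] at this
    have h2 : ∑ z, size (Function.surjInv hΦ z) =
        ∑ ω ∈ Finset.univ.image (Function.surjInv hΦ), size ω :=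
      (Finset.sum_image fun a _ b _ h => hg h).symm
    have h3 : ∑ ω ∈ Finset.univ.image (Function.surjInv hΦ), size ω < ∑ ω, size ω := by
      refine Finset.sum_lt_sum_of_subset (Finset.subset_univ _) (Finset.mem_univ ω₀) ?_ (hpos ω₀)
        fun _ _ _ => Nat.zero_le _
      simp only [Finset.mem_image, Finset.mem_univ, true_and, not_exists]
      exact hω₀
    omega
  exact Fintype.card_of_bijective ⟨hg, hs⟩

/-! ### the norm as a product over the embeddings -/

theorem map_norm_eq_prod {K F : Type} [Field K] [CharZero K] [Field F] [Algebra K F] {s : F}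
    [FiniteDimensional K⟮s⟯ F] {L : Type} [Field L] {X : Type} [Fintype X]
    (hX : Fintype.card X = Module.finrank K⟮s⟯ F) (ι : X → F →+* L)
    (hinj : Function.Injective ι)
    (hbase : ∀ (x y : X) (a : K), ι x (algebraMap K F a) = ι y (algebraMap K F a))
    (hbase' : ∀ x y : X, ι x s = ι y s) (x₀ : X) (g : F) :
    ι x₀ ((Algebra.norm K⟮s⟯ g : K⟮s⟯) : F) = ∏ x, ι x g := by
  classical
  have hagree : ∀ (x : X) (z : K⟮s⟯), ι x (z : F) = ι x₀ (z : F) := by
    intro x z
    have hle : K⟮s⟯ ≤ (RingHom.eqLocusField (ι x) (ι x₀)).toIntermediateField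
        (fun a => hbase x x₀ a) := by
      rw [IntermediateField.adjoin_simple_le_iff]
      exact hbase' x x₀
    exact hle z.2
  have : CharZero F := charZero_of_injective_algebraMap (algebraMap K F).injective
  have : CharZero K⟮s⟯ := charZero_of_injective_algebraMap (algebraMap K K⟮s⟯).injective
  let E := AlgebraicClosure L
  let _ : Algebra K⟮s⟯ E :=
    ((algebraMap L E).comp ((ι x₀).comp (algebraMap K⟮s⟯ F))).toAlgebra
  let τ : X → (F →ₐ[K⟮s⟯] E) := fun x =>
    { toRingHom := (algebraMap L E).comp (ι x)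
      commutes' := fun z => by
        change algebraMap L E (ι x (z : F)) = algebraMap L E (ι x₀ (z : F))
        rw [hagree] }
  have hτ : Function.Injective τ := by
    intro x y hxy
    apply hinj
    ext f
    have := DFunLike.congr_fun hxy f
    exact (algebraMap L E).injective this
  have hbij : Function.Bijective τ := by
    rw [Fintype.bijective_iff_injective_and_card]
    exact ⟨hτ, by rw [hX, AlgHom.card]⟩
  have h1 := Algebra.norm_eq_prod_embeddings K⟮s⟯ E g
  rw [← Fintype.prod_bijective τ hbij (fun x => algebraMap L E (ι x g)) _ (fun x => rfl),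
    ← map_prod] at h1
  exact (algebraMap L E).injective h1

theorem order_prod {X : Type*} (S : Finset X) (a : X → LaurentSeries ℂ) (ha : ∀ x ∈ S, a x ≠ 0) :
    (∏ x ∈ S, a x).order = ∑ x ∈ S, (a x).order := by
  classical
  induction S using Finset.induction_on with
  | empty => simp
  | insert x S hx ih =>
    rw [Finset.prod_insert hx, Finset.sum_insert hx,
      HahnSeries.order_mul (ha x (Finset.mem_insert_self x S))
        (Finset.prod_ne_zero_iff.mpr fun y hy => ha y (Finset.mem_insert_of_mem hy)),
      ih fun y hy => ha y (Finset.mem_insert_of_mem hy)]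

/-! ### the counting lemma -/

section Main

variable {K F : Type} [Field K] [IsAlgClosed K] [CharZero K] [Field F] [Algebra K F]

theorem aeval_ord_nonneg (v : Place K F) {s : F} (hs : 0 ≤ v.ord s) (P : Polynomial K) :
    0 ≤ v.ord (Polynomial.aeval s P) := by
  apply ord_nonneg_of_mem
  have hs' : s ∈ v.toValuationSubring := mem_toValuationSubring_of_ord_nonneg v hs
  rw [Polynomial.aeval_eq_sum_range]
  refine Subring.sum_mem v.toValuationSubring.toSubring fun i _ => ?_
  rw [Algebra.smul_def]
  exact v.toValuationSubring.mul_mem _ _ (v.algebraMap_mem' _)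
    (pow_mem hs' i)

theorem card_zeros_eq_card_orbits_aux {s : F} [FiniteDimensional K⟮s⟯ F]
    (hfin : {v : Place K F | 0 < v.ord s}.Finite)
    (hsum : ∑ v ∈ hfin.toFinset, v.ord s = (Module.finrank K⟮s⟯ F : ℤ))
    (hapi : ∀ v₀ : Place K F, 0 < v₀.ord s → ∃ g : F, g ≠ 0 ∧
      (∀ v : Place K F, 0 < v.ord s → v ≠ v₀ → v.ord g = 0) ∧
        ∃ P : Polynomial K, ((Algebra.norm K⟮s⟯ g : K⟮s⟯) : F) = s * Polynomial.aeval s P)
    {G X : Type} [Group G] [MulAction G X] [Fintype X]
    (hX : Fintype.card X = Module.finrank K⟮s⟯ F) (σ : G) (e₀ : ℕ) (he₀ : 0 < e₀)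
    (ι : X → F →+* LaurentSeries ℂ) (hinj : Function.Injective ι)
    (hbase : ∀ (x y : X) (a : K), ι x (algebraMap K F a) = ι y (algebraMap K F a))
    (hbase' : ∀ x y : X, ι x s = ι y s)
    (hord : ∀ x, (ι x s).order = e₀)
    (heps : ∀ (x : X) (f : F), (ι (σ • x) f).order = (ι x f).order)
    (hfix : ∀ (x : X) (h : ℕ), σ ^ h • x = x → ∀ f : F, f ≠ 0 → (e₀ : ℤ) ∣ h * (ι x f).order) :
    Nat.card {v : Place K F // 0 < v.ord s} =
      Nat.card (MulAction.orbitRel.Quotient (Subgroup.zpowers σ) X) := by
  classical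
  have hXpos : 0 < Fintype.card X := by rw [hX]; exact Module.finrank_pos
  obtain ⟨x₀⟩ : Nonempty X := Fintype.card_pos_iff.mp hXpos
  have he₀' : (0 : ℤ) < e₀ := by exact_mod_cast he₀
  have hs0 : s ≠ 0 := by
    rintro rfl
    have := hord x₀
    rw [map_zero, HahnSeries.order_zero] at this
    omega
  have hpl : ∀ x, ∃ (v : Place K F) (m : ℕ), 0 < m ∧
      ∀ f : F, f ≠ 0 → (ι x f).order = m * v.ord f :=
    fun x => exists_place_of_ringHom' (ι x) (s := s) (by rw [hord]; exact he₀')
  choose V m hm hV using hpl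
  have hm' : ∀ x, (0 : ℤ) < m x := fun x => by exact_mod_cast hm x
  have hes : ∀ x, (e₀ : ℤ) = m x * (V x).ord s := fun x => by rw [← hV x s hs0, hord]
  have hVpos : ∀ x, 0 < (V x).ord s := by
    intro x
    have h1 := hes x
    rw [h1] at he₀'
    exact (pos_iff_pos_of_mul_pos he₀').mp (hm' x)
  have hVσ : ∀ x, V (σ • x) = V x := by
    intro x
    apply place_ext_of_ord
    intro f hf
    rcases eq_or_ne f 0 with rfl | hf0
    · simp
    have h1 := hV (σ • x) f hf0
    have h2 := hV x f hf0
    rw [heps] at h1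
    have h3 : 0 ≤ (m x : ℤ) * (V x).ord f := by
      rw [← h2, h1]
      exact mul_nonneg (hm' _).le hf
    exact nonneg_of_mul_nonneg_right h3 (hm' x)
  let H : Subgroup G :=
    { carrier := {g | ∀ x, V (g • x) = V x}
      one_mem' := fun x => by rw [one_smul]
      mul_mem' := fun {a b} ha hb x => by rw [mul_smul, ha, hb]
      inv_mem' := fun {a} ha x => by
        have := ha (a⁻¹ • x)
        rw [smul_inv_smul] at this
        exact this.symm }
  have hH : Subgroup.zpowers σ ≤ H := (Subgroup.zpowers_le).mpr hVσ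
  have instZ : Fintype {v : Place K F // 0 < v.ord s} := hfin.fintype
  have instΩ : Fintype (MulAction.orbitRel.Quotient (Subgroup.zpowers σ) X) := Fintype.ofFinite _
  let Φ : MulAction.orbitRel.Quotient (Subgroup.zpowers σ) X → {v : Place K F // 0 < v.ord s} :=
    Quotient.lift (fun x => (⟨V x, hVpos x⟩ : {v : Place K F // 0 < v.ord s})) (by
      intro a b hab
      obtain ⟨⟨g, hg⟩, rfl⟩ := hab
      exact Subtype.ext (hH hg b))
  have hΦmk : ∀ x, Φ (Quotient.mk'' x) = ⟨V x, hVpos x⟩ := fun x => rfl
  -- surjectivity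
  have hΦ : Function.Surjective Φ := by
    rintro ⟨v₀, hv₀⟩
    by_contra hcon
    have hne : ∀ x, V x ≠ v₀ := by
      intro x hx
      exact hcon ⟨Quotient.mk'' x, by rw [hΦmk]; exact Subtype.ext hx⟩
    obtain ⟨g, hg0, hg, P, hP⟩ := hapi v₀ hv₀
    have h1 := map_norm_eq_prod hX ι hinj hbase hbase' x₀ g
    have hN0 : ((Algebra.norm K⟮s⟯ g : K⟮s⟯) : F) ≠ 0 := by
      intro h
      have h' : (Algebra.norm K⟮s⟯ g : K⟮s⟯) = 0 := by exact_mod_cast h
      exact hg0 (Algebra.norm_eq_zero_iff.mp h')
    have hP0 : Polynomial.aeval s P ≠ 0 := by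
      intro h
      rw [hP, h, mul_zero] at hN0
      exact hN0 rfl
    have h2 : (∏ x, ι x g).order = 0 := by
      rw [order_prod _ _ fun x _ => (map_ne_zero (ι x)).mpr hg0]
      refine Finset.sum_eq_zero fun x _ => ?_
      rw [hV x g hg0, hg (V x) (hVpos x) (hne x), mul_zero]
    rw [← h1, hP, map_mul, HahnSeries.order_mul ((map_ne_zero _).mpr hs0)
      ((map_ne_zero _).mpr hP0), hord, hV x₀ _ hP0] at h2
    have h3 : 0 ≤ (m x₀ : ℤ) * (V x₀).ord (Polynomial.aeval s P) :=
      mul_nonneg (hm' _).le (aeval_ord_nonneg _ (hVpos x₀).le P)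
    omega
  have hcard : ∀ x : X, Fintype.card (MulAction.orbitRel.Quotient.orbit
      (Quotient.mk'' x : MulAction.orbitRel.Quotient (Subgroup.zpowers σ) X)) =
      Function.minimalPeriod (σ • ·) x := by
    intro x
    rw [MulAction.minimalPeriod_eq_card]
    exact Fintype.card_congr (Equiv.setCongr (MulAction.orbitRel.Quotient.orbit_mk x))
  have hres := card_eq_of_surj
    (fun ω : MulAction.orbitRel.Quotient (Subgroup.zpowers σ) X => Fintype.card ω.orbit)
    (fun z : {v : Place K F // 0 < v.ord s} => (z.1.ord s).toNat) Φ hΦ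
    (by
      intro ω
      induction ω using Quotient.inductionOn' with
      | h x =>
        rw [hcard]
        exact Nat.pos_of_ne_zero (NeZero.ne _))
    (by
      intro ω
      induction ω using Quotient.inductionOn' with
      | h x =>
        rw [hcard, hΦmk]
        simp only
        have hper : σ ^ (Function.minimalPeriod (σ • ·) x) • x = x := by
          rw [← MulAction.period_eq_minimalPeriod]
          exact MulAction.pow_period_smul σ x
        have hpos : 0 < Function.minimalPeriod (σ • ·) x := Nat.pos_of_ne_zero (NeZero.ne _)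
        obtain ⟨π, hπ⟩ := IsDiscreteValuationRing.exists_irreducible (V x).toValuationSubring
        have hπ0 : (π : F) ≠ 0 := by
          simpa [ne_eq, ZeroMemClass.coe_eq_zero] using hπ.ne_zero
        have h1 := hfix x _ hper (π : F) hπ0
        rw [hV x _ hπ0, (V x).ord_coe_irreducible hπ, mul_one, hes x, mul_comm] at h1
        have h2 : (V x).ord s ∣ (Function.minimalPeriod (σ • ·) x : ℤ) :=
          (mul_dvd_mul_iff_right (hm' x).ne').mp h1
        have h3 := Int.le_of_dvd (by exact_mod_cast hpos) h2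
        omega)
    (by
      have h1 : ∑ ω : MulAction.orbitRel.Quotient (Subgroup.zpowers σ) X, Fintype.card ω.orbit =
          Fintype.card X := by
        rw [← Fintype.card_sigma]
        exact (Fintype.card_congr (MulAction.selfEquivSigmaOrbits' (Subgroup.zpowers σ) X)).symm
      rw [h1, hX]
      have h2 : ((∑ z : {v : Place K F // 0 < v.ord s}, (z.1.ord s).toNat : ℕ) : ℤ) =
          ∑ v ∈ hfin.toFinset, v.ord s := by
        rw [Finset.sum_subtype hfin.toFinset (p := fun v => 0 < v.ord s)
          (fun v => by simp) (fun v => v.ord s)]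
        push_cast
        refine Finset.sum_congr rfl fun z _ => ?_
        exact Int.toNat_of_nonneg z.2.le
      rw [hsum] at h2
      exact_mod_cast h2)
  rw [Nat.card_eq_fintype_card, Nat.card_eq_fintype_card]
  exact hres

end Main

end Fermat.Agent.S24Lib
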