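import Fermat.Agent.S24.Count
import Fermat.Agent.S24.Approx

set_option autoImplicit false

/-!
# S24 [A-ACL] : the abstract counting lemma (final form)
-/

namespace Fermat.Agent.S24Lib

open AlgebraicCurve IntermediateField

variable {K F : Type} [Field K] [IsAlgClosed K] [CharZero K] [Field F] [Algebra K F]

/-- A6 -/
theorem card_zeros_eq_card_orbits (hFF : IsFF K F) {s : F} (hs : Transcendental K s)
    {G X : Type} [Group G] [MulAction G X] [Fintype X]
    (hX : Fintype.card X = Module.finrank K⟮s⟯ F) (σ : G) (e₀ : ℕ) (he₀ : 0 < e₀)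
    (ι : X → F →+* LaurentSeries ℂ) (hinj : Function.Injective ι)
    (hbase : ∀ (x y : X) (a : K), ι x (algebraMap K F a) = ι y (algebraMap K F a))
    (hbase' : ∀ x y : X, ι x s = ι y s)
    (hord : ∀ x, (ι x s).order = e₀)
    (heps : ∀ (x : X) (f : F), (ι (σ • x) f).order = (ι x f).order)
    (hfix : ∀ (x : X) (h : ℕ), σ ^ h • x = x → ∀ f : F, f ≠ 0 → (e₀ : ℤ) ∣ h * (ι x f).order) :
    Nat.card {v : Place K F // 0 < v.ord s} =
      Nat.card (MulAction.orbitRel.Quotient (Subgroup.zpowers σ) X) := by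
  have := finiteDimensional_adjoin hFF hs
  refine card_zeros_eq_card_orbits_aux (finite_zeros hFF hs) (sum_ord_zeros hFF hs)
    (fun v₀ hv₀ => ?_) hX σ e₀ he₀ ι hinj hbase hbase' hord heps hfix
  obtain ⟨g, hg0, hgi, hgv, hg⟩ := exists_isIntegral_ord hFF hs v₀ hv₀
  exact ⟨g, hg0, hg, norm_eq_aeval_of_isIntegral hFF hs hgi v₀ hv₀ hgv⟩

end Fermat.Agent.S24Lib
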