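import Mathlib
import Fermat.Prelude.Def_AlgebraicCurve_CanonicalDivisor
import Fermat.Prelude.Def_ModularCurve_ArithmeticGalois
import Fermat.Prelude.Def_ModularCurve_GenusNumerics

set_option autoImplicit false

namespace Fermat.Agent.S24Lib

open AlgebraicCurve IntermediateField

/-- `F / K` is a function field in one variable. -/
def IsFF (K F : Type*) [Field K] [Field F] [Algebra K F] : Prop :=
  ∃ s : F, Transcendental K s ∧ FiniteDimensional K⟮s⟯ F

/-- the constant field `ℚ̄` -/
abbrev Kb : Type := AlgebraicClosure ℚ

/-- the function field of `X₀(N)` over `ℚ̄` -/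
abbrev FN (N : ℕ) : Type := ↥(ModularCurve.modularFunctionFieldBar N)

/-- the element `j(q^d)` of the function field -/
noncomputable def jB (N d : ℕ) [NeZero d] (hd : d ∣ N) : FN N :=
  ⟨ModularCurve.coeffEmb Kb (ModularCurve.qExpand ℚ d ModularCurve.jq),
    ModularCurve.coeffEmb_mem_laurentBaseChange Kb (ModularCurve.jqd_mem_full N hd)⟩

/-- the element `j` of the function field -/
noncomputable def jj (N : ℕ) : FN N := jB N 1 (one_dvd N)

end Fermat.Agent.S24Lib
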