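import Fermat.Agent.S24.Theta
import Fermat.Agent.S24.LevelOnePoly
import Fermat.Agent.S20.Basic

/-!
# S24 : the characteristic polynomial of a modular function of level `N` over `ℂ[j]`
-/

set_option autoImplicit false

open UpperHalfPlane hiding I
open Filter Topology ModularForm CongruenceSubgroup Polynomial
open scoped MatrixGroups Manifold

namespace Fermat.Agent.S24Lib

open Fermat.Agent.S20Lib

/-- holomorphic on `ℍ`, meromorphic at `i∞` -/
def GoodFn (g : ℍ → ℂ) : Prop :=
  MDiff g ∧ ∃ t : ℕ, IsBoundedAtImInfty (fun τ => discriminant τ ^ t * g τ)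

theorem GoodFn.const (c : ℂ) : GoodFn (fun _ => c) :=
  ⟨mdifferentiable_const, 0, by
    simp only [pow_zero, one_mul]
    exact const_boundedAtFilter atImInfty c⟩

theorem GoodFn.sub {g h : ℍ → ℂ} (hg : GoodFn g) (hh : GoodFn h) : GoodFn (fun τ => g τ - h τ) := by
  obtain ⟨hg1, t1, h1⟩ := hg
  obtain ⟨hh1, t2, h2⟩ := hh
  refine ⟨hg1.sub hh1, t1 + t2, ?_⟩
  have := ((disc_pow_bdd t2).mul h1).sub ((disc_pow_bdd t1).mul h2)
  refine this.congr' (Eventually.of_forall fun τ => ?_) (Eventually.of_forall fun _ => rfl)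
  simp only [Pi.mul_apply]
  ring

theorem GoodFn.mul {g h : ℍ → ℂ} (hg : GoodFn g) (hh : GoodFn h) : GoodFn (fun τ => g τ * h τ) := by
  obtain ⟨hg1, t1, h1⟩ := hg
  obtain ⟨hh1, t2, h2⟩ := hh
  refine ⟨hg1.mul hh1, t1 + t2, ?_⟩
  have := h1.mul h2
  refine this.congr' (Eventually.of_forall fun τ => ?_) (Eventually.of_forall fun _ => rfl)
  simp only [Pi.mul_apply]
  ring

theorem goodFn_coeff_prod {ι : Type*} (s : Finset ι) (f : ℍ → ι → ℂ)
    (hf : ∀ x ∈ s, GoodFn (fun τ => f τ x)) (k : ℕ) :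
    GoodFn (fun τ => (∏ x ∈ s, (X - C (f τ x))).coeff k) := by
  classical
  induction s using Finset.induction_on generalizing k with
  | empty =>
    simp only [Finset.prod_empty, coeff_one]
    exact GoodFn.const _
  | insert a s ha ih =>
    have ih' := ih (fun x hx => hf x (Finset.mem_insert_of_mem hx))
    have ha' := hf a (Finset.mem_insert_self a s)
    simp only [Finset.prod_insert ha, sub_mul, coeff_sub, coeff_C_mul]
    cases k with
    | zero =>
      simp only [coeff_X_mul_zero]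
      exact (GoodFn.const 0).sub (ha'.mul (ih' 0))
    | succ k =>
      simp only [coeff_X_mul]
      exact (ih' k).sub (ha'.mul (ih' (k + 1)))

/-- every modular function `evan N P` is a root of a monic polynomial of degree `#X₀(N)` with
coefficients in `ℂ[j]` -/
theorem exists_monic_rel (N : ℕ) [NeZero N] (P : AN N) :
    ∃ p : ℕ → ℂ[X], p (Fintype.card (X0 N)) = 1 ∧
      ∀ τ, ∑ k ∈ Finset.range (Fintype.card (X0 N) + 1), (p k).eval (jF τ) * evan N P τ ^ k = 0 := by
  classical
  set f := vec N 0 (evan N P) with hf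
  have hWH : IsWH N f := isWH_evan N P
  set Φ : ℍ → ℂ[X] := fun τ => ∏ x : X0 N, (X - C (f τ x)) with hΦ
  have hinv : ∀ (γ : SL(2, ℤ)) (τ : ℍ), Φ (γ • τ) = Φ τ := by
    intro γ τ
    simp only [hΦ, hWH.equiv γ τ]
    exact Fintype.prod_equiv (MulAction.toPerm γ⁻¹) _ _ (fun x => rfl)
  have hgood : ∀ k, GoodFn (fun τ => (Φ τ).coeff k) := by
    intro k
    refine goodFn_coeff_prod Finset.univ f (fun x _ => ⟨hWH.holo x, ?_⟩) k
    obtain ⟨t, ht⟩ := hWH.mero
    exact ⟨t, ht x⟩
  have hex : ∀ k, ∃ p : ℂ[X], ∀ τ, (Φ τ).coeff k = p.eval (jF τ) := by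
    intro k
    obtain ⟨h1, t, h2⟩ := hgood k
    exact levelOne_poly _ h1 (fun γ τ => by rw [hinv]) t h2
  choose p hp using hex
  have hmonic : ∀ τ, (Φ τ).Monic := fun τ => monic_prod_of_monic _ _ fun x _ => monic_X_sub_C _
  have hdeg : ∀ τ, (Φ τ).natDegree = Fintype.card (X0 N) := by
    intro τ
    simp only [hΦ]
    rw [natDegree_prod_of_monic _ _ fun x _ => monic_X_sub_C _]
    simp
  refine ⟨fun k => if k = Fintype.card (X0 N) then 1 else p k, by simp, fun τ => ?_⟩
  -- the root
  set x0 : X0 N := ((1 : SL(2, ℤ)) : X0 N) with hx0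
  have hroot : (Φ τ).eval (evan N P τ) = 0 := by
    have h1 : f τ x0 = evan N P τ := by
      rw [hf, vec_zero_apply]
      apply evan_smul
      apply inv_mem
      have : ((x0.out : SL(2, ℤ)) : X0 N) = ((1 : SL(2, ℤ)) : X0 N) := x0.out_eq'
      rw [QuotientGroup.eq] at this
      simpa using inv_mem this
    simp only [hΦ]
    rw [eval_prod]
    apply Finset.prod_eq_zero (Finset.mem_univ x0)
    simp [h1]
  rw [eval_eq_sum_range, hdeg] at hroot
  rw [← hroot]
  refine Finset.sum_congr rfl fun k _ => ?_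
  beta_reduce
  split_ifs with hk
  · have := (hmonic τ).coeff_natDegree
    rw [hdeg] at this
    rw [hk, this]
    simp
  · rw [hp]

end Fermat.Agent.S24Lib
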