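import Fermat.Agent.S24.Defs

set_option autoImplicit false

namespace Fermat.Agent.S24Lib

open AlgebraicCurve IntermediateField IsDedekindDomain

section Basic

variable {K F : Type*} [Field K] [Field F] [Algebra K F]

theorem adicValuation_le_one_iff (v : Place K F) (f : F) :
    v.adicValuation f ≤ 1 ↔ f ∈ v.toValuationSubring := by
  constructor
  · intro h
    obtain ⟨a, ha⟩ := IsDiscreteValuationRing.exists_lift_of_le_one (A := v.toValuationSubring)
      (K := F) (x := f) h
    rw [← ha]
    exact a.2
  · intro h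
    have := v.adicValuation_coe ⟨f, h⟩
    simp only at this
    rw [this]
    exact HeightOneSpectrum.intValuation_le_one _ _

theorem mem_toValuationSubring_iff (v : Place K F) {f : F} (hf : f ≠ 0) :
    f ∈ v.toValuationSubring ↔ 0 ≤ v.ord f := by
  rw [← adicValuation_le_one_iff, Place.ord, neg_nonneg,
    WithZero.log_le_iff_le_exp (v.adicValuation_ne_zero hf), WithZero.exp_zero]

theorem mem_toValuationSubring_of_ord_nonneg (v : Place K F) {f : F} (hf : 0 ≤ v.ord f) :
    f ∈ v.toValuationSubring := by
  rcases eq_or_ne f 0 with rfl | h0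
  · exact zero_mem _
  · exact (mem_toValuationSubring_iff v h0).2 hf

theorem ord_nonneg_of_mem (v : Place K F) {f : F} (hf : f ∈ v.toValuationSubring) :
    0 ≤ v.ord f := by
  rcases eq_or_ne f 0 with rfl | h0
  · simp
  · exact (mem_toValuationSubring_iff v h0).1 hf

/-- places are trivial on constants -/
theorem ord_algebraMap (v : Place K F) (a : K) : v.ord (algebraMap K F a) = 0 := by
  rcases eq_or_ne a 0 with rfl | ha
  · simp
  have h1 := ord_nonneg_of_mem v (v.algebraMap_mem' a)
  have h2 := ord_nonneg_of_mem v (v.algebraMap_mem' a⁻¹)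
  rw [map_inv₀, v.ord_inv] at h2
  omega

/-- ultrametric inequality -/
theorem le_ord_add (v : Place K F) {f g : F} (hfg : f + g ≠ 0) :
    min (v.ord f) (v.ord g) ≤ v.ord (f + g) := by
  rcases eq_or_ne f 0 with rfl | hf
  · simp
  rcases eq_or_ne g 0 with rfl | hg
  · simp
  have h := v.adicValuation.map_add f g
  have hf' := v.adicValuation_ne_zero hf
  have hg' := v.adicValuation_ne_zero hg
  have hfg' := v.adicValuation_ne_zero hfg
  simp only [Place.ord]
  rcases le_max_iff.1 h with h | h
  · have := (WithZero.log_le_log hfg' hf').2 h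
    exact (min_le_left _ _).trans (by omega)
  · have := (WithZero.log_le_log hfg' hg').2 h
    exact (min_le_right _ _).trans (by omega)

theorem ord_neg (v : Place K F) (f : F) : v.ord (-f) = v.ord f := by
  simp [Place.ord]

theorem le_ord_sub (v : Place K F) {f g : F} (hfg : f - g ≠ 0) :
    min (v.ord f) (v.ord g) ≤ v.ord (f - g) := by
  have := le_ord_add v (f := f) (g := -g) (by rwa [← sub_eq_add_neg])
  rwa [ord_neg, ← sub_eq_add_neg] at this

theorem ord_pow (v : Place K F) (f : F) (n : ℕ) : v.ord (f ^ n) = n * v.ord f := by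
  have := v.ord_zpow f n
  simpa using this

/-- two places with the same valuation ring inequalities are equal -/
theorem place_ext_of_ord (v w : Place K F) (h : ∀ f : F, 0 ≤ v.ord f → 0 ≤ w.ord f) : v = w := by
  by_contra hne
  -- there is `x` with `0 ≤ w.ord x`, `v.ord x < 0`
  have hex : ∃ x : F, 0 ≤ w.ord x ∧ v.ord x < 0 := by
    by_contra hcon
    push Not at hcon
    apply hne
    apply Place.ext
    ext x
    constructor
    · intro hx
      exact mem_toValuationSubring_of_ord_nonneg w (h x (ord_nonneg_of_mem v hx))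
    · intro hx
      exact mem_toValuationSubring_of_ord_nonneg v (hcon x (ord_nonneg_of_mem w hx))
  obtain ⟨x, hxw, hxv⟩ := hex
  have hx0 : x ≠ 0 := by
    rintro rfl
    simp at hxv
  obtain ⟨π, hπ⟩ := IsDiscreteValuationRing.exists_irreducible w.toValuationSubring
  have hy := w.ord_coe_irreducible hπ
  obtain ⟨y, hyy⟩ : ∃ y : F, y = (π : F) := ⟨_, rfl⟩
  rw [← hyy] at hy
  have hy0 : y ≠ 0 := by
    rintro rfl
    simp at hy
  have hb : 0 < v.ord y := by
    by_contra hb
    have := h y⁻¹ (by rw [v.ord_inv]; omega)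
    rw [w.ord_inv] at this
    omega
  -- `z = x ^ b * y ^ a`
  have hz0 : x ^ (v.ord y) * y ^ (-v.ord x) ≠ 0 :=
    mul_ne_zero (zpow_ne_zero _ hx0) (zpow_ne_zero _ hy0)
  have hzv : v.ord (x ^ (v.ord y) * y ^ (-v.ord x)) = 0 := by
    rw [v.ord_mul (zpow_ne_zero _ hx0) (zpow_ne_zero _ hy0), v.ord_zpow, v.ord_zpow]
    ring
  have hzw : w.ord (x ^ (v.ord y) * y ^ (-v.ord x)) = v.ord y * w.ord x + (-v.ord x) := by
    rw [w.ord_mul (zpow_ne_zero _ hx0) (zpow_ne_zero _ hy0), w.ord_zpow, w.ord_zpow, hy]
    ring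
  have h1 := h (x ^ (v.ord y) * y ^ (-v.ord x))⁻¹ (by rw [v.ord_inv, hzv]; simp)
  rw [w.ord_inv, hzw] at h1
  have : 0 ≤ v.ord y * w.ord x := mul_nonneg hb.le hxw
  omega

/-- an abstract order function with the same valuation ring as `v` is a multiple of `v.ord` -/
theorem ordFun_eq_mul_ord (v : Place K F) (w : F → ℤ)
    (hmul : ∀ x y : F, x ≠ 0 → y ≠ 0 → w (x * y) = w x + w y)
    (hmem : ∀ f : F, f ≠ 0 → (0 ≤ w f ↔ 0 ≤ v.ord f)) :
    ∃ m : ℕ, 0 < m ∧ ∀ f : F, f ≠ 0 → w f = m * v.ord f := by
  have h1 : w 1 = 0 := by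
    have := hmul 1 1 one_ne_zero one_ne_zero
    rw [mul_one] at this
    omega
  have hinv : ∀ x : F, x ≠ 0 → w x⁻¹ = - w x := by
    intro x hx
    have := hmul x x⁻¹ hx (inv_ne_zero hx)
    rw [mul_inv_cancel₀ hx, h1] at this
    omega
  have hpow : ∀ (x : F), x ≠ 0 → ∀ n : ℕ, w (x ^ n) = n * w x := by
    intro x hx n
    induction n with
    | zero => simp [h1]
    | succ n ih =>
      rw [pow_succ, hmul _ _ (pow_ne_zero _ hx) hx, ih]
      push_cast
      ring
  have hzpow : ∀ (x : F), x ≠ 0 → ∀ n : ℤ, w (x ^ n) = n * w x := by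
    intro x hx n
    obtain ⟨k, rfl | rfl⟩ := n.eq_nat_or_neg
    · simpa using hpow x hx k
    · rw [zpow_neg, hinv _ (zpow_ne_zero _ hx)]
      simp [hpow x hx k]
  have hunit : ∀ f : F, f ≠ 0 → v.ord f = 0 → w f = 0 := by
    intro f hf h0
    have a1 := (hmem f hf).2 h0.ge
    have a2 := (hmem f⁻¹ (inv_ne_zero hf)).2 (by rw [v.ord_inv, h0]; simp)
    rw [hinv f hf] at a2
    omega
  obtain ⟨π, hπ⟩ := IsDiscreteValuationRing.exists_irreducible v.toValuationSubring
  have hy := v.ord_coe_irreducible hπ
  have hπ0 : (π : F) ≠ 0 := by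
    intro h
    rw [h] at hy
    simp at hy
  have hwπ : 0 < w (π : F) := by
    by_contra hcon
    have := (hmem (π : F)⁻¹ (inv_ne_zero hπ0)).1 (by rw [hinv _ hπ0]; omega)
    rw [v.ord_inv, hy] at this
    omega
  refine ⟨(w (π : F)).toNat, by omega, fun f hf => ?_⟩
  obtain ⟨u, hu⟩ := v.exists_unit_mul_zpow hf hπ
  have hu0 : ((u : v.toValuationSubring) : F) ≠ 0 := by
    simp
  have : w f = w ((u : v.toValuationSubring) : F) + w ((π : F) ^ v.ord f) := by
    conv_lhs => rw [hu]
    exact hmul _ _ hu0 (zpow_ne_zero _ hπ0)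
  rw [this, hunit _ hu0 (v.ord_coe_unit u), hzpow _ hπ0, Int.toNat_of_nonneg hwπ.le]
  ring

/-- the place attached to an abstract order function -/
theorem exists_place_of_ordFun (w : F → ℤ)
    (hmul : ∀ x y : F, x ≠ 0 → y ≠ 0 → w (x * y) = w x + w y)
    (hadd : ∀ x y : F, x ≠ 0 → y ≠ 0 → x + y ≠ 0 → min (w x) (w y) ≤ w (x + y))
    (hK : ∀ a : K, a ≠ 0 → w (algebraMap K F a) = 0)
    {s : F} (hs0 : s ≠ 0) (hs : 0 < w s) :
    ∃ (v : Place K F) (m : ℕ), 0 < m ∧ ∀ f : F, f ≠ 0 → w f = m * v.ord f := by
  have h1 : w 1 = 0 := by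
    have := hmul 1 1 one_ne_zero one_ne_zero
    rw [mul_one] at this
    omega
  have hinv : ∀ x : F, x ≠ 0 → w x⁻¹ = - w x := by
    intro x hx
    have := hmul x x⁻¹ hx (inv_ne_zero hx)
    rw [mul_inv_cancel₀ hx, h1] at this
    omega
  have hneg1 : w (-1) = 0 := by
    have := hmul (-1) (-1) (by simp) (by simp)
    rw [neg_mul_neg, mul_one, h1] at this
    omega
  let A : ValuationSubring F :=
    { carrier := {x | x = 0 ∨ 0 ≤ w x}
      mul_mem' := by
        rintro a b (rfl | ha) (rfl | hb)
        · simp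
        · simp
        · simp
        · by_cases ha0 : a = 0
          · simp [ha0]
          by_cases hb0 : b = 0
          · simp [hb0]
          right
          rw [hmul a b ha0 hb0]
          omega
      one_mem' := Or.inr h1.ge
      add_mem' := by
        rintro a b ha hb
        by_cases ha0 : a = 0
        · simpa [ha0] using hb
        by_cases hb0 : b = 0
        · simpa [hb0] using ha
        by_cases hab : a + b = 0
        · exact Or.inl hab
        right
        have ha := ha.resolve_left ha0
        have hb := hb.resolve_left hb0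
        exact (le_min ha hb).trans (hadd a b ha0 hb0 hab)
      zero_mem' := Or.inl rfl
      neg_mem' := by
        rintro a ha
        by_cases ha0 : a = 0
        · simp [ha0]
        right
        have ha := ha.resolve_left ha0
        have := hmul (-1) a (by simp) ha0
        rw [neg_one_mul] at this
        rw [this, hneg1]
        omega
      mem_or_inv_mem' := by
        intro x
        by_cases hx : x = 0
        · exact Or.inl (Or.inl hx)
        rcases le_total 0 (w x) with h | h
        · exact Or.inl (Or.inr h)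
        · right
          right
          rw [hinv x hx]
          omega }
  have hA : ∀ x : F, x ∈ A ↔ (x = 0 ∨ 0 ≤ w x) := fun x => Iff.rfl
  have hPID : IsPrincipalIdealRing A := by
    constructor
    intro I
    by_cases hI : I = ⊥
    · rw [hI]
      exact ⟨0, by simp⟩
    obtain ⟨x, hxI, hx0⟩ := Submodule.exists_mem_ne_zero_of_ne_bot hI
    have hex : ∃ n : ℕ, ∃ x : A, x ∈ I ∧ x ≠ 0 ∧ w (x : F) = n := by
      have hx0' : (x : F) ≠ 0 := by simpa using hx0
      have := ((hA x).1 x.2).resolve_left hx0'
      exact ⟨(w x).toNat, x, hxI, hx0, by omega⟩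
    classical
    obtain ⟨x₀, hx₀I, hx₀0, hx₀⟩ := Nat.find_spec hex
    have hx₀0' : (x₀ : F) ≠ 0 := by simpa using hx₀0
    refine ⟨x₀, le_antisymm ?_ ?_⟩
    · intro y hy
      rw [Ideal.submodule_span_eq, Ideal.mem_span_singleton]
      by_cases hy0 : y = 0
      · simp [hy0]
      have hy0' : (y : F) ≠ 0 := by simpa using hy0
      have hyw := ((hA y).1 y.2).resolve_left hy0'
      have hle : (Nat.find hex : ℤ) ≤ w y := by
        have := Nat.find_min' hex ⟨y, hy, hy0, (Int.toNat_of_nonneg hyw).symm⟩
        omega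
      have hq : (y : F) * (x₀ : F)⁻¹ ∈ A := by
        right
        rw [hmul _ _ hy0' (inv_ne_zero hx₀0'), hinv _ hx₀0']
        omega
      refine ⟨⟨_, hq⟩, ?_⟩
      ext
      simp only [MulMemClass.coe_mul]
      field_simp
    · rw [Ideal.submodule_span_eq, Ideal.span_singleton_le_iff_mem]
      exact hx₀I
  let v : Place K F :=
    { toValuationSubring := A
      algebraMap_mem' := by
        intro a
        by_cases ha : a = 0
        · left
          simp [ha]
        · right
          exact (hK a ha).ge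
      ne_top' := by
        intro htop
        have : s⁻¹ ∈ A := by
          rw [htop]
          trivial
        have := ((hA _).1 this).resolve_left (inv_ne_zero hs0)
        rw [hinv s hs0] at this
        omega
      isPrincipalIdealRing' := hPID }
  obtain ⟨m, hm, hw⟩ := ordFun_eq_mul_ord v w hmul (by
    intro f hf
    rw [← mem_toValuationSubring_iff v hf]
    constructor
    · intro h
      exact Or.inr h
    · intro h
      exact h.resolve_left hf)
  exact ⟨v, m, hm, hw⟩

end Basic

end Fermat.Agent.S24Lib
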