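import Fermat.Agent.S24.Dict2

set_option autoImplicit false

namespace Fermat.Agent.S24Lib

open AlgebraicCurve IntermediateField IsDedekindDomain

section Dedekind

variable {K F : Type*} [Field K] [Field F] [Algebra K F]
variable {B : Type*} [CommRing B] [IsDedekindDomain B] [Algebra B F] [IsFractionRing B F]
  [Algebra K B] [IsScalarTower K B F]

theorem ord_ofHeightOneSpectrum (P : HeightOneSpectrum B) (x : F) :
    (Place.ofHeightOneSpectrum (K := K) P).ord x = -WithZero.log (P.valuation F x) := by
  rcases eq_or_ne x 0 with rfl | hx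
  · simp
  obtain ⟨m, hm, hw⟩ := ordFun_eq_mul_ord (Place.ofHeightOneSpectrum (K := K) P)
    (fun x => -WithZero.log (P.valuation F x)) (by
      intro x y hx hy
      simp only [map_mul]
      rw [WithZero.log_mul ((Valuation.ne_zero_iff _).2 hx) ((Valuation.ne_zero_iff _).2 hy)]
      ring) (by
      intro f hf
      rw [← mem_toValuationSubring_iff _ hf, Place.ofHeightOneSpectrum_toValuationSubring,
        Valuation.mem_valuationSubring_iff, neg_nonneg,
        WithZero.log_le_iff_le_exp ((Valuation.ne_zero_iff _).2 hf), WithZero.exp_zero])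
  obtain ⟨π, hπ⟩ := P.valuation_exists_uniformizer F
  have hπ0 : π ≠ 0 := by
    rintro rfl
    rw [map_zero] at hπ
    exact WithZero.exp_ne_zero hπ.symm
  have h1 := hw π hπ0
  simp only [hπ, WithZero.log_exp, neg_neg] at h1
  have hm1 : (m : ℤ) = 1 := by
    have : (m : ℤ) ∣ 1 := ⟨_, h1⟩
    exact Int.eq_one_of_dvd_one (by omega) this
  have := hw x hx
  rw [hm1, one_mul] at this
  exact this.symm

theorem le_ord_ofHeightOneSpectrum_iff (P : HeightOneSpectrum B) {b : B} (hb : b ≠ 0) (n : ℕ) :
    (n : ℤ) ≤ (Place.ofHeightOneSpectrum (K := K) P).ord (algebraMap B F b) ↔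
      b ∈ P.asIdeal ^ n := by
  rw [ord_ofHeightOneSpectrum, HeightOneSpectrum.valuation_of_algebraMap,
    ← HeightOneSpectrum.intValuation_le_pow_iff_mem,
    ← WithZero.log_le_iff_le_exp (P.intValuation_ne_zero b hb)]
  omega

theorem ord_ofHeightOneSpectrum_pos_iff (P : HeightOneSpectrum B) {b : B} (hb : b ≠ 0) :
    0 < (Place.ofHeightOneSpectrum (K := K) P).ord (algebraMap B F b) ↔ b ∈ P.asIdeal := by
  have := le_ord_ofHeightOneSpectrum_iff (K := K) (F := F) P hb 1
  rw [pow_one] at this
  rw [← this]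
  simp only [Nat.cast_one]
  omega

theorem ord_ofHeightOneSpectrum_nonneg (P : HeightOneSpectrum B) (b : B) :
    0 ≤ (Place.ofHeightOneSpectrum (K := K) P).ord (algebraMap B F b) := by
  apply ord_nonneg_of_mem
  rw [Place.ofHeightOneSpectrum_toValuationSubring, Valuation.mem_valuationSubring_iff]
  exact P.valuation_le_one b

theorem ofHeightOneSpectrum_injective :
    Function.Injective (Place.ofHeightOneSpectrum (K := K) (F := F) (R := B)) := by
  intro P Q h
  ext b
  by_cases hb : b = 0
  · simp [hb]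
  rw [← ord_ofHeightOneSpectrum_pos_iff (K := K) (F := F) P hb,
    ← ord_ofHeightOneSpectrum_pos_iff (K := K) (F := F) Q hb, h]

theorem exists_eq_ofHeightOneSpectrum (v : Place K F)
    (hB : ∀ b : B, algebraMap B F b ∈ v.toValuationSubring) :
    ∃ P : HeightOneSpectrum B, Place.ofHeightOneSpectrum P = v := by
  let φ : B →+* v.toValuationSubring :=
    (algebraMap B F).codRestrict v.toValuationSubring.toSubring hB
  have hφ : ∀ b, ((φ b : v.toValuationSubring) : F) = algebraMap B F b := fun b => rfl
  let I : Ideal B := (IsLocalRing.maximalIdeal v.toValuationSubring).comap φ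
  have hI : ∀ b : B, b ∈ I ↔ (b = 0 ∨ 0 < v.ord (algebraMap B F b)) := by
    intro b
    show φ b ∈ IsLocalRing.maximalIdeal v.toValuationSubring ↔ _
    rw [mem_maximalIdeal_iff, hφ]
    have : φ b = 0 ↔ b = 0 := by
      rw [← Subtype.coe_inj, hφ]
      simp
    rw [this]
  have hIprime : I.IsPrime := Ideal.comap_isPrime φ _
  have hIbot : I ≠ ⊥ := by
    intro hbot
    apply v.ne_top'
    rw [eq_top_iff]
    intro x _
    obtain ⟨a, b, hb0, rfl⟩ := IsFractionRing.div_surjective (A := B) x
    have hb0' : b ≠ 0 := nonZeroDivisors.ne_zero hb0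
    have hbF : algebraMap B F b ≠ 0 := by simpa using hb0'
    have hb1 : ¬ (0 < v.ord (algebraMap B F b)) := by
      intro hpos
      have : b ∈ I := (hI b).2 (Or.inr hpos)
      rw [hbot] at this
      exact hb0' (by simpa using this)
    have hb2 := ord_nonneg_of_mem v (hB b)
    rw [div_eq_mul_inv]
    apply mul_mem (hB a)
    apply mem_toValuationSubring_of_ord_nonneg
    rw [v.ord_inv]
    omega
  refine ⟨⟨I, hIprime, hIbot⟩, ?_⟩
  apply place_ext_of_ord
  intro f hf
  rw [ord_ofHeightOneSpectrum, neg_nonneg] at hf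
  rcases eq_or_ne f 0 with rfl | hf0
  · simp
  rw [WithZero.log_le_iff_le_exp ((Valuation.ne_zero_iff _).2 hf0), WithZero.exp_zero] at hf
  obtain ⟨n, d, hnd⟩ := HeightOneSpectrum.exists_primeCompl_mul_eq_of_integer _ f hf
  have hd : (d : B) ∉ I := d.2
  have hd0 : (d : B) ≠ 0 := fun h => hd (by rw [h]; exact zero_mem _)
  have hdF : algebraMap B F d ≠ 0 := by simpa using hd0
  have hd1 : v.ord (algebraMap B F d) = 0 := by
    have h1 := ord_nonneg_of_mem v (hB d)
    have h2 : ¬ (0 < v.ord (algebraMap B F d)) := fun h => hd ((hI _).2 (Or.inr h))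
    omega
  have h3 := ord_nonneg_of_mem v (hB n)
  rw [← hnd, v.ord_mul hf0 hdF, hd1] at h3
  omega

end Dedekind

end Fermat.Agent.S24Lib
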