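import Fermat.Agent.S24.Dict

set_option autoImplicit false

namespace Fermat.Agent.S24Lib

open AlgebraicCurve IntermediateField

variable {K F : Type*} [Field K] [IsAlgClosed K] [Field F] [Algebra K F]

/-- API-3 : the place attached to an embedding into Laurent series (no hypothesis on `F / K`
is needed). -/
theorem exists_place_of_ringHom' (ι : F →+* LaurentSeries ℂ) {s : F}
    (hs : 0 < (ι s).order) :
    ∃ (v : Place K F) (m : ℕ), 0 < m ∧ ∀ f : F, f ≠ 0 → (ι f).order = m * v.ord f := by
  have hι : ∀ x : F, x ≠ 0 → ι x ≠ 0 := fun x hx => (map_ne_zero ι).2 hx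
  have hs0 : s ≠ 0 := by
    rintro rfl
    simp at hs
  refine exists_place_of_ordFun (K := K) (fun f => (ι f).order) ?_ ?_ ?_ hs0 hs
  · intro x y hx hy
    simp only [map_mul]
    exact HahnSeries.order_mul (hι x hx) (hι y hy)
  · intro x y hx hy hxy
    simp only [map_add]
    apply HahnSeries.min_order_le_order_add
    rw [← map_add]
    exact hι _ hxy
  · intro a ha
    -- `a` has `n`-th roots for all `n`
    by_contra hne
    obtain ⟨n, hn⟩ : ∃ n : ℕ, n = (ι (algebraMap K F a)).order.natAbs + 1 := ⟨_, rfl⟩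
    obtain ⟨z, hz⟩ := IsAlgClosed.exists_pow_nat_eq a (n := n) (by omega)
    have : (ι (algebraMap K F a)).order = n * (ι (algebraMap K F z)).order := by
      rw [← hz, map_pow, map_pow, HahnSeries.order_pow]
      simp
    have hdvd : (n : ℤ) ∣ (ι (algebraMap K F a)).order := ⟨_, this⟩
    have := Int.le_of_dvd (Int.natAbs_pos.2 hne |> Int.natCast_pos.2) ((Int.dvd_natAbs).2 hdvd)
    omega

theorem exists_place_of_ringHom (_hFF : IsFF K F) (ι : F →+* LaurentSeries ℂ) {s : F}
    (hs : 0 < (ι s).order) :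
    ∃ (v : Place K F) (m : ℕ), 0 < m ∧ ∀ f : F, f ≠ 0 → (ι f).order = m * v.ord f :=
  exists_place_of_ringHom' ι hs

end Fermat.Agent.S24Lib
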