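import Fermat.Agent.S24.Dict3

set_option autoImplicit false
set_option linter.deprecated false

namespace Fermat.Agent.S24Lib

open AlgebraicCurve IntermediateField IsDedekindDomain

section FundId

variable {K F : Type*} [Field K] [IsAlgClosed K] [Field F] [Algebra K F]

theorem fundamental_identity_aux (hFF : IsFF K F)
    (R L B : Type*) [CommRing R] [IsDedekindDomain R] [Field L] [Algebra R L] [IsFractionRing R L]
    [Algebra L F] [Algebra R F] [IsScalarTower R L F]
    [CommRing B] [IsDedekindDomain B] [Algebra R B] [Algebra B F] [IsScalarTower R B F]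
    [IsFractionRing B F] [Module.Finite R B] [Module.IsTorsionFree R B]
    [Algebra K B] [IsScalarTower K B F] [Algebra K R] [IsScalarTower K R B]
    (sR : R) (hmax : (Ideal.span {sR}).IsMaximal) (hsR0 : sR ≠ 0)
    (hint : ∀ v : Place K F, 0 ≤ v.ord (algebraMap R F sR) →
      ∀ b : B, algebraMap B F b ∈ v.toValuationSubring) :
    ∃ T : Finset (Place K F), (∀ v, v ∈ T ↔ 0 < v.ord (algebraMap R F sR)) ∧
      ∑ v ∈ T, v.ord (algebraMap R F sR) = (Module.finrank L F : ℤ) := by
  classical
  obtain ⟨p, hp⟩ : ∃ p : Ideal R, p = Ideal.span {sR} := ⟨_, rfl⟩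
  rw [← hp] at hmax
  have hp0 : p ≠ ⊥ := by
    rw [hp]
    simpa using hsR0
  have hsp : sR ∈ p := by
    rw [hp]
    exact Ideal.mem_span_singleton_self sR
  have hinjRB : Function.Injective (algebraMap R B) := FaithfulSMul.algebraMap_injective R B
  have hsB0 : algebraMap R B sR ≠ 0 := by
    rwa [Ne, map_eq_zero_iff _ hinjRB]
  have hsF : algebraMap R F sR = algebraMap B F (algebraMap R B sR) :=
    IsScalarTower.algebraMap_apply R B F sR
  have hS : ∀ P : Ideal B, P ∈ IsDedekindDomain.primesOverFinset p B ↔ P.IsPrime ∧ P.LiesOver p :=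
    fun P => IsDedekindDomain.mem_primesOverFinset_iff hp0 B
  let hos : (IsDedekindDomain.primesOverFinset p B) → HeightOneSpectrum B := fun P =>
    ⟨P.1, ((hS P.1).1 P.2).1,
      haveI := ((hS P.1).1 P.2).2
      Ideal.ne_bot_of_liesOver_of_ne_bot hp0 P.1⟩
  have hosinj : Function.Injective hos := by
    intro P Q h
    apply Subtype.ext
    exact congrArg HeightOneSpectrum.asIdeal h
  refine ⟨(IsDedekindDomain.primesOverFinset p B).attach.image
    (fun P => Place.ofHeightOneSpectrum (K := K) (F := F) (hos P)), ?_, ?_⟩
  · intro v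
    simp only [Finset.mem_image, Finset.mem_attach, true_and]
    constructor
    · rintro ⟨P, rfl⟩
      rw [hsF, ord_ofHeightOneSpectrum_pos_iff _ hsB0]
      have := ((hS P.1).1 P.2).2
      exact (Ideal.mem_of_liesOver P.1 p sR).1 hsp
    · intro hv
      obtain ⟨P, rfl⟩ := exists_eq_ofHeightOneSpectrum (B := B) v (hint v hv.le)
      rw [hsF, ord_ofHeightOneSpectrum_pos_iff _ hsB0] at hv
      have hle : p ≤ P.asIdeal.comap (algebraMap R B) := by
        rw [hp, Ideal.span_singleton_le_iff_mem]
        exact hv
      have heq : p = P.asIdeal.comap (algebraMap R B) :=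
        hmax.eq_of_le (Ideal.comap_ne_top _ P.isPrime.ne_top) hle
      exact ⟨⟨P.asIdeal, (hS _).2 ⟨P.isPrime, ⟨heq⟩⟩⟩, rfl⟩
  · rw [Finset.sum_image (fun P _ Q _ h => hosinj (ofHeightOneSpectrum_injective h))]
    rw [← Ideal.sum_ramification_inertia B L F hp0,
      ← Finset.sum_attach (IsDedekindDomain.primesOverFinset p B)]
    push_cast
    apply Finset.sum_congr rfl
    intro P _
    have hPprime := ((hS P.1).1 P.2).1
    have hPlies := ((hS P.1).1 P.2).2
    have hmap : Ideal.map (algebraMap R B) p = Ideal.span {algebraMap R B sR} := by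
      rw [hp, Ideal.map_span, Set.image_singleton]
    have hnn := ord_ofHeightOneSpectrum_nonneg (K := K) (F := F) (hos P) (algebraMap R B sR)
    have hram : Ideal.ramificationIdx' p P.1 =
        ((Place.ofHeightOneSpectrum (K := K) (F := F) (hos P)).ord (algebraMap R F sR)).toNat := by
      apply Ideal.ramificationIdx'_spec
      · rw [hmap, Ideal.span_singleton_le_iff_mem]
        refine (le_ord_ofHeightOneSpectrum_iff (K := K) (F := F) (hos P) hsB0 _).1 ?_
        rw [hsF]
        omega
      · rw [hmap, Ideal.span_singleton_le_iff_mem]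
        intro hmem
        have := (le_ord_ofHeightOneSpectrum_iff (K := K) (F := F) (hos P) hsB0 _).2 hmem
        rw [hsF] at this
        push_cast at this
        omega
    have hin : Ideal.inertiaDeg' p P.1 = 1 := by
      rw [Ideal.inertiaDeg'_algebraMap]
      have hsurj : Function.Surjective (algebraMap (R ⧸ p) (B ⧸ P.1)) := by
        intro x
        obtain ⟨b, rfl⟩ := Ideal.Quotient.mk_surjective x
        obtain ⟨c, hc⟩ := exists_sub_algebraMap_ord_pos hFF
          (Place.ofHeightOneSpectrum (K := K) (F := F) (hos P))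
          (ord_ofHeightOneSpectrum_nonneg (K := K) (F := F) (hos P) b)
        refine ⟨Ideal.Quotient.mk p (algebraMap K R c), ?_⟩
        rw [Ideal.Quotient.algebraMap_mk_of_liesOver, ← IsScalarTower.algebraMap_apply K R B,
          eq_comm, Ideal.Quotient.eq]
        have hcF : algebraMap K F c = algebraMap B F (algebraMap K B c) :=
          IsScalarTower.algebraMap_apply K B F c
        rcases hc with hc | hc
        · rw [hcF] at hc
          have := IsFractionRing.injective B F hc
          rw [this, sub_self]
          exact zero_mem _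
        · rw [hcF, ← map_sub] at hc
          by_cases h0 : b - algebraMap K B c = 0
          · rw [h0]
            exact zero_mem _
          exact (ord_ofHeightOneSpectrum_pos_iff (K := K) (F := F) (hos P) h0).1 hc
      have hbij : Function.Bijective (algebraMap (R ⧸ p) (B ⧸ P.1)) :=
        ⟨FaithfulSMul.algebraMap_injective _ _, hsurj⟩
      rw [← Module.finrank_self (R ⧸ p)]
      exact ((AlgEquiv.ofBijective (Algebra.ofId (R ⧸ p) (B ⧸ P.1)) hbij).toLinearEquiv.finrank_eq).symm
    rw [hram, hin, hsF]
    rw [hsF] at hram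
    simp only [Nat.cast_one, mul_one]
    omega

end FundId

end Fermat.Agent.S24Lib
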