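import Fermat.Agent.S24.HasExpG
import Fermat.Agent.S24.DefsB

/-!
# S24 [B1] : calculus of `HasExp` (definitions of `S24/DefsB.lean`), deduced from the
generic version `HasExpG` of `S24/HasExpG.lean`.
-/

set_option autoImplicit false

open UpperHalfPlane hiding I
open Filter Topology ModularForm
open scoped MatrixGroups Manifold

namespace Fermat.Agent.S24Lib

open Fermat.Agent.S20Lib

theorem taylor0_eq_tay (H : ℂ → ℂ) : taylor0 H = tay H := by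
  ext n
  rw [tay_coeff, taylor0, PowerSeries.coeff_mk, div_eq_inv_mul]

theorem hasExp_iff {l : Filter ℍ} {π f : ℍ → ℂ} {ℓ : LaurentSeries ℂ} :
    HasExp l π f ℓ ↔ HasExpG l π f ℓ := by
  unfold HasExp HasExpG
  simp only [taylor0_eq_tay, HahnSeries.ofPowerSeries_X_pow]

namespace HasExp

variable {l : Filter ℍ} {π f g : ℍ → ℂ} {ℓ ℓ' : LaurentSeries ℂ}

theorem const (l : Filter ℍ) (π : ℍ → ℂ) (c : ℂ) : HasExp l π (fun _ => c) (HahnSeries.C c) :=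
  hasExp_iff.2 (HasExpG.const c)

theorem param (l : Filter ℍ) (π : ℍ → ℂ) : HasExp l π π (HahnSeries.single 1 1) :=
  hasExp_iff.2 HasExpG.param

theorem congr (h : HasExp l π f ℓ) (hfg : f =ᶠ[l] g) : HasExp l π g ℓ :=
  hasExp_iff.2 ((hasExp_iff.1 h).congr hfg)

theorem add (h : HasExp l π f ℓ) (h' : HasExp l π g ℓ') :
    HasExp l π (fun τ => f τ + g τ) (ℓ + ℓ') :=
  hasExp_iff.2 ((hasExp_iff.1 h).add (hasExp_iff.1 h'))

theorem neg (h : HasExp l π f ℓ) : HasExp l π (fun τ => - f τ) (-ℓ) :=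
  hasExp_iff.2 (hasExp_iff.1 h).neg

theorem sub (h : HasExp l π f ℓ) (h' : HasExp l π g ℓ') :
    HasExp l π (fun τ => f τ - g τ) (ℓ - ℓ') :=
  hasExp_iff.2 ((hasExp_iff.1 h).sub (hasExp_iff.1 h'))

theorem mul (h : HasExp l π f ℓ) (h' : HasExp l π g ℓ') :
    HasExp l π (fun τ => f τ * g τ) (ℓ * ℓ') :=
  hasExp_iff.2 ((hasExp_iff.1 h).mul (hasExp_iff.1 h'))

theorem pow (h : HasExp l π f ℓ) (n : ℕ) : HasExp l π (fun τ => f τ ^ n) (ℓ ^ n) :=
  hasExp_iff.2 ((hasExp_iff.1 h).pow n)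

theorem eq_zero_iff (hc : IsChart l π) (h : HasExp l π f ℓ) : ℓ = 0 ↔ f =ᶠ[l] 0 :=
  haveI := hc.neBot
  HasExpG.eq_zero_iff hc.tendsto (hasExp_iff.1 h)

theorem unique (hc : IsChart l π) (h : HasExp l π f ℓ) (h' : HasExp l π f ℓ') : ℓ = ℓ' :=
  haveI := hc.neBot
  HasExpG.unique hc.tendsto (hasExp_iff.1 h) (hasExp_iff.1 h')

theorem inv (hc : IsChart l π) (h : HasExp l π f ℓ) : HasExp l π (fun τ => (f τ)⁻¹) ℓ⁻¹ := by
  by_cases hℓ : ℓ = 0
  · have h0 := (eq_zero_iff hc h).1 hℓ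
    subst hℓ
    rw [inv_zero]
    have h1 := const l π 0
    rw [map_zero] at h1
    refine h1.congr ?_
    filter_upwards [h0] with τ hτ
    rw [hτ]; simp
  · exact hasExp_iff.2 ((hasExp_iff.1 h).inv hc.tendsto hℓ)

theorem div (hc : IsChart l π) (h : HasExp l π f ℓ) (h' : HasExp l π g ℓ') :
    HasExp l π (fun τ => f τ / g τ) (ℓ / ℓ') := by
  simpa [div_eq_mul_inv] using h.mul (h'.inv hc)

theorem lead (hc : IsChart l π) (h : HasExp l π f ℓ) (hℓ : ℓ ≠ 0) :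
    Lead l π f ℓ.order ℓ.leadingCoeff := by
  have h1 := (hasExp_iff.1 h).tendsto_lead hc.tendsto ℓ.order
    (fun m hm => HahnSeries.coeff_eq_zero_of_lt_order hm)
  unfold Lead
  rw [HahnSeries.leadingCoeff_of_ne_zero hℓ]
  have h2 : (ℓ.orderTop.untop (HahnSeries.orderTop_ne_top.2 hℓ)) = ℓ.order := by
    rw [← WithTop.coe_eq_coe, WithTop.coe_untop, HahnSeries.order_eq_orderTop_of_ne_zero hℓ]
  rw [h2]
  simpa [smul_eq_mul] using h1

theorem order_eq_of_lead (hc : IsChart l π) (h : HasExp l π f ℓ) {n : ℤ} {A : ℂ}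
    (hL : Lead l π f n A) (hA : A ≠ 0) : ℓ ≠ 0 ∧ ℓ.order = n := by
  haveI := hc.neBot
  have h1 := (hasExp_iff.1 h).order_eq hc.tendsto hA (n := n) (by simpa [Lead, smul_eq_mul] using hL)
  exact ⟨h1.1, h1.2.1⟩

theorem comp {l' : Filter ℍ} {π' : ℍ → ℂ} {s : ℍ → ℍ} (h : HasExp l π f ℓ)
    (hs : Tendsto s l' l) (c : ℂˣ) (m : ℕ) [NeZero m]
    (hc : ∀ᶠ τ in l', π (s τ) = c * π' τ ^ m) :
    HasExp l' π' (fun τ => f (s τ)) (ModularCurve.qExpand ℂ m (rot c ℓ)) :=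
  hasExp_iff.2 ((hasExp_iff.1 h).comp hs c m hc)

theorem mvPolynomial {ι : Type*} {F : ι → ℍ → ℂ} {L : ι → LaurentSeries ℂ}
    (h : ∀ i, HasExp l π (F i) (L i)) (P : MvPolynomial ι ℂ) :
    HasExp l π (fun τ => MvPolynomial.eval (fun i => F i τ) P)
      (MvPolynomial.eval₂ HahnSeries.C L P) :=
  hasExp_iff.2 (HasExpG.mvPolynomial (fun i => hasExp_iff.1 (h i)) P)

end HasExp

theorem hasExp_of_analyticAt {l : Filter ℍ} {π f : ℍ → ℂ} {H : ℂ → ℂ} (hH : AnalyticAt ℂ H 0)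
    (hf : ∀ᶠ τ in l, f τ = H (π τ)) :
    HasExp l π f (HahnSeries.ofPowerSeries ℤ ℂ (taylor0 H)) := by
  rw [taylor0_eq_tay]
  exact hasExp_iff.2 (HasExpG.of_analytic hH hf)

end Fermat.Agent.S24Lib
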