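import Fermat.Agent.S24.Tay

set_option autoImplicit false
open Filter Topology

namespace Fermat.Agent.S24Lib

theorem analyticAt_dslope {G : ℂ → ℂ} (hG : AnalyticAt ℂ G 0) : AnalyticAt ℂ (dslope G 0) 0 := by
  obtain ⟨p, hp⟩ := hG
  exact hp.has_fpower_series_dslope_fslope.analyticAt

theorem exists_of_tay_eq_X_pow_mul {H : ℂ → ℂ} (hH : AnalyticAt ℂ H 0) (r : ℕ)
    (p : PowerSeries ℂ) (h : tay H = PowerSeries.X ^ r * p) :
    ∃ G : ℂ → ℂ, AnalyticAt ℂ G 0 ∧ (∀ z, H z = z ^ r * G z) ∧ tay G = p := by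
  induction r generalizing p with
  | zero => exact ⟨H, hH, fun z => by simp, by simpa using h⟩
  | succ r ih =>
    obtain ⟨G, hG, hHG, hGp⟩ := ih (PowerSeries.X * p) (by rw [h]; ring)
    have hG0 : G 0 = 0 := by
      rw [← tay_coeff_zero G, hGp]; simp
    have hGd : ∀ z, G z = z * dslope G 0 z := by
      intro z
      have := sub_smul_dslope G 0 z
      simp only [sub_zero, smul_eq_mul, hG0] at this
      exact this.symm
    have hd := analyticAt_dslope hG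
    refine ⟨dslope G 0, hd, fun z => ?_, ?_⟩
    · rw [hHG z, hGd z]; ring
    · have h1 : tay G = PowerSeries.X * tay (dslope G 0) := by
        have hid : AnalyticAt ℂ (fun z : ℂ => z) 0 := analyticAt_id
        rw [← tay_id, ← tay_mul hid hd]
        exact congrArg tay (funext hGd)
      rw [hGp] at h1
      exact (mul_left_cancel₀ PowerSeries.X_ne_zero h1).symm

theorem analyticAt_comp_mul_pow {H : ℂ → ℂ} (hH : AnalyticAt ℂ H 0) (c : ℂ) {m : ℕ}
    (hm : 0 < m) : AnalyticAt ℂ (fun z => H (c * z ^ m)) 0 := by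
  have h1 : AnalyticAt ℂ (fun z : ℂ => c * z ^ m) 0 := by fun_prop
  have h2 : AnalyticAt ℂ H ((fun z : ℂ => c * z ^ m) 0) := by
    simpa [hm.ne'] using hH
  exact AnalyticAt.comp (g := H) (f := fun z : ℂ => c * z ^ m) h2 h1

theorem tay_comp_mul_pow {H : ℂ → ℂ} (hH : AnalyticAt ℂ H 0) (c : ℂ) {m : ℕ} (hm : 0 < m) :
    tay (fun z => H (c * z ^ m)) =
      PowerSeries.mk (fun k => if m ∣ k then (tay H).coeff (k / m) * c ^ (k / m) else 0) := by
  obtain ⟨r, hr, hs⟩ := hasSum_tay hH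
  have hr' : 0 < min 1 (r / (‖c‖ + 1)) := lt_min one_pos (by positivity)
  refine tay_eq_of_hasSum hr' fun z hz => ?_
  have hz1 : ‖z‖ < 1 := lt_of_lt_of_le hz (min_le_left _ _)
  have hz2 : ‖z‖ < r / (‖c‖ + 1) := lt_of_lt_of_le hz (min_le_right _ _)
  have hcz : ‖c * z ^ m‖ < r := by
    rw [norm_mul, norm_pow]
    have h1 : ‖z‖ ^ m ≤ ‖z‖ := by
      calc ‖z‖ ^ m ≤ ‖z‖ ^ 1 := pow_le_pow_of_le_one (norm_nonneg _) hz1.le hm
        _ = ‖z‖ := pow_one _
    rw [lt_div_iff₀ (by positivity)] at hz2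
    nlinarith [norm_nonneg c, norm_nonneg z]
  have h1 := hs _ hcz
  have hinj : Function.Injective (fun n : ℕ => m * n) := fun a b h =>
    Nat.eq_of_mul_eq_mul_left hm h
  rw [← hinj.hasSum_iff]
  · convert h1 using 2 with n
    simp only [Function.comp, dvd_mul_right, if_true, Nat.mul_div_cancel_left _ hm]
    rw [mul_pow, pow_mul]; ring
  · intro k hk
    have : ¬ m ∣ k := by
      rintro ⟨n, rfl⟩
      exact hk ⟨n, rfl⟩
    simp [this]

theorem ofPowerSeries_tay_comp {H : ℂ → ℂ} (hH : AnalyticAt ℂ H 0) (c : ℂˣ) (m : ℕ) [NeZero m] :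
    HahnSeries.ofPowerSeries ℤ ℂ (tay (fun z => H (c * z ^ m))) =
      ModularCurve.qExpand ℂ m (rot c (HahnSeries.ofPowerSeries ℤ ℂ (tay H))) := by
  have hm : 0 < m := Nat.pos_of_ne_zero (NeZero.ne m)
  rw [tay_comp_mul_pow hH c hm]
  ext n
  by_cases hn : (m : ℤ) ∣ n
  · obtain ⟨k, rfl⟩ := hn
    rw [ModularCurve.qExpand_coeff_mul, rot_coeff]
    rcases lt_or_ge k 0 with hk | hk
    · rw [ModularCurve.ofPowerSeries_coeff_of_neg _ hk,
        ModularCurve.ofPowerSeries_coeff_of_neg _ (by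
          have : (0 : ℤ) < m := by exact_mod_cast hm
          nlinarith)]
      simp
    · lift k to ℕ using hk
      rw [HahnSeries.ofPowerSeries_apply_coeff, ← Nat.cast_mul,
        HahnSeries.ofPowerSeries_apply_coeff, PowerSeries.coeff_mk]
      simp only [dvd_mul_right, if_true, Nat.mul_div_cancel_left _ hm, zpow_natCast]
      ring
  · rw [ModularCurve.qExpand_coeff_of_not_dvd _ _ hn]
    rcases lt_or_ge n 0 with hk | hk
    · rw [ModularCurve.ofPowerSeries_coeff_of_neg _ hk]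
    · lift n to ℕ using hk
      rw [HahnSeries.ofPowerSeries_apply_coeff, PowerSeries.coeff_mk, if_neg]
      intro h
      exact hn (by exact_mod_cast h)


/-! ### `HasExpG` -/

local notation "oPS" => HahnSeries.ofPowerSeries ℤ ℂ

/-- `f` has the Laurent expansion `ℓ` in the parameter `π` along the filter `l`. -/
def HasExpG {α : Type*} (l : Filter α) (π f : α → ℂ) (ℓ : LaurentSeries ℂ) : Prop :=
  ∃ (k : ℕ) (H : ℂ → ℂ), AnalyticAt ℂ H 0 ∧ (∀ᶠ τ in l, π τ ^ k * f τ = H (π τ)) ∧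
    oPS (PowerSeries.X ^ k) * ℓ = oPS (tay H)

theorem oPS_X_pow_ne_zero (k : ℕ) : oPS (PowerSeries.X ^ k) ≠ 0 := by
  intro h
  have := HahnSeries.ofPowerSeries_injective (Γ := ℤ) (R := ℂ) (h.trans (map_zero _).symm)
  exact pow_ne_zero k PowerSeries.X_ne_zero this

namespace HasExpG

variable {α : Type*} {l : Filter α} {π f g : α → ℂ} {ℓ ℓ' : LaurentSeries ℂ}

theorem of_analytic {H : ℂ → ℂ} (hH : AnalyticAt ℂ H 0) (h : ∀ᶠ τ in l, f τ = H (π τ)) :
    HasExpG l π f (oPS (tay H)) :=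
  ⟨0, H, hH, by simpa using h, by simp⟩

theorem const (c : ℂ) : HasExpG l π (fun _ => c) (HahnSeries.C c) := by
  have := of_analytic (l := l) (π := π) (f := fun _ => c) (H := fun _ => c) analyticAt_const
    (Eventually.of_forall fun _ => rfl)
  rwa [tay_const, HahnSeries.ofPowerSeries_C] at this

theorem param : HasExpG l π π (HahnSeries.single 1 1) := by
  have := of_analytic (l := l) (π := π) (f := π) (H := fun z => z) analyticAt_id
    (Eventually.of_forall fun _ => rfl)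
  rwa [tay_id, HahnSeries.ofPowerSeries_X] at this

theorem congr (h : HasExpG l π f ℓ) (hfg : f =ᶠ[l] g) : HasExpG l π g ℓ := by
  obtain ⟨k, H, hH, he, hs⟩ := h
  refine ⟨k, H, hH, ?_, hs⟩
  filter_upwards [he, hfg] with τ h1 h2
  rw [← h2, h1]

theorem add (hf : HasExpG l π f ℓ) (hg : HasExpG l π g ℓ') :
    HasExpG l π (fun τ => f τ + g τ) (ℓ + ℓ') := by
  obtain ⟨k, H, hH, he, hs⟩ := hf
  obtain ⟨k', H', hH', he', hs'⟩ := hg
  have hid : AnalyticAt ℂ (fun z : ℂ => z) 0 := analyticAt_id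
  have h1 : AnalyticAt ℂ (fun z : ℂ => z ^ k' * H z) 0 := (hid.pow k').mul hH
  have h2 : AnalyticAt ℂ (fun z : ℂ => z ^ k * H' z) 0 := (hid.pow k).mul hH'
  refine ⟨k + k', fun z => z ^ k' * H z + z ^ k * H' z, h1.add h2, ?_, ?_⟩
  · filter_upwards [he, he'] with τ e1 e2
    rw [← e1, ← e2]; ring
  · have h3 : AnalyticAt ℂ (fun z : ℂ => z ^ k') 0 := hid.pow k'
    have h4 : AnalyticAt ℂ (fun z : ℂ => z ^ k) 0 := hid.pow k
    rw [tay_add h1 h2, tay_mul h3 hH, tay_mul h4 hH', tay_id_pow, tay_id_pow, map_add, map_mul,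
      map_mul, ← hs, ← hs', pow_add, map_mul]
    ring

theorem mul (hf : HasExpG l π f ℓ) (hg : HasExpG l π g ℓ') :
    HasExpG l π (fun τ => f τ * g τ) (ℓ * ℓ') := by
  obtain ⟨k, H, hH, he, hs⟩ := hf
  obtain ⟨k', H', hH', he', hs'⟩ := hg
  refine ⟨k + k', fun z => H z * H' z, hH.mul hH', ?_, ?_⟩
  · filter_upwards [he, he'] with τ e1 e2
    rw [← e1, ← e2]; ring
  · rw [tay_mul hH hH', map_mul, ← hs, ← hs', pow_add, map_mul]
    ring

theorem neg (hf : HasExpG l π f ℓ) : HasExpG l π (fun τ => - f τ) (- ℓ) := by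
  have := (const (l := l) (π := π) (-1)).mul hf
  have h2 : (HahnSeries.C (-1 : ℂ) : LaurentSeries ℂ) * ℓ = - ℓ := by
    rw [map_neg, map_one]; ring
  rw [h2] at this
  simpa using this

theorem sub (hf : HasExpG l π f ℓ) (hg : HasExpG l π g ℓ') :
    HasExpG l π (fun τ => f τ - g τ) (ℓ - ℓ') := by
  simpa [sub_eq_add_neg] using hf.add hg.neg

theorem pow (hf : HasExpG l π f ℓ) (n : ℕ) : HasExpG l π (fun τ => f τ ^ n) (ℓ ^ n) := by
  induction n with
  | zero => simpa using const (l := l) (π := π) 1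
  | succ n ih => simpa [pow_succ] using ih.mul hf

theorem eq_zero_iff [l.NeBot] (hπ : Tendsto π l (𝓝[≠] 0)) (h : HasExpG l π f ℓ) :
    ℓ = 0 ↔ f =ᶠ[l] 0 := by
  obtain ⟨k, H, hH, he, hs⟩ := h
  have hπ0 : Tendsto π l (𝓝 0) := hπ.mono_right nhdsWithin_le_nhds
  have hπne : ∀ᶠ τ in l, π τ ≠ 0 := hπ.eventually self_mem_nhdsWithin
  constructor
  · intro h0
    rw [h0, mul_zero] at hs
    have h1 : tay H = 0 :=
      HahnSeries.ofPowerSeries_injective (Γ := ℤ) (R := ℂ) (hs.symm.trans (map_zero _).symm)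
    have h2 := (tay_eq_zero_iff hH).1 h1
    filter_upwards [he, hπ0.eventually h2, hπne] with τ e1 e2 e3
    rw [e2] at e1
    simpa [e3] using e1
  · intro h0
    have h1 : ∀ᶠ τ in l, H (π τ) = 0 := by
      filter_upwards [he, h0] with τ e1 e2
      rw [← e1, e2]; simp
    have h2 : ∃ᶠ z in 𝓝[≠] (0 : ℂ), H z = 0 := hπ.frequently h1.frequently
    have h3 := hH.frequently_zero_iff_eventually_zero.1 h2
    have h4 : tay H = 0 := (tay_eq_zero_iff hH).2 h3
    rw [h4, map_zero] at hs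
    exact (mul_eq_zero.1 hs).resolve_left (oPS_X_pow_ne_zero k)

theorem unique [l.NeBot] (hπ : Tendsto π l (𝓝[≠] 0)) (h : HasExpG l π f ℓ)
    (h' : HasExpG l π f ℓ') : ℓ = ℓ' := by
  have := (eq_zero_iff hπ (h.sub h')).2 (Eventually.of_forall fun τ => by simp)
  exact sub_eq_zero.1 this

theorem inv (hπ : Tendsto π l (𝓝[≠] 0)) (h : HasExpG l π f ℓ) (hℓ : ℓ ≠ 0) :
    HasExpG l π (fun τ => (f τ)⁻¹) ℓ⁻¹ := by
  obtain ⟨k, H, hH, he, hs⟩ := h
  have hπ0 : Tendsto π l (𝓝 0) := hπ.mono_right nhdsWithin_le_nhds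
  have hπne : ∀ᶠ τ in l, π τ ≠ 0 := hπ.eventually self_mem_nhdsWithin
  have hT : tay H ≠ 0 := by
    intro h0
    rw [h0, map_zero] at hs
    exact hℓ ((mul_eq_zero.1 hs).resolve_left (oPS_X_pow_ne_zero k))
  obtain ⟨G, hG, hHG, hGp⟩ := exists_of_tay_eq_X_pow_mul hH (tay H).order.toNat
    (tay H).divXPowOrder PowerSeries.X_pow_order_mul_divXPowOrder.symm
  set r := (tay H).order.toNat
  have hG0 : G 0 ≠ 0 := by
    rw [← tay_constantCoeff G, hGp]
    exact fun h => hT (PowerSeries.constantCoeff_divXPowOrder_eq_zero_iff.1 h)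
  have hGi : AnalyticAt ℂ (fun z => (G z)⁻¹) 0 := hG.inv hG0
  have hid : AnalyticAt ℂ (fun z : ℂ => z) 0 := analyticAt_id
  have hidk : AnalyticAt ℂ (fun z : ℂ => z ^ k) 0 := hid.pow k
  have hGne : ∀ᶠ z in 𝓝 (0 : ℂ), G z ≠ 0 := hG.continuousAt.eventually_ne hG0
  refine ⟨r, fun z => z ^ k * (G z)⁻¹, hidk.mul hGi, ?_, ?_⟩
  · filter_upwards [he, hπne, hπ0.eventually hGne] with τ e1 e2 e3
    rw [hHG] at e1
    have hf0 : f τ ≠ 0 := by
      intro h0
      rw [h0, mul_zero] at e1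
      exact mul_ne_zero (pow_ne_zero r e2) e3 e1.symm
    field_simp
    rw [← e1]; ring
  · have h1 : tay (fun z => (G z)⁻¹) * tay G = 1 := by
      rw [← tay_mul hGi hG]
      have : (fun z => (G z)⁻¹ * G z) =ᶠ[𝓝 0] fun _ => (1 : ℂ) := by
        filter_upwards [hGne] with z hz
        exact inv_mul_cancel₀ hz
      rw [tay_congr this, tay_const]; simp
    have h2 : tay H = PowerSeries.X ^ r * tay G := by
      rw [hGp]; exact PowerSeries.X_pow_order_mul_divXPowOrder.symm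
    rw [tay_mul hidk hGi, tay_id_pow, map_mul]
    rw [h2, map_mul] at hs
    have h3 : oPS (tay fun z => (G z)⁻¹) * oPS (tay G) = 1 := by
      rw [← map_mul, h1, map_one]
    rw [mul_inv_eq_iff_eq_mul₀ hℓ]
    calc oPS (PowerSeries.X ^ r) = oPS (tay fun z => (G z)⁻¹) * (oPS (PowerSeries.X ^ r) * oPS (tay G)) := by
          rw [mul_left_comm, h3, mul_one]
      _ = _ := by rw [← hs]; ring

theorem div (hπ : Tendsto π l (𝓝[≠] 0)) (hf : HasExpG l π f ℓ) (hg : HasExpG l π g ℓ')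
    (hℓ : ℓ' ≠ 0) : HasExpG l π (fun τ => f τ / g τ) (ℓ / ℓ') := by
  simpa [div_eq_mul_inv] using hf.mul (hg.inv hπ hℓ)


/-- change of parameter `π (s τ) = c * π' τ ^ m` -/
theorem comp {β : Type*} {l' : Filter β} {π' : β → ℂ} {s : β → α} (h : HasExpG l π f ℓ)
    (hs : Tendsto s l' l) (c : ℂˣ) (m : ℕ) [NeZero m]
    (hc : ∀ᶠ τ in l', π (s τ) = c * π' τ ^ m) :
    HasExpG l' π' (fun τ => f (s τ)) (ModularCurve.qExpand ℂ m (rot c ℓ)) := by
  obtain ⟨k, H, hH, he, hser⟩ := h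
  have hm : 0 < m := Nat.pos_of_ne_zero (NeZero.ne m)
  have h1 := analyticAt_comp_mul_pow hH c hm
  have hcst : AnalyticAt ℂ (fun _ : ℂ => ((c : ℂ) ^ k)⁻¹) 0 := analyticAt_const
  refine ⟨m * k, fun z => ((c : ℂ) ^ k)⁻¹ * H (c * z ^ m), hcst.mul h1, ?_, ?_⟩
  · filter_upwards [hs.eventually he, hc] with τ e1 e2
    rw [← e2, ← e1, e2]
    have : (c : ℂ) ^ k ≠ 0 := pow_ne_zero k c.ne_zero
    field_simp
    ring
  · rw [tay_mul hcst h1, tay_const, map_mul, ofPowerSeries_tay_comp hH c m, ← hser, map_mul,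
      map_mul, HahnSeries.ofPowerSeries_X_pow, HahnSeries.ofPowerSeries_X_pow, rot_single,
      ModularCurve.qExpand_single, HahnSeries.ofPowerSeries_C, ← mul_assoc]
    have h2 : (HahnSeries.C ((c : ℂ) ^ k)⁻¹ : LaurentSeries ℂ) = HahnSeries.single 0 ((c : ℂ) ^ k)⁻¹ := rfl
    rw [h2, HahnSeries.single_mul_single]
    congr 2
    · push_cast; ring_nf
    · have : (c : ℂ) ^ k ≠ 0 := pow_ne_zero k c.ne_zero
      simp [this]

theorem exists_ge (h : HasExpG l π f ℓ) (K : ℕ) :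
    ∃ (k : ℕ) (H : ℂ → ℂ), K ≤ k ∧ AnalyticAt ℂ H 0 ∧ (∀ᶠ τ in l, π τ ^ k * f τ = H (π τ)) ∧
      oPS (PowerSeries.X ^ k) * ℓ = oPS (tay H) := by
  obtain ⟨k, H, hH, he, hs⟩ := h
  have hid : AnalyticAt ℂ (fun z : ℂ => z) 0 := analyticAt_id
  have hidk : AnalyticAt ℂ (fun z : ℂ => z ^ K) 0 := hid.pow K
  refine ⟨K + k, fun z => z ^ K * H z, Nat.le_add_right _ _, hidk.mul hH, ?_, ?_⟩
  · filter_upwards [he] with τ e1
    rw [← e1]; ring
  · rw [tay_mul hidk hH, tay_id_pow, map_mul, ← hs, pow_add, map_mul]; ring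

theorem tendsto_lead (hπ : Tendsto π l (𝓝[≠] 0)) (h : HasExpG l π f ℓ) (n : ℤ)
    (hn : ∀ m < n, ℓ.coeff m = 0) :
    Tendsto (fun τ => π τ ^ (-n) * f τ) l (𝓝 (ℓ.coeff n)) := by
  obtain ⟨k, H, hk, hH, he, hs⟩ := h.exists_ge (-n).toNat
  have hπ0 : Tendsto π l (𝓝 0) := hπ.mono_right nhdsWithin_le_nhds
  have hπne : ∀ᶠ τ in l, π τ ≠ 0 := hπ.eventually self_mem_nhdsWithin
  obtain ⟨r, hr⟩ : ∃ r : ℕ, (r : ℤ) = k + n := ⟨(k + n).toNat, by omega⟩
  have hcoef : ∀ i : ℕ, (tay H).coeff i = ℓ.coeff ((i : ℤ) - k) := by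
    intro i
    rw [← HahnSeries.ofPowerSeries_apply_coeff (Γ := ℤ), ← hs, HahnSeries.ofPowerSeries_X_pow,
      HahnSeries.coeff_single_mul, one_mul]
  have hdvd : PowerSeries.X ^ r ∣ tay H := by
    rw [PowerSeries.X_pow_dvd_iff]
    intro i hi
    rw [hcoef]
    exact hn _ (by omega)
  obtain ⟨p, hp⟩ := hdvd
  obtain ⟨G, hG, hHG, hGp⟩ := exists_of_tay_eq_X_pow_mul hH r p hp
  have hG0 : G 0 = ℓ.coeff n := by
    rw [← tay_coeff_zero G, hGp]
    have : (tay H).coeff r = p.coeff 0 := by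
      rw [hp]
      have := PowerSeries.coeff_X_pow_mul p r 0
      simpa using this
    rw [← this, hcoef]
    congr 1; omega
  rw [← hG0]
  refine (hG.continuousAt.tendsto.comp hπ0).congr' ?_
  filter_upwards [he, hπne] with τ e1 e2
  rw [hHG] at e1
  have h1 : f τ = π τ ^ (-(k : ℤ)) * (π τ ^ r * G (π τ)) := by
    rw [← e1, zpow_neg, zpow_natCast]
    field_simp
  rw [Function.comp, h1, ← zpow_natCast (π τ) r, ← mul_assoc, ← mul_assoc, ← zpow_add₀ e2,
    ← zpow_add₀ e2, hr]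
  simp

theorem order_eq [l.NeBot] (hπ : Tendsto π l (𝓝[≠] 0)) (h : HasExpG l π f ℓ) {n : ℤ} {c : ℂ}
    (hc : c ≠ 0) (hl : Tendsto (fun τ => π τ ^ (-n) * f τ) l (𝓝 c)) :
    ℓ ≠ 0 ∧ ℓ.order = n ∧ ℓ.coeff n = c := by
  have hπ0 : Tendsto π l (𝓝 0) := hπ.mono_right nhdsWithin_le_nhds
  have hπne : ∀ᶠ τ in l, π τ ≠ 0 := hπ.eventually self_mem_nhdsWithin
  have hℓ : ℓ ≠ 0 := by
    intro h0
    have h1 := (eq_zero_iff hπ h).1 h0
    have h2 : Tendsto (fun τ => π τ ^ (-n) * f τ) l (𝓝 0) := by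
      refine tendsto_const_nhds.congr' ?_
      filter_upwards [h1] with τ e1
      rw [e1]; simp
    exact hc (tendsto_nhds_unique hl h2)
  have ha : ℓ.coeff ℓ.order ≠ 0 := fun h0 => hℓ (HahnSeries.coeff_order_eq_zero.1 h0)
  have hm := h.tendsto_lead hπ ℓ.order (fun m hm => HahnSeries.coeff_eq_zero_of_lt_order hm)
  have hpow : ∀ j : ℤ, 0 < j → Tendsto (fun τ => π τ ^ j) l (𝓝 0) := by
    intro j hj
    lift j to ℕ using hj.le
    have hj' : j ≠ 0 := by rintro rfl; simp at hj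
    simpa [hj'] using hπ0.pow j
  have key : ∀ (a b : ℤ) (A B : ℂ), a < b → Tendsto (fun τ => π τ ^ (-a) * f τ) l (𝓝 A) →
      Tendsto (fun τ => π τ ^ (-b) * f τ) l (𝓝 B) → A = 0 := by
    intro a b A B hab hA hB
    have h1 := (hpow (b - a) (by omega)).mul hB
    rw [zero_mul] at h1
    refine tendsto_nhds_unique hA (h1.congr' ?_)
    filter_upwards [hπne] with τ e
    rw [← mul_assoc, ← zpow_add₀ e]
    congr 2; ring
  have hord : ℓ.order = n := by
    rcases lt_trichotomy ℓ.order n with h1 | h1 | h1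
    · exact absurd (key _ _ _ _ h1 hm hl) ha
    · exact h1
    · exact absurd (key _ _ _ _ h1 hl hm) hc
  refine ⟨hℓ, hord, ?_⟩
  rw [hord] at hm
  exact tendsto_nhds_unique hm hl

theorem mvPolynomial {ι : Type*} {F : ι → α → ℂ} {L : ι → LaurentSeries ℂ}
    (h : ∀ i, HasExpG l π (F i) (L i)) (P : MvPolynomial ι ℂ) :
    HasExpG l π (fun τ => MvPolynomial.eval (fun i => F i τ) P)
      (MvPolynomial.eval₂ HahnSeries.C L P) := by
  induction P using MvPolynomial.induction_on with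
  | C a => simpa using const (l := l) (π := π) a
  | add p q hp hq => simpa using hp.add hq
  | mul_X p i hp => simpa using hp.mul (h i)

end HasExpG

end Fermat.Agent.S24Lib
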