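import Mathlib

set_option autoImplicit false
open HahnSeries

namespace Fermat.Agent.S24Lib

variable {L : Type*} [Field L]

/-- The formal derivative of a Laurent series. -/
noncomputable def lder (f : LaurentSeries L) : LaurentSeries L := LaurentSeries.hasseDeriv L 1 f

theorem lder_coeff (f : LaurentSeries L) (n : ℤ) :
    (lder f).coeff n = ((n + 1 : ℤ) : L) * f.coeff (n + 1) := by
  rw [lder, LaurentSeries.hasseDeriv_coeff]
  simp

theorem lder_add (f g : LaurentSeries L) : lder (f + g) = lder f + lder g := by
  rw [lder, map_add]; rfl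

theorem lder_single_mul (k : ℤ) (f : LaurentSeries L) :
    lder (single k (1 : L) * f) = single k (1 : L) * lder f + single (k - 1) (k : L) * f := by
  ext n
  rw [lder_coeff, coeff_add, coeff_single_mul, coeff_single_mul, coeff_single_mul, lder_coeff]
  have h1 : n + 1 - k = n - k + 1 := by ring
  have h2 : n - (k - 1) = n - k + 1 := by ring
  rw [h1, h2]
  push_cast
  ring

theorem lder_ofPowerSeries (p : PowerSeries L) :
    lder (ofPowerSeries ℤ L p) = ofPowerSeries ℤ L (PowerSeries.derivative L p) := by
  ext n
  rw [lder_coeff]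
  rcases lt_or_ge n 0 with hn | hn
  · have h0 : (ofPowerSeries ℤ L (PowerSeries.derivative L p)).coeff n = 0 := by
      rw [ofPowerSeries_apply]
      refine embDomain_of_notMem_range ?_
      rintro ⟨m, rfl⟩
      exact absurd hn (not_lt.mpr (Int.natCast_nonneg m))
    rw [h0]
    rcases eq_or_lt_of_le (Int.add_one_le_iff.2 hn) with h1 | h1
    · rw [h1]; simp
    · have h2 : (ofPowerSeries ℤ L p).coeff (n + 1) = 0 := by
        rw [ofPowerSeries_apply]
        refine embDomain_of_notMem_range ?_
        rintro ⟨m, hm⟩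
        have : (0 : ℤ) ≤ n + 1 := by
          rw [← hm]; exact Int.natCast_nonneg m
        omega
      rw [h2, mul_zero]
  · obtain ⟨m, rfl⟩ := Int.eq_ofNat_of_zero_le hn
    have h1 : ((m : ℤ) + 1) = ((m + 1 : ℕ) : ℤ) := by push_cast; ring
    rw [ofPowerSeries_apply_coeff, PowerSeries.coeff_derivative, h1, ofPowerSeries_apply_coeff]
    push_cast
    ring

theorem lder_mul (f g : LaurentSeries L) : lder (f * g) = f * lder g + g * lder f := by
  obtain ⟨a, F, rfl⟩ : ∃ (a : ℤ) (F : PowerSeries L), f = single a (1 : L) * ofPowerSeries ℤ L F :=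
    ⟨_, _, (LaurentSeries.single_order_mul_powerSeriesPart f).symm⟩
  obtain ⟨b, G, rfl⟩ : ∃ (b : ℤ) (G : PowerSeries L), g = single b (1 : L) * ofPowerSeries ℤ L G :=
    ⟨_, _, (LaurentSeries.single_order_mul_powerSeriesPart g).symm⟩
  have h1 : single a (1 : L) * ofPowerSeries ℤ L F * (single b (1 : L) * ofPowerSeries ℤ L G)
      = single (a + b) (1 : L) * ofPowerSeries ℤ L (F * G) := by
    rw [map_mul, ← mul_one (1 : L), ← single_mul_single, mul_one]
    ring
  rw [h1, lder_single_mul, lder_single_mul, lder_single_mul, lder_ofPowerSeries,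
    lder_ofPowerSeries, lder_ofPowerSeries, Derivation.leibniz, map_add, smul_eq_mul, smul_eq_mul,
    map_mul, map_mul, map_mul]
  have h2 : single (a + b) (1 : L) = single a (1 : L) * single b (1 : L) := by
    rw [single_mul_single, mul_one]
  have h3 : single (a + b - 1) ((a + b : ℤ) : L)
      = single a (1 : L) * single (b - 1) (b : L) + single b (1 : L) * single (a - 1) (a : L) := by
    rw [single_mul_single, single_mul_single, one_mul, one_mul]
    have e1 : a + (b - 1) = a + b - 1 := by ring
    have e2 : b + (a - 1) = a + b - 1 := by ring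
    rw [e1, e2, ← single_add]
    congr 1
    push_cast
    ring
  rw [h2, h3]
  ring

theorem lder_C (c : L) : lder (HahnSeries.C c : LaurentSeries L) = 0 := by
  ext n
  rw [lder_coeff, coeff_zero, HahnSeries.C_apply, coeff_single]
  split_ifs with h
  · rw [h]; simp
  · simp

theorem lder_ne_zero [CharZero L] (f : LaurentSeries L) (hf : f.order ≠ 0) : lder f ≠ 0 := by
  intro h
  have hf0 : f ≠ 0 := by
    rintro rfl
    simp at hf
  have h1 := lder_coeff f (f.order - 1)
  rw [h, coeff_zero, sub_add_cancel] at h1
  rcases mul_eq_zero.1 h1.symm with h2 | h2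
  · exact hf (by exact_mod_cast h2)
  · exact hf0 (coeff_order_eq_zero.1 h2)

theorem order_lder [CharZero L] (f : LaurentSeries L) (hf : f.order ≠ 0) :
    (lder f).order = f.order - 1 := by
  have hf0 : f ≠ 0 := by
    rintro rfl
    simp at hf
  apply le_antisymm
  · apply order_le_of_coeff_ne_zero
    rw [lder_coeff, sub_add_cancel]
    exact mul_ne_zero (by exact_mod_cast hf) (fun h => hf0 (coeff_order_eq_zero.1 h))
  · have h1 : (lder f).coeff (lder f).order ≠ 0 :=
      fun h => lder_ne_zero f hf (coeff_order_eq_zero.1 h)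
    rw [lder_coeff] at h1
    have h2 := order_le_of_coeff_ne_zero (right_ne_zero_of_mul h1)
    omega

end Fermat.Agent.S24Lib
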