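import Mathlib

set_option autoImplicit false

namespace Fermat.Agent.S24Lib

section Taylor

variable {K A : Type*} [Field K] [CommRing A] [Algebra K A] (π : A)

/-- `p` is a `π`-adic expansion of `x`. -/
def IsExp (x : A) (p : PowerSeries K) : Prop :=
  ∀ n : ℕ, ∃ P : Polynomial K, (PowerSeries.X : PowerSeries K) ^ n ∣ (P : PowerSeries K) - p ∧
    π ^ n ∣ x - Polynomial.aeval π P

variable {π}

theorem IsExp.add {x y : A} {p q : PowerSeries K} (hx : IsExp π x p) (hy : IsExp π y q) :
    IsExp π (x + y) (p + q) := by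
  intro n
  obtain ⟨P, hP1, hP2⟩ := hx n
  obtain ⟨Q, hQ1, hQ2⟩ := hy n
  refine ⟨P + Q, ?_, ?_⟩
  · have := dvd_add hP1 hQ1
    rw [Polynomial.coe_add]
    convert this using 1
    ring
  · have := dvd_add hP2 hQ2
    rw [map_add]
    convert this using 1
    ring

theorem IsExp.mul {x y : A} {p q : PowerSeries K} (hx : IsExp π x p) (hy : IsExp π y q) :
    IsExp π (x * y) (p * q) := by
  intro n
  obtain ⟨P, hP1, hP2⟩ := hx n
  obtain ⟨Q, hQ1, hQ2⟩ := hy n
  refine ⟨P * Q, ?_, ?_⟩
  · have := dvd_add (Dvd.dvd.mul_left hQ1 (P : PowerSeries K)) (Dvd.dvd.mul_right hP1 q)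
    rw [Polynomial.coe_mul]
    convert this using 1
    ring
  · have := dvd_add (Dvd.dvd.mul_left hQ2 x) (Dvd.dvd.mul_right hP2 (Polynomial.aeval π Q))
    rw [map_mul]
    convert this using 1
    ring

theorem isExp_algebraMap (c : K) : IsExp π (algebraMap K A c) (PowerSeries.C c) := by
  intro n
  refine ⟨Polynomial.C c, ?_, ?_⟩
  · simp
  · simp

theorem isExp_self : IsExp π π (PowerSeries.X : PowerSeries K) := by
  intro n
  refine ⟨Polynomial.X, ?_, ?_⟩
  · simp
  · simp

theorem X_pow_dvd_of_dvd_aeval [IsDomain A] (hπ0 : π ≠ 0) (hnu : ¬ IsUnit π) (n : ℕ) :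
    ∀ Q : Polynomial K, π ^ n ∣ Polynomial.aeval π Q → (Polynomial.X : Polynomial K) ^ n ∣ Q := by
  induction n with
  | zero => intro Q _; simp
  | succ n ih =>
    intro Q hQ
    have hdec := Polynomial.divX_mul_X_add Q
    have h1 : π ∣ Polynomial.aeval π Q := dvd_trans (dvd_pow_self π (Nat.succ_ne_zero n)) hQ
    have h2 : Polynomial.aeval π Q = Polynomial.aeval π Q.divX * π + algebraMap K A (Q.coeff 0) := by
      conv_lhs => rw [← hdec]
      simp
    have h3 : π ∣ algebraMap K A (Q.coeff 0) := by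
      rw [h2] at h1
      exact (dvd_add_right (Dvd.intro_left _ rfl)).1 h1
    have h4 : Q.coeff 0 = 0 := by
      by_contra hne
      exact hnu (isUnit_of_dvd_unit h3 ((IsUnit.mk0 _ hne).map (algebraMap K A)))
    rw [h4, map_zero, add_zero] at h2
    rw [h2, pow_succ] at hQ
    have h5 : π ^ n ∣ Polynomial.aeval π Q.divX := (mul_dvd_mul_iff_right hπ0).1 hQ
    have h6 := ih _ h5
    rw [← hdec, h4, map_zero, add_zero, pow_succ]
    exact mul_dvd_mul_right h6 _

theorem coe_X_pow_dvd_iff (n : ℕ) (Q : Polynomial K) :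
    (PowerSeries.X : PowerSeries K) ^ n ∣ (Q : PowerSeries K) ↔
      (Polynomial.X : Polynomial K) ^ n ∣ Q := by
  rw [PowerSeries.X_pow_dvd_iff, Polynomial.X_pow_dvd_iff]
  simp

theorem IsExp.unique [IsDomain A] (hπ0 : π ≠ 0) (hnu : ¬ IsUnit π) {x : A} {p q : PowerSeries K}
    (hp : IsExp π x p) (hq : IsExp π x q) : p = q := by
  have key : ∀ n, (PowerSeries.X : PowerSeries K) ^ n ∣ p - q := by
    intro n
    obtain ⟨P, hP1, hP2⟩ := hp n
    obtain ⟨Q, hQ1, hQ2⟩ := hq n
    have h1 : π ^ n ∣ Polynomial.aeval π (P - Q) := by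
      have := dvd_sub hQ2 hP2
      rw [map_sub]
      convert this using 1
      ring
    have h2 := (coe_X_pow_dvd_iff n _).2 (X_pow_dvd_of_dvd_aeval hπ0 hnu n _ h1)
    rw [Polynomial.coe_sub] at h2
    have := dvd_add (dvd_sub h2 hP1) hQ1
    convert this using 1
    ring
  rw [← sub_eq_zero]
  ext m
  have := (PowerSeries.X_pow_dvd_iff.1 (key (m + 1))) m (Nat.lt_succ_self m)
  simpa using this

theorem exists_isExp (hres : ∀ x : A, ∃ c : K, π ∣ x - algebraMap K A c) (x : A) :
    ∃ p : PowerSeries K, IsExp π x p := by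
  choose c hc using hres
  choose r hr using hc
  set p : PowerSeries K := PowerSeries.mk fun n => c (r^[n] x) with hp
  have key : ∀ n, x - Polynomial.aeval π (p.trunc n) = π ^ n * r^[n] x := by
    intro n
    induction n with
    | zero => simp
    | succ n ih =>
      rw [PowerSeries.trunc_succ, map_add, ← sub_sub, ih, Polynomial.aeval_monomial, hp,
        PowerSeries.coeff_mk, Function.iterate_succ_apply', pow_succ, mul_assoc, ← hr]
      ring
  refine ⟨p, fun n => ⟨p.trunc n, ?_, ?_⟩⟩
  · rw [PowerSeries.X_pow_dvd_iff]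
    intro m hm
    rw [map_sub, Polynomial.coeff_coe, PowerSeries.coeff_trunc, if_pos hm, sub_self]
  · rw [key]
    exact Dvd.intro _ rfl

/-- The Taylor expansion ring homomorphism. -/
theorem exists_taylor [IsDomain A] (hπ0 : π ≠ 0) (hnu : ¬ IsUnit π)
    (hres : ∀ x : A, ∃ c : K, π ∣ x - algebraMap K A c) :
    ∃ T : A →+* PowerSeries K, (∀ c, T (algebraMap K A c) = PowerSeries.C c) ∧
      T π = PowerSeries.X ∧ ∀ x n, (PowerSeries.X : PowerSeries K) ^ n ∣ T x → π ^ n ∣ x := by
  choose T hT using exists_isExp (K := K) hres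
  have hc : ∀ c, T (algebraMap K A c) = PowerSeries.C c := fun c =>
    (hT _).unique hπ0 hnu (isExp_algebraMap c)
  refine ⟨{ toFun := T
            map_one' := by
              have := hc 1
              simpa using this
            map_zero' := by
              have := hc 0
              simpa using this
            map_add' := fun x y => (hT _).unique hπ0 hnu ((hT x).add (hT y))
            map_mul' := fun x y => (hT _).unique hπ0 hnu ((hT x).mul (hT y)) }, hc,
          (hT _).unique hπ0 hnu isExp_self, ?_⟩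
  intro x n hx
  change (PowerSeries.X : PowerSeries K) ^ n ∣ T x at hx
  obtain ⟨P, hP1, hP2⟩ := hT x n
  have h1 : (PowerSeries.X : PowerSeries K) ^ n ∣ (P : PowerSeries K) := by
    have := dvd_add hP1 hx
    simpa using this
  obtain ⟨Q, hQ⟩ := (coe_X_pow_dvd_iff n P).1 h1
  have h2 : π ^ n ∣ Polynomial.aeval π P := by
    rw [hQ]
    simp
  have := dvd_add hP2 h2
  simpa using this

end Taylor

end Fermat.Agent.S24Lib
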