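import Mathlib
import Fermat.Prelude.Def_AlgebraicCurve_CanonicalDivisor
import Fermat.Agent.S24.Taylor

set_option autoImplicit false
open AlgebraicCurve

namespace Fermat.Agent.S24Lib

variable {K F : Type*} [Field K] [Field F] [Algebra K F]

theorem kae_ord_nonneg (v : Place K F) (x : v.toValuationSubring) : 0 ≤ v.ord (x : F) := by
  obtain ⟨π, hπ⟩ := IsDiscreteValuationRing.exists_irreducible v.toValuationSubring
  rcases eq_or_ne x 0 with rfl | hx
  · simp
  · obtain ⟨n, u, hu⟩ := IsDiscreteValuationRing.eq_unit_mul_pow_irreducible hx hπ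
    have := v.ord_unit_smul_zpow u hπ (n : ℤ)
    rw [hu]
    push_cast
    rw [zpow_natCast] at this
    rw [this]
    exact Int.natCast_nonneg n

theorem kae_dvd_of_ord_pos (v : Place K F) {π : v.toValuationSubring} (hπ : Irreducible π)
    (x : v.toValuationSubring) (hx : 0 < v.ord (x : F)) : π ∣ x := by
  have hx0 : (x : F) ≠ 0 := by
    intro h
    rw [h] at hx
    simp at hx
  obtain ⟨u, hu⟩ := v.exists_unit_mul_zpow hx0 hπ
  obtain ⟨n, hn⟩ := Int.eq_ofNat_of_zero_le hx.le
  have hn0 : n ≠ 0 := by
    rintro rfl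
    rw [hn] at hx
    simp at hx
  rw [hn, zpow_natCast] at hu
  have : x = u * π ^ n := Subtype.ext (by rw [hu]; push_cast; rfl)
  rw [this]
  exact Dvd.dvd.mul_left (dvd_pow_self π hn0) _

theorem order_ofPowerSeries_of_isUnit (p : PowerSeries K) (hp : IsUnit p) :
    (HahnSeries.ofPowerSeries ℤ K p).order = 0 := by
  have h0 : PowerSeries.constantCoeff p ≠ 0 := (PowerSeries.isUnit_iff_constantCoeff.1 hp).ne_zero
  have hc : (HahnSeries.ofPowerSeries ℤ K p).coeff ((0 : ℕ) : ℤ) ≠ 0 := by
    rw [HahnSeries.ofPowerSeries_apply_coeff]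
    simpa using h0
  apply le_antisymm
  · exact HahnSeries.order_le_of_coeff_ne_zero (by simpa using hc)
  · have hne : HahnSeries.ofPowerSeries ℤ K p ≠ 0 := by
      intro h
      rw [h] at hc
      simp at hc
    by_contra hlt
    push Not at hlt
    have h1 : (HahnSeries.ofPowerSeries ℤ K p).coeff (HahnSeries.ofPowerSeries ℤ K p).order ≠ 0 :=
      fun h => hne (HahnSeries.coeff_order_eq_zero.1 h)
    apply h1
    rw [HahnSeries.ofPowerSeries_apply]
    refine HahnSeries.embDomain_of_notMem_range ?_
    rintro ⟨m, hm⟩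
    have : (0 : ℤ) ≤ (HahnSeries.ofPowerSeries ℤ K p).order := by
      rw [HahnSeries.ofPowerSeries_apply, ← hm]
      exact Int.natCast_nonneg m
    omega

/-- The Taylor expansion at a place with residue field `K`. -/
theorem exists_taylor_place (v : Place K F)
    (hres : ∀ f : F, 0 ≤ v.ord f →
      ∃ c : K, f = algebraMap K F c ∨ 0 < v.ord (f - algebraMap K F c)) :
    ∃ ι : F →+* LaurentSeries K, (∀ c, ι (algebraMap K F c) = HahnSeries.C c) ∧
      ∀ f, f ≠ 0 → (ι f).order = v.ord f := by
  obtain ⟨π, hπ⟩ := IsDiscreteValuationRing.exists_irreducible v.toValuationSubring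
  have hπ0 := hπ.ne_zero
  have hnu := hπ.not_isUnit
  have hres' : ∀ x : v.toValuationSubring,
      ∃ c : K, π ∣ x - algebraMap K v.toValuationSubring c := by
    intro x
    obtain ⟨c, hc | hc⟩ := hres x (kae_ord_nonneg v x)
    · refine ⟨c, ?_⟩
      rw [show x = algebraMap K v.toValuationSubring c from Subtype.ext hc, sub_self]
      exact dvd_zero _
    · exact ⟨c, kae_dvd_of_ord_pos v hπ _ hc⟩
  obtain ⟨T, hTc, hTπ, hTdvd⟩ := exists_taylor hπ0 hnu hres'
  have hTinj : Function.Injective T := by
    rw [injective_iff_map_eq_zero]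
    intro x hx
    by_contra hx0
    obtain ⟨n, hn⟩ := FiniteMultiplicity.of_not_isUnit hnu hx0
    exact hn (hTdvd x (n + 1) (by rw [hx]; exact dvd_zero _))
  set g : v.toValuationSubring →+* LaurentSeries K := (HahnSeries.ofPowerSeries ℤ K).comp T with hg
  have hginj : Function.Injective g := by
    rw [hg, RingHom.coe_comp]
    exact HahnSeries.ofPowerSeries_injective.comp hTinj
  set ι : F →+* LaurentSeries K := IsFractionRing.lift hginj with hι
  have hιg : ∀ x : v.toValuationSubring, ι (x : F) = g x := fun x =>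
    IsFractionRing.lift_algebraMap hginj x
  refine ⟨ι, ?_, ?_⟩
  · intro c
    have := hιg (algebraMap K v.toValuationSubring c)
    rw [v.coe_algebraMap] at this
    rw [this, hg, RingHom.comp_apply, hTc, HahnSeries.ofPowerSeries_C]
  · intro f hf
    obtain ⟨u, hu⟩ := v.exists_unit_mul_zpow hf hπ
    conv_lhs => rw [hu]
    rw [map_mul, map_zpow₀, hιg, hιg]
    have h1 : g π = HahnSeries.single 1 1 := by
      rw [hg, RingHom.comp_apply, hTπ, HahnSeries.ofPowerSeries_X]
    have h2 : (g u).order = 0 := by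
      rw [hg, RingHom.comp_apply]
      exact order_ofPowerSeries_of_isUnit _ (u.isUnit.map T)
    have h3 : g u ≠ 0 := by
      rw [Ne, map_eq_zero_iff g hginj]
      exact u.ne_zero
    rw [h1, ← RatFunc.single_zpow, HahnSeries.order_mul h3 (by simp), h2,
      HahnSeries.order_single (by simp)]
    simp

end Fermat.Agent.S24Lib
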