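import Mathlib
import Fermat.Prelude.Def_AlgebraicCurve_CanonicalDivisor
import Fermat.Agent.S24.LaurentDeriv
import Fermat.Agent.S24.TaylorPlace

set_option autoImplicit false
open HahnSeries KaehlerDifferential AlgebraicCurve IntermediateField

namespace Fermat.Agent.S24Lib

variable {K F : Type*} [Field K] [Field F] [Algebra K F]

/-- The elements whose differential is a multiple of `ω`. -/
def kdField (ω : Ω[F⁄K]) : IntermediateField K F where
  carrier := {x | D K F x ∈ Submodule.span F {ω}}
  mul_mem' := by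
    intro a b ha hb
    simp only [Set.mem_ofPred_eq] at *
    rw [Derivation.leibniz]
    exact Submodule.add_mem _ (Submodule.smul_mem _ _ hb) (Submodule.smul_mem _ _ ha)
  add_mem' := by
    intro a b ha hb
    simp only [Set.mem_ofPred_eq] at *
    rw [map_add]
    exact Submodule.add_mem _ ha hb
  algebraMap_mem' := by
    intro c
    simp only [Set.mem_ofPred_eq]
    rw [Derivation.map_algebraMap]
    exact Submodule.zero_mem _
  inv_mem' := by
    intro a ha
    simp only [Set.mem_ofPred_eq] at *
    rw [Derivation.leibniz_inv]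
    exact Submodule.smul_mem _ _ ha

theorem mem_kdField {ω : Ω[F⁄K]} {x : F} :
    x ∈ kdField ω ↔ D K F x ∈ Submodule.span F {ω} := Iff.rfl

theorem kd_eval (ω : Ω[F⁄K]) (x : F) (q : Polynomial F) (hq : ∀ i, q.coeff i ∈ kdField ω) :
    D K F (q.eval x) - (q.derivative.eval x) • D K F x ∈ Submodule.span F {ω} := by
  rw [Polynomial.eval_eq_sum_range, Polynomial.derivative_eval, Polynomial.sum_over_range' _ (by simp) (q.natDegree + 1) (Nat.lt_succ_self _), map_sum,
    Finset.sum_smul, ← Finset.sum_sub_distrib]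
  refine Submodule.sum_mem _ fun i _ => ?_
  rw [Derivation.leibniz, Derivation.leibniz_pow]
  have : q.coeff i • i • x ^ (i - 1) • D K F x + x ^ i • D K F (q.coeff i)
      - (q.coeff i * i * x ^ (i - 1)) • D K F x = x ^ i • D K F (q.coeff i) := by
    rw [← Nat.cast_smul_eq_nsmul F, smul_smul, smul_smul]
    abel
  rw [this]
  exact Submodule.smul_mem _ _ (hq i)

/-- If `F` is algebraic over `K(t)` (characteristic zero), `dt` spans the Kähler differentials. -/
theorem D_mem_span [CharZero K] (t : F) (halg : Algebra.IsAlgebraic K⟮t⟯ F) (x : F) :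
    D K F x ∈ Submodule.span F {D K F t} := by
  set ω := D K F t with hω
  have ht : t ∈ kdField ω := Submodule.mem_span_singleton_self _
  have hle : K⟮t⟯ ≤ kdField ω := by
    rw [adjoin_le_iff]
    exact Set.singleton_subset_iff.2 ht
  have hint : IsIntegral K⟮t⟯ x := (halg.isAlgebraic x).isIntegral
  set p := minpoly K⟮t⟯ x with hp
  set q := p.map (algebraMap K⟮t⟯ F) with hq
  have hcoeff : ∀ i, q.coeff i ∈ kdField ω := by
    intro i
    rw [hq, Polynomial.coeff_map]
    exact hle (p.coeff i).2
  have h1 := kd_eval ω x q hcoeff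
  have h2 : q.eval x = 0 := by
    rw [hq, Polynomial.eval_map_algebraMap, hp, minpoly.aeval]
  have hsep : p.Separable := (minpoly.irreducible hint).separable
  have h3 : q.derivative.eval x ≠ 0 := by
    rw [hq, Polynomial.derivative_map, Polynomial.eval_map_algebraMap]
    exact hsep.aeval_derivative_ne_zero (minpoly.aeval _ _)
  rw [h2, map_zero, zero_sub] at h1
  have h4 := Submodule.smul_mem _ (-(q.derivative.eval x)⁻¹) h1
  rwa [smul_neg, neg_smul, neg_neg, smul_smul, inv_mul_cancel₀ h3, one_smul] at h4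

theorem span_D_eq_top [CharZero K] (t : F) (halg : Algebra.IsAlgebraic K⟮t⟯ F) :
    Submodule.span F {D K F t} = ⊤ := by
  rw [eq_top_iff, ← KaehlerDifferential.span_range_derivation, Submodule.span_le]
  rintro _ ⟨x, rfl⟩
  exact D_mem_span t halg x

theorem exists_kaehler_functional {L : Type*} [Field L] (ι : F →+* LaurentSeries L)
    (hι : ∀ c : K, lder (ι (algebraMap K F c)) = 0) :
    ∃ Λ : Ω[F⁄K] →+ LaurentSeries L, (∀ (g : F) (ω : Ω[F⁄K]), Λ (g • ω) = ι g * Λ ω) ∧
      ∀ x, Λ (D K F x) = lder (ι x) := by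
  let _ : Module F (LaurentSeries L) := Module.compHom _ ι
  let _ : Module K (LaurentSeries L) := Module.compHom _ (ι.comp (algebraMap K F))
  have hF : ∀ (g : F) (m : LaurentSeries L), g • m = ι g * m := fun _ _ => rfl
  have hK : ∀ (c : K) (m : LaurentSeries L), c • m = ι (algebraMap K F c) * m := fun _ _ => rfl
  have : IsScalarTower K F (LaurentSeries L) := ⟨fun c g m => by
    rw [hF, hK, hF, Algebra.smul_def, map_mul, mul_assoc]⟩
  let lin : F →ₗ[K] LaurentSeries L :=
    { toFun := fun x => lder (ι x)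
      map_add' := fun x y => by rw [map_add, lder_add]
      map_smul' := fun c x => by
        rw [Algebra.smul_def, map_mul, lder_mul, hι, mul_zero, add_zero, RingHom.id_apply, hK] }
  let δ : Derivation K F (LaurentSeries L) := Derivation.mk' lin (fun a b => by
    change lder (ι (a * b)) = a • lder (ι b) + b • lder (ι a)
    rw [map_mul, lder_mul, hF, hF])
  refine ⟨δ.liftKaehlerDifferential.toAddMonoidHom, fun g ω => ?_, fun x => ?_⟩
  · change δ.liftKaehlerDifferential (g • ω) = _
    rw [map_smul, hF]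
    rfl
  · change δ.liftKaehlerDifferential (D K F x) = _
    rw [Derivation.liftKaehlerDifferential_comp_D]
    rfl

/-- An element whose expansion has non-zero order has non-zero differential. -/
theorem D_ne_zero_of_ringHom {L : Type*} [Field L] [CharZero L] (ι : F →+* LaurentSeries L)
    (hι : ∀ c : K, lder (ι (algebraMap K F c)) = 0) {s : F} (hs : (ι s).order ≠ 0) :
    D K F s ≠ 0 := by
  obtain ⟨Λ, -, hΛ⟩ := exists_kaehler_functional ι hι
  intro h
  have := hΛ s
  rw [h, map_zero] at this
  exact lder_ne_zero _ hs this.symm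

/-- The local computation of `ds/dt` through an expansion. -/
theorem ord_coeff_of_ringHom {L : Type*} [Field L] [CharZero L] (v : Place K F)
    (ι : F →+* LaurentSeries L) (hι : ∀ c : K, lder (ι (algebraMap K F c)) = 0)
    (m : ℤ) (hm : m ≠ 0) (hord : ∀ f, f ≠ 0 → (ι f).order = m * v.ord f)
    {s t f : F} (hs : v.ord s ≠ 0) (ht : v.ord t ≠ 0) (h : D K F s = f • D K F t) :
    v.ord f = v.ord s - v.ord t := by
  obtain ⟨Λ, hΛ1, hΛ2⟩ := exists_kaehler_functional ι hι
  have hs0 : s ≠ 0 := by rintro rfl; simp at hs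
  have ht0 : t ≠ 0 := by rintro rfl; simp at ht
  have hs1 : (ι s).order ≠ 0 := by rw [hord s hs0]; exact mul_ne_zero hm hs
  have ht1 : (ι t).order ≠ 0 := by rw [hord t ht0]; exact mul_ne_zero hm ht
  have h1 : lder (ι s) = ι f * lder (ι t) := by
    rw [← hΛ2, ← hΛ2, h, hΛ1]
  have hf0 : f ≠ 0 := by
    rintro rfl
    rw [map_zero, zero_mul] at h1
    exact lder_ne_zero _ hs1 h1
  have h2 := congrArg HahnSeries.order h1
  rw [HahnSeries.order_mul ((map_ne_zero ι).2 hf0) (lder_ne_zero _ ht1), order_lder _ hs1,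
    order_lder _ ht1, hord s hs0, hord t ht0, hord f hf0] at h2
  have h3 : m * (v.ord f - (v.ord s - v.ord t)) = 0 := by linarith
  rcases mul_eq_zero.1 h3 with h4 | h4
  · exact absurd h4 hm
  · linarith

section Core

variable [CharZero K] (v : Place K F)

omit [CharZero K] in
theorem dCoord_eq : v.dCoord =
    D K F ((IsDiscreteValuationRing.exists_irreducible v.toValuationSubring).choose : F) := rfl

omit [CharZero K] in
theorem ord_choose_irreducible :
    v.ord ((IsDiscreteValuationRing.exists_irreducible v.toValuationSubring).choose : F) = 1 :=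
  v.ord_coe_irreducible (IsDiscreteValuationRing.exists_irreducible v.toValuationSubring).choose_spec

theorem dCoordGenerates_of (halg : ∀ t : F, v.ord t ≠ 0 → Algebra.IsAlgebraic K⟮t⟯ F) :
    v.DCoordGenerates :=
  ⟨by
    rw [dCoord_eq]
    exact span_D_eq_top _ (halg _ (by rw [ord_choose_irreducible]; exact one_ne_zero))⟩

theorem nontrivial_kaehler_of
    (hres : ∀ f : F, 0 ≤ v.ord f →
      ∃ c : K, f = algebraMap K F c ∨ 0 < v.ord (f - algebraMap K F c)) :
    Nontrivial Ω[F⁄K] := by
  obtain ⟨ι, hι1, hι2⟩ := exists_taylor_place v hres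
  have h1 := ord_choose_irreducible v
  set π : F := ((IsDiscreteValuationRing.exists_irreducible v.toValuationSubring).choose : F)
  have hπ0 : π ≠ 0 := by
    intro h
    rw [h] at h1
    simp at h1
  refine ⟨D K F π, 0, D_ne_zero_of_ringHom ι (fun c => by rw [hι1, lder_C]) ?_⟩
  rw [hι2 π hπ0, h1]
  exact one_ne_zero

theorem ordDifferential_D_of (halg : ∀ t : F, v.ord t ≠ 0 → Algebra.IsAlgebraic K⟮t⟯ F)
    (hres : ∀ f : F, 0 ≤ v.ord f →
      ∃ c : K, f = algebraMap K F c ∨ 0 < v.ord (f - algebraMap K F c))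
    {s : F} (hs : v.ord s ≠ 0) : v.ordDifferential (D K F s) = v.ord s - 1 := by
  have := dCoordGenerates_of v halg
  obtain ⟨ι, hι1, hι2⟩ := exists_taylor_place v hres
  have h1 := (v.differentialCoeff_smul_dCoord (D K F s)).symm
  rw [dCoord_eq] at h1
  have h2 := ord_coeff_of_ringHom v ι (fun c => by rw [hι1, lder_C]) 1 one_ne_zero
    (fun f hf => by rw [hι2 f hf, one_mul]) hs
    (by rw [ord_choose_irreducible]; exact one_ne_zero) h1
  rw [Place.ordDifferential, h2, ord_choose_irreducible]

theorem ordDifferential_smul_of (halg : ∀ t : F, v.ord t ≠ 0 → Algebra.IsAlgebraic K⟮t⟯ F)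
    (hres : ∀ f : F, 0 ≤ v.ord f →
      ∃ c : K, f = algebraMap K F c ∨ 0 < v.ord (f - algebraMap K F c))
    {g : F} (hg : g ≠ 0) {ω : Ω[F⁄K]} (hω : ω ≠ 0) :
    v.ordDifferential (g • ω) = v.ord g + v.ordDifferential ω := by
  have := dCoordGenerates_of v halg
  have := nontrivial_kaehler_of v hres
  refine v.ordDifferential_smul hg ?_
  intro h
  apply hω
  rw [← v.differentialCoeff_smul_dCoord ω, h, zero_smul]

end Core

end Fermat.Agent.S24Lib
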