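import Fermat.Agent.S24.Kaehler
import Fermat.Agent.S24.Dict2

set_option autoImplicit false
open HahnSeries KaehlerDifferential AlgebraicCurve IntermediateField

namespace Fermat.Agent.S24Lib

variable {K F : Type*} [Field K] [IsAlgClosed K] [CharZero K] [Field F] [Algebra K F]

omit [CharZero K] in
theorem transcendental_of_ord_ne_zero (v : Place K F) {t : F} (ht : v.ord t ≠ 0) :
    Transcendental K t := by
  apply transcendental_of_not_mem_range
  rintro ⟨a, rfl⟩
  exact ht (ord_algebraMap v a)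

omit [CharZero K] in
theorem isAlgebraic_adjoin_of_ord_ne_zero (hFF : IsFF K F) (v : Place K F) (t : F)
    (ht : v.ord t ≠ 0) : Algebra.IsAlgebraic K⟮t⟯ F := by
  have := finiteDimensional_adjoin hFF (transcendental_of_ord_ne_zero v ht)
  infer_instance

omit [IsAlgClosed K] in
theorem exists_eq_smul_D (hFF : IsFF K F) {s : F} (hs : Transcendental K s) (ω : Ω[F⁄K]) :
    ∃ g : F, ω = g • D K F s := by
  have := finiteDimensional_adjoin hFF hs
  have h : ω ∈ Submodule.span F {D K F s} := by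
    rw [span_D_eq_top s inferInstance]
    exact Submodule.mem_top
  obtain ⟨g, hg⟩ := Submodule.mem_span_singleton.1 h
  exact ⟨g, hg.symm⟩

theorem dCoordGenerates (hFF : IsFF K F) (v : Place K F) : v.DCoordGenerates :=
  dCoordGenerates_of v (isAlgebraic_adjoin_of_ord_ne_zero hFF v)

theorem nontrivial_kaehler_of_place (hFF : IsFF K F) (v : Place K F) : Nontrivial Ω[F⁄K] :=
  nontrivial_kaehler_of v (fun _ hf => exists_sub_algebraMap_ord_pos hFF v hf)

theorem ordDifferential_smul_of_ne (hFF : IsFF K F) (v : Place K F)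
    {g : F} (hg : g ≠ 0) {ω : Ω[F⁄K]} (hω : ω ≠ 0) :
    v.ordDifferential (g • ω) = v.ord g + v.ordDifferential ω :=
  ordDifferential_smul_of v (isAlgebraic_adjoin_of_ord_ne_zero hFF v)
    (fun _ hf => exists_sub_algebraMap_ord_pos hFF v hf) hg hω

/-- A4 -/
theorem ordDifferential_D (hFF : IsFF K F) (v : Place K F) {s : F}
    (hs : v.ord s ≠ 0) : v.ordDifferential (D K F s) = v.ord s - 1 :=
  ordDifferential_D_of v (isAlgebraic_adjoin_of_ord_ne_zero hFF v)
    (fun _ hf => exists_sub_algebraMap_ord_pos hFF v hf) hs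

/-- the differential of an element with a zero or a pole is non-zero -/
theorem D_ne_zero_of_ord_ne_zero (hFF : IsFF K F) (v : Place K F) {s : F}
    (hs : v.ord s ≠ 0) : D K F s ≠ 0 := by
  obtain ⟨ι, hι1, hι2⟩ := exists_taylor_place v
    (fun _ hf => exists_sub_algebraMap_ord_pos hFF v hf)
  have hs0 : s ≠ 0 := by rintro rfl; simp at hs
  exact D_ne_zero_of_ringHom ι (fun c => by rw [hι1, lder_C]) (by rwa [hι2 s hs0])

section NeZero

omit [IsAlgClosed K]

open scoped RatFunc in
theorem D_gen_ne_zero {s : F} (hs : Transcendental K s) :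
    D K K⟮s⟯ (AdjoinSimple.gen K s) ≠ 0 := by
  set ι : K⟮s⟯ →+* LaurentSeries K :=
    (algebraMap (RatFunc K) (LaurentSeries K)).comp
      ((RatFunc.algEquivOfTranscendental s hs).symm : K⟮s⟯ →+* RatFunc K) with hι
  refine D_ne_zero_of_ringHom ι (fun c => ?_) ?_
  · have : ι (algebraMap K K⟮s⟯ c) = HahnSeries.C c := by
      rw [hι, RingHom.comp_apply]
      simp only [AlgEquiv.commutes, RingHom.coe_coe]
      rw [IsScalarTower.algebraMap_apply K (Polynomial K) (RatFunc K),
        ← IsScalarTower.algebraMap_apply (Polynomial K) (RatFunc K) (LaurentSeries K)]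
      simp
    rw [this, lder_C]
  · have : ι (AdjoinSimple.gen K s) = single 1 1 := by
      rw [hι, RingHom.comp_apply]
      simp
    rw [this, order_single one_ne_zero]
    exact one_ne_zero

theorem D_ne_zero_of_transcendental {s : F} (hs : Transcendental K s)
    (halg : Algebra.IsAlgebraic K⟮s⟯ F) : D K F s ≠ 0 := by
  intro h
  have : Algebra.FormallyEtale K⟮s⟯ F := Algebra.FormallyEtale.of_isSeparable _ _
  have h1 := KaehlerDifferential.tensorKaehlerEquivOfFormallyEtale_symm_D_algebraMap K K⟮s⟯ F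
    (AdjoinSimple.gen K s)
  rw [AdjoinSimple.algebraMap_gen, h, map_zero] at h1
  have h2 := Module.Flat.tensorProduct_mk_injective K⟮s⟯ Ω[K⟮s⟯⁄K] F
  have h3 : TensorProduct.mk K⟮s⟯ F Ω[K⟮s⟯⁄K] 1 (D K K⟮s⟯ (AdjoinSimple.gen K s)) =
    TensorProduct.mk K⟮s⟯ F Ω[K⟮s⟯⁄K] 1 0 := by
    rw [map_zero]
    exact h1.symm
  exact D_gen_ne_zero hs (h2 h3)


theorem D_ne_zero (hFF : IsFF K F) {s : F} (hs : Transcendental K s) : D K F s ≠ 0 := by
  have := finiteDimensional_adjoin hFF hs
  exact D_ne_zero_of_transcendental hs inferInstance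

theorem exists_ne_zero (hFF : IsFF K F) : ∃ ω : Ω[F⁄K], ω ≠ 0 := by
  obtain ⟨s, hs, -⟩ := id hFF
  exact ⟨_, D_ne_zero hFF hs⟩

end NeZero

end Fermat.Agent.S24Lib
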