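import Fermat.Agent.S24.Principal
import Fermat.Agent.S24.KaehlerFF

/-!
# S24, PART C (abstract): the degree of a canonical divisor from the ramification of `j`
-/

set_option autoImplicit false

namespace Fermat.Agent.S24Lib

open AlgebraicCurve IntermediateField KaehlerDifferential

variable {K F : Type} [Field K] [IsAlgClosed K] [CharZero K] [Field F] [Algebra K F]

omit [IsAlgClosed K] [CharZero K] in
theorem adjoin_sub_const (j : F) (c : K) : K⟮j - algebraMap K F c⟯ = K⟮j⟯ := by
  apply le_antisymm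
  · rw [adjoin_simple_le_iff]
    exact sub_mem (mem_adjoin_simple_self K j) (IntermediateField.algebraMap_mem _ c)
  · rw [adjoin_simple_le_iff]
    have h : (j - algebraMap K F c) + algebraMap K F c ∈ K⟮j - algebraMap K F c⟯ :=
      add_mem (mem_adjoin_simple_self K _) (IntermediateField.algebraMap_mem _ c)
    simpa using h

omit [IsAlgClosed K] [CharZero K] in
theorem adjoin_inv_eq (j : F) : K⟮j⁻¹⟯ = K⟮j⟯ := by
  apply le_antisymm
  · rw [adjoin_simple_le_iff]
    exact inv_mem (mem_adjoin_simple_self K j)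
  · rw [adjoin_simple_le_iff]
    have h : (j⁻¹)⁻¹ ∈ K⟮j⁻¹⟯ := inv_mem (mem_adjoin_simple_self K _)
    simpa using h

omit [IsAlgClosed K] [CharZero K] in
theorem transcendental_sub_const {j : F} (hj : Transcendental K j) (c : K) :
    Transcendental K (j - algebraMap K F c) := by
  intro h
  apply hj
  have h2 : IsAlgebraic K ((j - algebraMap K F c) + algebraMap K F c) :=
    h.add (isAlgebraic_algebraMap c)
  simpa using h2

omit [IsAlgClosed K] [CharZero K] in
theorem transcendental_inv {j : F} (hj : Transcendental K j) : Transcendental K j⁻¹ := by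
  intro h
  apply hj
  simpa using h.inv

theorem card_zeros_eq (hFF : IsFF K F) {s : F} (hs : Transcendental K s) :
    Nat.card {v : Place K F // 0 < v.ord s} = (finite_zeros hFF hs).toFinset.card := by
  have := Nat.card_coe_set_eq {v : Place K F | 0 < v.ord s}
  rw [Set.ncard_eq_toFinset_card _ (finite_zeros hFF hs)] at this
  exact this

theorem sum_ord_sub_one (hFF : IsFF K F) {s : F} (hs : Transcendental K s) :
    ∑ v ∈ (finite_zeros hFF hs).toFinset, (v.ord s - 1)
      = (Module.finrank K⟮s⟯ F : ℤ) - Nat.card {v : Place K F // 0 < v.ord s} := by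
  rw [Finset.sum_sub_distrib, sum_ord_zeros hFF hs, card_zeros_eq hFF hs]
  simp

theorem ord_eq_one_of_card (hFF : IsFF K F) {s : F} (hs : Transcendental K s)
    (hc : Nat.card {v : Place K F // 0 < v.ord s} = Module.finrank K⟮s⟯ F)
    (v : Place K F) (hv : 0 < v.ord s) : v.ord s = 1 := by
  have h := sum_ord_sub_one hFF hs
  rw [hc, sub_self] at h
  have h2 := (Finset.sum_eq_zero_iff_of_nonneg (fun w hw => by
    have : 0 < w.ord s := by simpa using hw
    omega)).mp h v (by simpa using hv)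
  omega

omit [IsAlgClosed K] [CharZero K] in
theorem D_sub_const (j : F) (c : K) : D K F (j - algebraMap K F c) = D K F j := by
  rw [map_sub, Derivation.map_algebraMap, sub_zero]

theorem ordDiff_of_zero (hFF : IsFF K F) (j : F) (c : K) (v : Place K F)
    (hv : 0 < v.ord (j - algebraMap K F c)) :
    v.ordDifferential (D K F j) = v.ord (j - algebraMap K F c) - 1 := by
  rw [← D_sub_const j c]
  exact ordDifferential_D hFF v hv.ne'

theorem ordDiff_of_pole (hFF : IsFF K F) (j : F) (v : Place K F) (hv : 0 < v.ord j⁻¹) :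
    v.ordDifferential (D K F j) = - v.ord j⁻¹ - 1 := by
  rw [Place.ord_inv] at hv ⊢
  rw [neg_neg]
  exact ordDifferential_D hFF v (by omega)

omit [IsAlgClosed K] [CharZero K] in
/-- a place cannot be a zero of `j - a` and of `j - b` for `a ≠ b` -/
theorem not_zero_zero (j : F) {a b : K} (hab : a ≠ b) (v : Place K F)
    (ha : 0 < v.ord (j - algebraMap K F a)) (hb : 0 < v.ord (j - algebraMap K F b)) : False := by
  have h1 : (j - algebraMap K F b) - (j - algebraMap K F a) = algebraMap K F (a - b) := by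
    rw [map_sub]; ring
  have h0 : algebraMap K F (a - b) ≠ 0 := by
    rw [Ne, map_eq_zero]
    exact sub_ne_zero.mpr hab
  have h2 := le_ord_sub v (f := j - algebraMap K F b) (g := j - algebraMap K F a) (by rw [h1]; exact h0)
  rw [h1, ord_algebraMap] at h2
  have := lt_min hb ha
  omega

omit [IsAlgClosed K] [CharZero K] in
/-- a place cannot be a zero of `j - a` and a pole of `j` -/
theorem not_zero_pole {j : F} (hj : j ≠ 0) (a : K) (v : Place K F)
    (ha : 0 < v.ord (j - algebraMap K F a)) (hb : 0 < v.ord j⁻¹) : False := by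
  rw [Place.ord_inv] at hb
  have h1 : (j - algebraMap K F a) + algebraMap K F a = j := by ring
  have h2 := le_ord_add v (f := j - algebraMap K F a) (g := algebraMap K F a) (by rw [h1]; exact hj)
  rw [h1, ord_algebraMap] at h2
  have := le_min ha.le (le_refl (0 : ℤ))
  omega

theorem degree_eq_sum (hFF : IsFF K F) (E : Divisor K F) (S : Finset (Place K F))
    (hS : ∀ v, v ∉ S → E v = 0) : Divisor.degree E = ∑ v ∈ S, E v := by
  have h1 : Divisor.degree E = E.sum fun v n => n * (v.deg : ℤ) := by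
    simp [Divisor.degree, Finsupp.liftAddHom_apply]
  rw [h1, Finsupp.sum_of_support_subset E (s := S) _ _ (by simp)]
  · refine Finset.sum_congr rfl fun v _ => ?_
    rw [deg_eq_one hFF v]
    simp
  · intro v hv
    by_contra hvS
    exact (Finsupp.mem_support_iff.mp hv) (hS v hvS)

/-- **Riemann–Hurwitz for `j`.** -/
theorem degree_of_counts (hFF : IsFF K F) {j : F} (hj : Transcendental K j) (a₀ a₁ : K)
    (ha : a₀ ≠ a₁) (c₀ c₁ cI : ℕ)
    (h₀ : Nat.card {v : Place K F // 0 < v.ord (j - algebraMap K F a₀)} = c₀)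
    (h₁ : Nat.card {v : Place K F // 0 < v.ord (j - algebraMap K F a₁)} = c₁)
    (hI : Nat.card {v : Place K F // 0 < v.ord j⁻¹} = cI)
    (hgen : ∀ c : K, c ≠ a₀ → c ≠ a₁ →
      Nat.card {v : Place K F // 0 < v.ord (j - algebraMap K F c)} = Module.finrank K⟮j⟯ F)
    {ω : Ω[F⁄K]} (hω : ω ≠ 0) (D₀ : Divisor K F) (hD : ∀ v, D₀ v = v.ordDifferential ω) :
    Divisor.degree D₀ = (Module.finrank K⟮j⟯ F : ℤ) - c₀ - c₁ - cI := by
  classical
  have hj0 : j ≠ 0 := by
    rintro rfl
    exact hj isAlgebraic_zero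
  obtain ⟨g, hg⟩ := exists_eq_smul_D hFF hj ω
  have hg0 : g ≠ 0 := by
    rintro rfl
    exact hω (by rw [hg, zero_smul])
  have hDj : D K F j ≠ 0 := by
    intro h
    exact hω (by rw [hg, h, smul_zero])
  obtain ⟨Dg, hDg, hDg0⟩ := exists_principal_divisor hFF hg0
  set E : Divisor K F := D₀ - Dg with hE
  have hEv : ∀ v, E v = v.ordDifferential (D K F j) := by
    intro v
    rw [hE, Finsupp.sub_apply, hD, hDg, hg, ordDifferential_smul_of_ne hFF v hg0 hDj]
    ring
  have hdeg : Divisor.degree D₀ = Divisor.degree E := by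
    rw [hE, map_sub, hDg0, sub_zero]
  have t₀ := transcendental_sub_const hj a₀
  have t₁ := transcendental_sub_const hj a₁
  have tI := transcendental_inv hj
  set Z₀ := (finite_zeros hFF t₀).toFinset with hZ₀
  set Z₁ := (finite_zeros hFF t₁).toFinset with hZ₁
  set ZI := (finite_zeros hFF tI).toFinset with hZI
  have m₀ : ∀ v, v ∈ Z₀ ↔ 0 < v.ord (j - algebraMap K F a₀) := by intro v; simp [hZ₀]
  have m₁ : ∀ v, v ∈ Z₁ ↔ 0 < v.ord (j - algebraMap K F a₁) := by intro v; simp [hZ₁]
  have mI : ∀ v, v ∈ ZI ↔ 0 < v.ord j⁻¹ := by intro v; simp [hZI]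
  have d01 : Disjoint Z₀ Z₁ := by
    rw [Finset.disjoint_left]
    intro v h0 h1
    exact not_zero_zero j ha v ((m₀ v).mp h0) ((m₁ v).mp h1)
  have d01I : Disjoint (Z₀ ∪ Z₁) ZI := by
    rw [Finset.disjoint_left]
    intro v h0 h1
    rcases Finset.mem_union.mp h0 with h | h
    · exact not_zero_pole hj0 a₀ v ((m₀ v).mp h) ((mI v).mp h1)
    · exact not_zero_pole hj0 a₁ v ((m₁ v).mp h) ((mI v).mp h1)
  have hout : ∀ v, v ∉ (Z₀ ∪ Z₁) ∪ ZI → E v = 0 := by
    intro v hv
    simp only [Finset.mem_union, not_or] at hv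
    obtain ⟨⟨hv0, hv1⟩, hvI⟩ := hv
    rw [m₀] at hv0
    rw [m₁] at hv1
    rw [mI, Place.ord_inv] at hvI
    obtain ⟨c, hc | hc⟩ := exists_sub_algebraMap_ord_pos hFF v (f := j) (by omega)
    · exact absurd (hc ▸ isAlgebraic_algebraMap c) hj
    · have hc0 : c ≠ a₀ := by rintro rfl; exact hv0 hc
      have hc1 : c ≠ a₁ := by rintro rfl; exact hv1 hc
      have hcard := hgen c hc0 hc1
      rw [← adjoin_sub_const j c] at hcard
      rw [hEv, ordDiff_of_zero hFF j c v hc,
        ord_eq_one_of_card hFF (transcendental_sub_const hj c) hcard v hc, sub_self]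
  rw [hdeg, degree_eq_sum hFF E _ hout, Finset.sum_union d01I, Finset.sum_union d01]
  have s₀ : ∑ v ∈ Z₀, E v = (Module.finrank K⟮j⟯ F : ℤ) - c₀ := by
    rw [← h₀, ← adjoin_sub_const j a₀, ← sum_ord_sub_one hFF t₀]
    refine Finset.sum_congr rfl fun v hv => ?_
    rw [hEv, ordDiff_of_zero hFF j a₀ v ((m₀ v).mp hv)]
  have s₁ : ∑ v ∈ Z₁, E v = (Module.finrank K⟮j⟯ F : ℤ) - c₁ := by
    rw [← h₁, ← adjoin_sub_const j a₁, ← sum_ord_sub_one hFF t₁]
    refine Finset.sum_congr rfl fun v hv => ?_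
    rw [hEv, ordDiff_of_zero hFF j a₁ v ((m₁ v).mp hv)]
  have sI : ∑ v ∈ ZI, E v = - (Module.finrank K⟮j⟯ F : ℤ) - cI := by
    have e1 : ∑ v ∈ ZI, E v = ∑ v ∈ ZI, (- v.ord j⁻¹ - 1) := by
      refine Finset.sum_congr rfl fun v hv => ?_
      rw [hEv, ordDiff_of_pole hFF j v ((mI v).mp hv)]
    rw [e1, Finset.sum_sub_distrib, Finset.sum_neg_distrib, sum_ord_zeros hFF tI,
      adjoin_inv_eq, ← hI, card_zeros_eq hFF tI]
    simp [hZI]
  rw [s₀, s₁, sI]
  ring

end Fermat.Agent.S24Lib
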