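import Mathlib
import Fermat.Prelude.Def_ModularCurve_X0
import Fermat.Prelude.Def_ModularCurve_LaurentCoeff

set_option autoImplicit false
open Filter Topology

namespace Fermat.Agent.S24Lib

/-- Taylor series at `0` of a function `ℂ → ℂ`, as a formal power series. -/
noncomputable def tay (H : ℂ → ℂ) : PowerSeries ℂ :=
  .mk fun m => ((m.factorial : ℂ))⁻¹ * iteratedDeriv m H 0

theorem tay_coeff (H : ℂ → ℂ) (m : ℕ) :
    (tay H).coeff m = ((m.factorial : ℂ))⁻¹ * iteratedDeriv m H 0 := by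
  simp [tay]

theorem tay_congr {H G : ℂ → ℂ} (h : H =ᶠ[𝓝 0] G) : tay H = tay G := by
  ext m
  rw [tay_coeff, tay_coeff, h.iteratedDeriv_eq m]

theorem tay_add {H G : ℂ → ℂ} (hH : AnalyticAt ℂ H 0) (hG : AnalyticAt ℂ G 0) :
    tay (fun z => H z + G z) = tay H + tay G := by
  ext m
  simp [tay_coeff, iteratedDeriv_fun_add hH.contDiffAt hG.contDiffAt, mul_add]

theorem tay_mul {H G : ℂ → ℂ} (hH : AnalyticAt ℂ H 0) (hG : AnalyticAt ℂ G 0) :
    tay (fun z => H z * G z) = tay H * tay G := by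
  ext m
  simp only [tay_coeff, iteratedDeriv_fun_mul hH.contDiffAt hG.contDiffAt, Finset.mul_sum,
    PowerSeries.coeff_mul, Finset.Nat.sum_antidiagonal_eq_sum_range_succ_mk, Nat.succ_eq_add_one]
  refine Finset.sum_congr rfl fun i hi ↦ ?_
  rw [Nat.cast_choose _ (by grind)]
  field_simp [Nat.factorial_ne_zero]

theorem tay_const (c : ℂ) : tay (fun _ => c) = PowerSeries.C c := by
  ext m
  rw [tay_coeff, iteratedDeriv_const, PowerSeries.coeff_C]
  split_ifs with h
  · subst h; simp
  · simp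

theorem tay_id : tay (fun z => z) = PowerSeries.X := by
  ext m
  rw [tay_coeff, PowerSeries.coeff_X]
  rcases m with _ | _ | m
  · simp
  · simp
  · rw [iteratedDeriv_succ', iteratedDeriv_succ']
    simp

theorem tay_pow {H : ℂ → ℂ} (hH : AnalyticAt ℂ H 0) (n : ℕ) :
    tay (fun z => H z ^ n) = tay H ^ n := by
  induction n with
  | zero => simpa using tay_const 1
  | succ n ih =>
    simp only [pow_succ]
    have h1 : AnalyticAt ℂ (fun z => H z ^ n) 0 := hH.pow n
    rw [tay_mul h1 hH, ih]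

theorem tay_id_pow (n : ℕ) : tay (fun z => z ^ n) = PowerSeries.X ^ n := by
  have h1 : AnalyticAt ℂ (fun z : ℂ => z) 0 := analyticAt_id
  rw [tay_pow h1, tay_id]

theorem tay_neg {H : ℂ → ℂ} (hH : AnalyticAt ℂ H 0) : tay (fun z => - H z) = - tay H := by
  have := tay_mul (analyticAt_const (v := (-1 : ℂ))) hH
  simpa [tay_const] using this

theorem tay_sub {H G : ℂ → ℂ} (hH : AnalyticAt ℂ H 0) (hG : AnalyticAt ℂ G 0) :
    tay (fun z => H z - G z) = tay H - tay G := by
  simp only [sub_eq_add_neg]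
  have h1 : AnalyticAt ℂ (fun z => - G z) 0 := hG.neg
  rw [tay_add hH h1, tay_neg hG]

theorem tay_coeff_zero (H : ℂ → ℂ) : (tay H).coeff 0 = H 0 := by
  simp [tay_coeff]

theorem tay_constantCoeff (H : ℂ → ℂ) : PowerSeries.constantCoeff (tay H) = H 0 := by
  rw [← PowerSeries.coeff_zero_eq_constantCoeff_apply, tay_coeff_zero]

/-- the Taylor series converges to the function -/
theorem hasFPowerSeriesAt_tay {H : ℂ → ℂ} (hH : AnalyticAt ℂ H 0) :
    HasFPowerSeriesAt H (FormalMultilinearSeries.ofScalars ℂ (fun n => (tay H).coeff n)) 0 := by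
  have h1 : (fun n => (tay H).coeff n) = (fun n ↦ iteratedDeriv n H 0 / (n.factorial : ℂ)) := by
    funext n
    rw [tay_coeff, div_eq_inv_mul]
  rw [h1]
  exact hH.hasFPowerSeriesAt

theorem hasSum_tay {H : ℂ → ℂ} (hH : AnalyticAt ℂ H 0) :
    ∃ r : ℝ, 0 < r ∧ ∀ z : ℂ, ‖z‖ < r → HasSum (fun n => (tay H).coeff n * z ^ n) (H z) := by
  obtain ⟨r, hr⟩ := hasFPowerSeriesAt_tay hH
  obtain ⟨r', hr'0, hr'⟩ := ENNReal.lt_iff_exists_nnreal_btwn.mp hr.r_pos
  refine ⟨r', by exact_mod_cast hr'0, fun z hz => ?_⟩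
  have hz' : z ∈ Metric.eball (0 : ℂ) r := by
    refine Metric.eball_subset_eball hr'.le ?_
    rw [Metric.eball_coe, mem_ball_zero_iff]
    exact hz
  have := hr.hasSum hz'
  simpa [FormalMultilinearSeries.ofScalars_apply_eq, mul_comm] using this

theorem tay_eq_of_hasFPowerSeriesAt {H : ℂ → ℂ} {a : ℕ → ℂ}
    (h : HasFPowerSeriesAt H (FormalMultilinearSeries.ofScalars ℂ a) 0) :
    tay H = PowerSeries.mk a := by
  have h2 := hasFPowerSeriesAt_tay h.analyticAt
  have h3 := h.eq_formalMultilinearSeries h2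
  ext n
  have h4 := congrArg (fun p => FormalMultilinearSeries.coeff p n) h3
  simp only [FormalMultilinearSeries.coeff_ofScalars] at h4
  rw [PowerSeries.coeff_mk, h4]

theorem hasFPowerSeriesAt_of_hasSum {H : ℂ → ℂ} {a : ℕ → ℂ} {r : ℝ} (hr : 0 < r)
    (h : ∀ z : ℂ, ‖z‖ < r → HasSum (fun n => a n * z ^ n) (H z)) :
    HasFPowerSeriesAt H (FormalMultilinearSeries.ofScalars ℂ a) 0 := by
  lift r to NNReal using hr.le
  refine ⟨r, ?_, by exact_mod_cast hr, ?_⟩
  · refine le_of_forall_lt_imp_le_of_dense fun s hs ↦ ?_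
    lift s to NNReal using hs.ne_top
    apply FormalMultilinearSeries.le_radius_of_summable
    have := (h (s : ℂ) (by simpa using hs)).summable.norm
    simpa [smul_eq_mul, norm_mul, mul_comm, mul_left_comm, mul_assoc] using this
  · intro y hy
    rw [Metric.eball_coe, mem_ball_zero_iff] at hy
    simpa [mul_comm] using h y hy

theorem tay_eq_of_hasSum {H : ℂ → ℂ} {a : ℕ → ℂ} {r : ℝ} (hr : 0 < r)
    (h : ∀ z : ℂ, ‖z‖ < r → HasSum (fun n => a n * z ^ n) (H z)) :
    tay H = PowerSeries.mk a :=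
  tay_eq_of_hasFPowerSeriesAt (hasFPowerSeriesAt_of_hasSum hr h)

theorem tay_eq_zero_iff {H : ℂ → ℂ} (hH : AnalyticAt ℂ H 0) :
    tay H = 0 ↔ H =ᶠ[𝓝 0] 0 := by
  constructor
  · intro h
    obtain ⟨r, hr, hs⟩ := hasSum_tay hH
    filter_upwards [Metric.ball_mem_nhds (0 : ℂ) hr] with z hz
    have := hs z (by simpa using hz)
    simp only [h, map_zero, zero_mul] at this
    exact this.unique hasSum_zero
  · intro h
    rw [tay_congr h]
    simpa using! tay_const 0



/-- underlying function of `rot` -/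
noncomputable def rotFun (c : ℂˣ) (x : LaurentSeries ℂ) : LaurentSeries ℂ :=
  ⟨fun n => (c : ℂ) ^ n * x.coeff n, x.isPWO_support.mono (by
    intro n hn
    simp only [Function.mem_support, ne_eq, mul_eq_zero, not_or] at hn
    exact hn.2)⟩

theorem rotFun_coeff (c : ℂˣ) (x : LaurentSeries ℂ) (n : ℤ) :
    (rotFun c x).coeff n = (c : ℂ) ^ n * x.coeff n := rfl

theorem rotFun_support (c : ℂˣ) (x : LaurentSeries ℂ) : (rotFun c x).support = x.support := by
  ext n
  simp [rotFun_coeff, zpow_ne_zero n c.ne_zero]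

/-- rotation `a_n ↦ c ^ n * a_n` of Laurent series -/
noncomputable def rot (c : ℂˣ) : LaurentSeries ℂ →+* LaurentSeries ℂ where
  toFun x := rotFun c x
  map_zero' := by ext n; simp [rotFun_coeff]
  map_one' := by
    ext n
    simp only [HahnSeries.coeff_one, rotFun_coeff]
    split_ifs with h
    · subst h; simp
    · simp
  map_add' x y := by ext n; simp [mul_add, rotFun_coeff]
  map_mul' x y := by
    ext n
    rw [rotFun_coeff, HahnSeries.coeff_mul, HahnSeries.coeff_mul, Finset.mul_sum]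
    refine Finset.sum_congr ?_ ?_
    · ext ij
      simp only [Finset.mem_antidiagonal, rotFun_support]
    · intro ij hij
      simp only [Finset.mem_antidiagonal] at hij
      rw [rotFun_coeff, rotFun_coeff, ← hij.2.2, zpow_add₀ c.ne_zero]
      ring

@[simp] theorem rot_coeff (c : ℂˣ) (x : LaurentSeries ℂ) (n : ℤ) :
    (rot c x).coeff n = (c : ℂ) ^ n * x.coeff n := rfl

theorem rot_single (c : ℂˣ) (n : ℤ) (a : ℂ) :
    rot c (HahnSeries.single n a) = HahnSeries.single n ((c : ℂ) ^ n * a) := by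
  ext m
  rw [rot_coeff]
  rcases eq_or_ne m n with rfl | h
  · simp
  · simp [HahnSeries.coeff_single_of_ne h]

theorem rot_C (c : ℂˣ) (a : ℂ) : rot c (HahnSeries.C a) = HahnSeries.C a := by
  have := rot_single c 0 a
  simpa using this

theorem rot_one (x : LaurentSeries ℂ) : rot 1 x = x := by
  ext n; simp

theorem rot_rot (c d : ℂˣ) (x : LaurentSeries ℂ) : rot c (rot d x) = rot (c * d) x := by
  ext n
  simp [mul_zpow, mul_assoc]

theorem rot_injective (c : ℂˣ) : Function.Injective (rot c) := by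
  intro x y h
  have := congrArg (rot c⁻¹) h
  simpa [rot_rot, rot_one] using this

theorem rot_order (c : ℂˣ) (x : LaurentSeries ℂ) : (rot c x).order = x.order := by
  by_cases hx : x = 0
  · simp [hx]
  · have hx' : rot c x ≠ 0 := fun h => hx (rot_injective c (by simpa using h))
    rw [HahnSeries.order_of_ne hx, HahnSeries.order_of_ne hx']
    congr 1
    exact rotFun_support c x

end Fermat.Agent.S24Lib
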